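import Mathlib

/-!
# S53, part F1: power series rings over a complete local ring are complete

For a local ring `S` which is adically complete with respect to its maximal ideal, the ring
`S⟦X⟧` is adically complete with respect to its maximal ideal; by induction the same holds for
`MvPowerSeries (Fin n) S`.
-/

set_option autoImplicit false

namespace Fermat.Agent.S53

open IsLocalRing PowerSeries

section OneVar

variable {S : Type*} [CommRing S] [IsLocalRing S]

/-- The filtration `𝔉 n = {f | coeff i f ∈ 𝔪 ^ (n - i)}` on `S⟦X⟧`. -/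
def psFilt (S : Type*) [CommRing S] [IsLocalRing S] (n : ℕ) : Ideal S⟦X⟧ where
  carrier := {f | ∀ i, coeff i f ∈ maximalIdeal S ^ (n - i)}
  zero_mem' := fun i => by simp
  add_mem' := fun {f g} hf hg i => by
    rw [map_add]; exact Ideal.add_mem _ (hf i) (hg i)
  smul_mem' := fun c f hf i => by
    rw [smul_eq_mul, coeff_mul]
    refine Ideal.sum_mem _ fun p hp => ?_
    have hp' : p.2 ≤ i := by
      have : p.1 + p.2 = i := by simpa using hp
      omega
    exact Ideal.mul_mem_left _ _ (Ideal.pow_le_pow_right (by omega) (hf p.2))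

lemma mem_psFilt {n : ℕ} {f : S⟦X⟧} :
    f ∈ psFilt S n ↔ ∀ i, coeff i f ∈ maximalIdeal S ^ (n - i) := Iff.rfl

lemma psFilt_mul_le (a b : ℕ) : psFilt S a * psFilt S b ≤ psFilt S (a + b) := by
  rw [Ideal.mul_le]
  intro f hf g hg i
  rw [coeff_mul]
  refine Ideal.sum_mem _ fun p hp => ?_
  have hpi : p.1 + p.2 = i := by simpa using hp
  have h1 := Ideal.mul_mem_mul (hf p.1) (hg p.2)
  rw [← pow_add] at h1
  exact Ideal.pow_le_pow_right (by omega) h1

lemma maximalIdeal_eq_psFilt_one : maximalIdeal S⟦X⟧ = psFilt S 1 := by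
  ext f
  rw [mem_maximalIdeal, mem_nonunits_iff, isUnit_iff_constantCoeff, mem_psFilt]
  constructor
  · intro h i
    rcases Nat.eq_zero_or_pos i with rfl | hi
    · simpa using h
    · have : 1 - i = 0 := by omega
      simp [this]
  · intro h
    have := h 0
    simpa using this

lemma maximalIdeal_pow_le_psFilt (n : ℕ) : maximalIdeal S⟦X⟧ ^ n ≤ psFilt S n := by
  induction n with
  | zero =>
    intro f _ i
    simp
  | succ n ih =>
    rw [pow_succ]
    calc maximalIdeal S⟦X⟧ ^ n * maximalIdeal S⟦X⟧ ≤ psFilt S n * psFilt S 1 :=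
          Ideal.mul_mono ih maximalIdeal_eq_psFilt_one.le
      _ ≤ psFilt S (n + 1) := psFilt_mul_le n 1

lemma C_mem_maximalIdeal_pow {a : S} {k : ℕ} (ha : a ∈ maximalIdeal S ^ k) :
    C a ∈ maximalIdeal S⟦X⟧ ^ k := by
  have h1 : (maximalIdeal S).map (C : S →+* S⟦X⟧) ≤ maximalIdeal S⟦X⟧ := by
    rw [Ideal.map_le_iff_le_comap]
    intro x hx
    rw [Ideal.mem_comap, maximalIdeal_eq_psFilt_one, mem_psFilt]
    intro i
    rcases Nat.eq_zero_or_pos i with rfl | hi
    · simpa using hx
    · have : 1 - i = 0 := by omega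
      simp [this]
  have h2 : C a ∈ ((maximalIdeal S).map (C : S →+* S⟦X⟧)) ^ k := by
    rw [← Ideal.map_pow]
    exact Ideal.mem_map_of_mem _ ha
  exact Ideal.pow_right_mono h1 k h2

lemma X_mem_maximalIdeal : (X : S⟦X⟧) ∈ maximalIdeal S⟦X⟧ := by
  rw [mem_maximalIdeal, mem_nonunits_iff, isUnit_iff_constantCoeff]
  simp

lemma psFilt_le_maximalIdeal_pow (n : ℕ) : psFilt S n ≤ maximalIdeal S⟦X⟧ ^ n := by
  induction n with
  | zero => simp
  | succ n ih =>
    intro f hf
    have hdecomp := sub_const_eq_X_mul_shift f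
    have hg : (mk fun p => coeff (p + 1) f) ∈ psFilt S n := by
      intro i
      rw [coeff_mk]
      have := hf (i + 1)
      have e : n + 1 - (i + 1) = n - i := by omega
      rwa [e] at this
    have h0 : C (constantCoeff f) ∈ maximalIdeal S⟦X⟧ ^ (n + 1) := by
      apply C_mem_maximalIdeal_pow
      have := hf 0
      simpa using this
    have h1 : X * (mk fun p => coeff (p + 1) f) ∈ maximalIdeal S⟦X⟧ ^ (n + 1) := by
      rw [pow_succ']
      exact Ideal.mul_mem_mul X_mem_maximalIdeal (ih hg)
    have : f = C (constantCoeff f) + X * (mk fun p => coeff (p + 1) f) := by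
      rw [← hdecomp]; ring
    rw [this]
    exact Ideal.add_mem _ h0 h1

lemma maximalIdeal_pow_eq_psFilt (n : ℕ) : maximalIdeal S⟦X⟧ ^ n = psFilt S n :=
  le_antisymm (maximalIdeal_pow_le_psFilt n) (psFilt_le_maximalIdeal_pow n)

lemma smodEq_pow_iff {n : ℕ} {f g : S⟦X⟧} :
    f ≡ g [SMOD (maximalIdeal S⟦X⟧ ^ n • ⊤ : Submodule S⟦X⟧ S⟦X⟧)] ↔
      ∀ i, coeff i f - coeff i g ∈ maximalIdeal S ^ (n - i) := by
  rw [SModEq.sub_mem, smul_eq_mul, Ideal.mul_top, maximalIdeal_pow_eq_psFilt, mem_psFilt]
  simp only [map_sub]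

/-- `S⟦X⟧` is complete with respect to its maximal ideal if `S` is. -/
theorem isAdicComplete_powerSeries [IsAdicComplete (maximalIdeal S) S] :
    IsAdicComplete (maximalIdeal S⟦X⟧) S⟦X⟧ := by
  have hH : IsHausdorff (maximalIdeal S⟦X⟧) S⟦X⟧ := by
    rw [isHausdorff_iff]
    intro f hf
    ext i
    rw [map_zero]
    apply IsHausdorff.haus' (I := maximalIdeal S) (coeff i f)
    intro k
    have := (smodEq_pow_iff.mp (hf (k + i))) i
    rw [SModEq.sub_mem, smul_eq_mul, Ideal.mul_top]
    simpa using this
  have hP : IsPrecomplete (maximalIdeal S⟦X⟧) S⟦X⟧ := by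
    rw [isPrecomplete_iff]
    intro f hf
    -- the coefficient sequences
    have hc : ∀ i, ∃ L : S, ∀ k, coeff i (f (k + i)) ≡ L
        [SMOD (maximalIdeal S ^ k • ⊤ : Submodule S S)] := by
      intro i
      apply IsPrecomplete.prec' (I := maximalIdeal S) (fun k => coeff i (f (k + i)))
      intro a b hab
      have h1 := (smodEq_pow_iff.mp (hf (show a + i ≤ b + i by omega))) i
      rw [SModEq.sub_mem, smul_eq_mul, Ideal.mul_top]
      simpa using h1
    choose L hL using hc
    refine ⟨mk L, fun n => ?_⟩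
    rw [smodEq_pow_iff]
    intro i
    rw [coeff_mk]
    by_cases hin : i ≤ n
    · have h1 := hL i (n - i)
      rw [SModEq.sub_mem, smul_eq_mul, Ideal.mul_top] at h1
      have e : n - i + i = n := by omega
      rwa [e] at h1
    · have : n - i = 0 := by omega
      simp [this]
  exact { toIsHausdorff := hH, toIsPrecomplete := hP }

end OneVar

section Transport

/-- Completeness with respect to the maximal ideal is invariant under ring isomorphisms. -/
theorem isAdicComplete_maximalIdeal_of_ringEquiv {A B : Type*} [CommRing A] [CommRing B]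
    [IsLocalRing A] [IsLocalRing B] (e : A ≃+* B) [IsAdicComplete (maximalIdeal A) A] :
    IsAdicComplete (maximalIdeal B) B := by
  have h : (maximalIdeal A).map e = maximalIdeal B := by
    ext x
    rw [Ideal.mem_map_iff_of_surjective _ e.surjective]
    constructor
    · rintro ⟨a, ha, rfl⟩
      rw [mem_maximalIdeal, mem_nonunits_iff] at ha ⊢
      intro hu
      apply ha
      have := hu.map e.symm
      simpa using this
    · intro hx
      refine ⟨e.symm x, ?_, by simp⟩
      rw [mem_maximalIdeal, mem_nonunits_iff] at hx ⊢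
      intro hu
      apply hx
      have := hu.map e
      simpa using this
  rw [← h, IsAdicComplete.congr_ringEquiv]
  infer_instance

end Transport

section MvPowSer

variable (S : Type*) [CommRing S] [IsLocalRing S] [IsAdicComplete (maximalIdeal S) S]

/-- `S⟦X₁,…,Xₙ⟧` is complete with respect to its maximal ideal if `S` is. -/
theorem isAdicComplete_mvPowerSeries_fin (n : ℕ) :
    IsAdicComplete (maximalIdeal (MvPowerSeries (Fin n) S)) (MvPowerSeries (Fin n) S) := by
  induction n with
  | zero =>
    exact isAdicComplete_maximalIdeal_of_ringEquiv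
      (MvPowerSeries.isEmptyEquiv (Fin 0) S).symm.toRingEquiv
  | succ n ih =>
    have := ih
    have : IsAdicComplete (maximalIdeal (MvPowerSeries (Fin n) S)⟦X⟧)
        (MvPowerSeries (Fin n) S)⟦X⟧ := isAdicComplete_powerSeries
    exact isAdicComplete_maximalIdeal_of_ringEquiv
      (MvPowerSeries.finSuccEquiv S n).symm.toRingEquiv

end MvPowSer

end Fermat.Agent.S53
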