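import Fermat.Agent.S53.ArtinPairs
import Fermat.Agent.S53.PowSerComplete
import Fermat.Prelude.Thm_IsLocalRing_isAdicComplete_of_module_finite

/-!
# S53, part G: the universal object of the rigidified functor

`R = 𝒪⟦T₁,…,T_m⟧ ⧸ J`, `J = sInf KSet`, carries a universal normalised lift `r_univ`:
its image in every `P ⧸ K`, `K ∈ KSet`, is the canonical pair on `K`.
-/

set_option autoImplicit false
set_option linter.style.haveILetI false
set_option linter.unusedSectionVars false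

namespace Fermat.Agent.S53

open IsLocalRing

section

variable {𝒪 : Type} [CommRing 𝒪] [IsLocalRing 𝒪]
  {𝒟 : ∀ ⦃A : Type⦄ [CommRing A] [IsLocalRing A] [Algebra 𝒪 A], GaloisRepAdic A → Prop}
  {c : GQ → Matrix (Fin 2) (Fin 2) 𝒪} {E : Set (NormEq 𝒪)}
  {m : ℕ} {co : Fin m → GQ × Fin 2 × Fin 2}

/-! ### chosen data on the members of `KSet` -/

theorem kset_data {K : Ideal (MvPowerSeries (Fin m) 𝒪)} (hK : K ∈ KSet 𝒟 c E co) :
    ∃ (r : GQ →* Matrix (Fin 2) (Fin 2) (MvPowerSeries (Fin m) 𝒪 ⧸ K))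
      (_ : IsLocalRing (MvPowerSeries (Fin m) 𝒪 ⧸ K))
      (_ : GaloisRep.IsArtinianTestAlgebra 𝒪 (MvPowerSeries (Fin m) 𝒪 ⧸ K)),
      InF 𝒟 c E r ∧ IsAdapted c co (Ideal.Quotient.mkₐ 𝒪 K) r := by
  obtain ⟨hl, ht, r, hr, ha⟩ := hK
  exact ⟨r, hl, ht, hr, ha⟩

theorem kset_isLocalRing {K : Ideal (MvPowerSeries (Fin m) 𝒪)} (hK : K ∈ KSet 𝒟 c E co) :
    IsLocalRing (MvPowerSeries (Fin m) 𝒪 ⧸ K) := by
  obtain ⟨hl, -⟩ := hK
  exact hl

theorem kset_test {K : Ideal (MvPowerSeries (Fin m) 𝒪)} (hK : K ∈ KSet 𝒟 c E co) :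
    haveI := kset_isLocalRing hK
    GaloisRep.IsArtinianTestAlgebra 𝒪 (MvPowerSeries (Fin m) 𝒪 ⧸ K) := by
  obtain ⟨hl, ht, -⟩ := hK
  exact ht

/-- The canonical pair on a member of `KSet`. -/
noncomputable def ksetRep {K : Ideal (MvPowerSeries (Fin m) 𝒪)} (hK : K ∈ KSet 𝒟 c E co) :
    GQ →* Matrix (Fin 2) (Fin 2) (MvPowerSeries (Fin m) 𝒪 ⧸ K) :=
  (kset_data hK).choose

theorem ksetRep_inF {K : Ideal (MvPowerSeries (Fin m) 𝒪)} (hK : K ∈ KSet 𝒟 c E co) :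
    @InF 𝒪 _ _ 𝒟 c E (MvPowerSeries (Fin m) 𝒪 ⧸ K) _ (kset_isLocalRing hK) _ (ksetRep hK) := by
  obtain ⟨hl, ht, hr, ha⟩ := (kset_data hK).choose_spec
  exact hr

theorem ksetRep_adapted {K : Ideal (MvPowerSeries (Fin m) 𝒪)} (hK : K ∈ KSet 𝒟 c E co) :
    IsAdapted c co (Ideal.Quotient.mkₐ 𝒪 K) (ksetRep hK) := by
  obtain ⟨hl, ht, hr, ha⟩ := (kset_data hK).choose_spec
  exact ha

theorem ksetRep_unique (h : RingSideInput 𝒟 c E m co)
    {K : Ideal (MvPowerSeries (Fin m) 𝒪)} (hK : K ∈ KSet 𝒟 c E co)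
    [IsLocalRing (MvPowerSeries (Fin m) 𝒪 ⧸ K)]
    (r : GQ →* Matrix (Fin 2) (Fin 2) (MvPowerSeries (Fin m) 𝒪 ⧸ K))
    (hr : InF 𝒟 c E r) (ha : IsAdapted c co (Ideal.Quotient.mkₐ 𝒪 K) r) :
    r = ksetRep hK :=
  pair_unique h (kset_test hK) (Ideal.Quotient.mkₐ 𝒪 K) r (ksetRep hK) hr (ksetRep_inF hK) ha
    (ksetRep_adapted hK)

/-- Step V: the canonical pairs are compatible. -/
theorem ksetRep_factor (h : RingSideInput 𝒟 c E m co)
    {K K' : Ideal (MvPowerSeries (Fin m) 𝒪)} (hK : K ∈ KSet 𝒟 c E co)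
    (hK' : K' ∈ KSet 𝒟 c E co) (hle : K ≤ K') :
    mapRep ((Ideal.Quotient.factorₐ 𝒪 hle :
        (MvPowerSeries (Fin m) 𝒪 ⧸ K) →ₐ[𝒪] (MvPowerSeries (Fin m) 𝒪 ⧸ K')) :
        (MvPowerSeries (Fin m) 𝒪 ⧸ K) →+* (MvPowerSeries (Fin m) 𝒪 ⧸ K')) (ksetRep hK) =
      ksetRep hK' := by
  haveI := kset_isLocalRing hK
  haveI := kset_isLocalRing hK'
  have h1 := h.map (kset_test hK) (kset_test hK') (Ideal.Quotient.factorₐ 𝒪 hle) (ksetRep hK)
    (ksetRep_inF hK)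
  refine ksetRep_unique h hK' _ h1 ?_
  intro a
  have h2 := ((ksetRep_adapted hK).comp (Ideal.Quotient.factorₐ 𝒪 hle)) a
  rw [← h2]
  rfl

/-! ### the universal ideal and ring -/

/-- The universal ideal `J = sInf KSet`. -/
noncomputable def kInf (𝒟 : ∀ ⦃A : Type⦄ [CommRing A] [IsLocalRing A] [Algebra 𝒪 A], GaloisRepAdic A → Prop)
    (c : GQ → Matrix (Fin 2) (Fin 2) 𝒪) (E : Set (NormEq 𝒪))
    (co : Fin m → GQ × Fin 2 × Fin 2) : Ideal (MvPowerSeries (Fin m) 𝒪) :=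
  sInf (KSet 𝒟 c E co)

theorem kInf_le {K : Ideal (MvPowerSeries (Fin m) 𝒪)} (hK : K ∈ KSet 𝒟 c E co) :
    kInf 𝒟 c E co ≤ K := sInf_le hK

/-- The projection `R → P ⧸ K`. -/
noncomputable def kProj {K : Ideal (MvPowerSeries (Fin m) 𝒪)} (hK : K ∈ KSet 𝒟 c E co) :
    (MvPowerSeries (Fin m) 𝒪 ⧸ kInf 𝒟 c E co) →ₐ[𝒪] (MvPowerSeries (Fin m) 𝒪 ⧸ K) :=
  Ideal.Quotient.factorₐ 𝒪 (kInf_le hK)

lemma kProj_mk {K : Ideal (MvPowerSeries (Fin m) 𝒪)} (hK : K ∈ KSet 𝒟 c E co)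
    (p : MvPowerSeries (Fin m) 𝒪) :
    kProj hK (Ideal.Quotient.mk (kInf 𝒟 c E co) p) = Ideal.Quotient.mk K p :=
  Ideal.Quotient.factorₐ_apply_mk 𝒪 (kInf_le hK) p

theorem eq_of_forall_kProj {y y' : MvPowerSeries (Fin m) 𝒪 ⧸ kInf 𝒟 c E co}
    (hy : ∀ (K : Ideal (MvPowerSeries (Fin m) 𝒪)) (hK : K ∈ KSet 𝒟 c E co),
      kProj hK y = kProj hK y') : y = y' := by
  obtain ⟨p, rfl⟩ := Ideal.Quotient.mk_surjective y
  obtain ⟨p', rfl⟩ := Ideal.Quotient.mk_surjective y'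
  rw [Ideal.Quotient.eq, kInf, Ideal.mem_sInf]
  intro K hK
  have := hy K hK
  rwa [kProj_mk, kProj_mk, Ideal.Quotient.eq] at this

variable [IsNoetherianRing 𝒪] [Finite (ResidueField 𝒪)]

theorem kInf_le_maximalIdeal (h : RingSideInput 𝒟 c E m co) :
    kInf 𝒟 c E co ≤ maximalIdeal (MvPowerSeries (Fin m) 𝒪) := by
  obtain ⟨K, hK⟩ := KSet_nonempty h
  exact (kInf_le hK).trans (KSet_le_maximalIdeal hK)

theorem kInf_isLocalRing (h : RingSideInput 𝒟 c E m co) :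
    IsLocalRing (MvPowerSeries (Fin m) 𝒪 ⧸ kInf 𝒟 c E co) := by
  have hne : kInf 𝒟 c E co ≠ ⊤ := fun htop => by
    have := kInf_le_maximalIdeal h
    rw [htop] at this
    exact (maximalIdeal.isMaximal _).ne_top (top_le_iff.mp this)
  haveI : Nontrivial (MvPowerSeries (Fin m) 𝒪 ⧸ kInf 𝒟 c E co) :=
    Ideal.Quotient.nontrivial_iff.mpr hne
  exact IsLocalRing.of_surjective' (Ideal.Quotient.mk _) Ideal.Quotient.mk_surjective

theorem kInf_isCoeffAlg (h : RingSideInput 𝒟 c E m co) :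
    haveI := kInf_isLocalRing h
    IsCoeffAlg 𝒪 (MvPowerSeries (Fin m) 𝒪 ⧸ kInf 𝒟 c E co) :=
  haveI := kInf_isLocalRing h
  (isCoeffAlg_mvPowerSeries 𝒪 m).quotient _

theorem kInf_isAdicComplete [IsAdicComplete (maximalIdeal 𝒪) 𝒪]
    (h : RingSideInput 𝒟 c E m co) :
    haveI := kInf_isLocalRing h
    IsAdicComplete (maximalIdeal (MvPowerSeries (Fin m) 𝒪 ⧸ kInf 𝒟 c E co))
      (MvPowerSeries (Fin m) 𝒪 ⧸ kInf 𝒟 c E co) := by
  haveI := kInf_isLocalRing h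
  haveI : IsAdicComplete (maximalIdeal (MvPowerSeries (Fin m) 𝒪)) (MvPowerSeries (Fin m) 𝒪) :=
    isAdicComplete_mvPowerSeries_fin 𝒪 m
  haveI : IsLocalHom (algebraMap (MvPowerSeries (Fin m) 𝒪)
      (MvPowerSeries (Fin m) 𝒪 ⧸ kInf 𝒟 c E co)) :=
    IsLocalHom.of_surjective _ Ideal.Quotient.mk_surjective
  exact IsLocalRing.isAdicComplete_of_module_finite (𝒪 := MvPowerSeries (Fin m) 𝒪)

/-- Existence of the universal lift: a matrix valued homomorphism over `R` inducing the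
canonical pair on every member of `KSet`. -/
theorem exists_univRep [IsAdicComplete (maximalIdeal 𝒪) 𝒪] (h : RingSideInput 𝒟 c E m co) :
    ∃ r : GQ →* Matrix (Fin 2) (Fin 2) (MvPowerSeries (Fin m) 𝒪 ⧸ kInf 𝒟 c E co),
      ∀ (K : Ideal (MvPowerSeries (Fin m) 𝒪)) (hK : K ∈ KSet 𝒟 c E co),
        mapRep ((kProj hK : _ →ₐ[𝒪] _) : _ →+* (MvPowerSeries (Fin m) 𝒪 ⧸ K)) r =
          ksetRep hK := by
  classical
  haveI : IsAdicComplete (maximalIdeal (MvPowerSeries (Fin m) 𝒪)) (MvPowerSeries (Fin m) 𝒪) :=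
    isAdicComplete_mvPowerSeries_fin 𝒪 m
  have hfin : ∀ n, Finite (MvPowerSeries (Fin m) 𝒪 ⧸
      maximalIdeal (MvPowerSeries (Fin m) 𝒪) ^ n) := fun n => by
    haveI := (isCoeffAlg_mvPowerSeries 𝒪 m).finite_residueField
    exact finite_quotient_iff.mpr ⟨n, le_rfl⟩
  -- entries
  have hent : ∀ σ i j, ∃ y : MvPowerSeries (Fin m) 𝒪 ⧸ kInf 𝒟 c E co,
      ∀ (K : Ideal (MvPowerSeries (Fin m) 𝒪)) (hK : K ∈ KSet 𝒟 c E co),
        kProj hK y = ksetRep hK σ i j := by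
    intro σ i j
    obtain ⟨x, hx⟩ := exists_glue (maximalIdeal (MvPowerSeries (Fin m) 𝒪)) hfin
      (KSet 𝒟 c E co) (KSet_nonempty h) (fun K hK => KSet_open hK)
      (fun K hK K' hK' => KSet_inf h hK hK')
      (fun K => if hK : K ∈ KSet 𝒟 c E co then ksetRep hK σ i j else 0) (by
        intro K hK K' hK' hle
        rw [dif_pos hK, dif_pos hK', ← ksetRep_factor h hK hK' hle]
        rfl)
    refine ⟨Ideal.Quotient.mk _ x, fun K hK => ?_⟩
    rw [kProj_mk, hx K hK, dif_pos hK]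
  choose f hf using hent
  refine ⟨{ toFun := fun σ => Matrix.of (f σ), map_one' := ?_, map_mul' := ?_ }, ?_⟩
  · ext i j
    apply eq_of_forall_kProj
    intro K hK
    rw [Matrix.of_apply, hf, map_one]
    by_cases hij : i = j
    · subst hij; simp
    · simp [Matrix.one_apply_ne hij]
  · intro σ τ
    ext i j
    apply eq_of_forall_kProj
    intro K hK
    simp only [Matrix.of_apply, Matrix.mul_apply, map_sum, map_mul, hf]
  · intro K hK
    ext σ i j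
    exact hf σ i j K hK


/-! ### properties of the universal lift -/

omit [IsNoetherianRing 𝒪] [Finite (ResidueField 𝒪)] in
/-- The universal lift is adapted to the quotient map `P → R`. -/
theorem univRep_adapted
    (r : GQ →* Matrix (Fin 2) (Fin 2) (MvPowerSeries (Fin m) 𝒪 ⧸ kInf 𝒟 c E co))
    (hr : ∀ (K : Ideal (MvPowerSeries (Fin m) 𝒪)) (hK : K ∈ KSet 𝒟 c E co),
      mapRep ((kProj hK : _ →ₐ[𝒪] _) : _ →+* (MvPowerSeries (Fin m) 𝒪 ⧸ K)) r = ksetRep hK) :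
    IsAdapted c co (Ideal.Quotient.mkₐ 𝒪 (kInf 𝒟 c E co)) r := by
  intro a
  apply eq_of_forall_kProj
  intro K hK
  rw [← coordOf_map, hr K hK, ← ksetRep_adapted hK a]
  exact kProj_mk hK _

/-- Compactness for `KSet`. -/
theorem KSet_compact [IsAdicComplete (maximalIdeal 𝒪) 𝒪] (h : RingSideInput 𝒟 c E m co)
    (n : ℕ) : ∃ K ∈ KSet 𝒟 c E co,
      K ≤ kInf 𝒟 c E co ⊔ maximalIdeal (MvPowerSeries (Fin m) 𝒪) ^ n := by
  haveI : IsAdicComplete (maximalIdeal (MvPowerSeries (Fin m) 𝒪)) (MvPowerSeries (Fin m) 𝒪) :=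
    isAdicComplete_mvPowerSeries_fin 𝒪 m
  have hfin : ∀ n, Finite (MvPowerSeries (Fin m) 𝒪 ⧸
      maximalIdeal (MvPowerSeries (Fin m) 𝒪) ^ n) := fun n => by
    haveI := (isCoeffAlg_mvPowerSeries 𝒪 m).finite_residueField
    exact finite_quotient_iff.mpr ⟨n, le_rfl⟩
  exact exists_le_sup_pow (maximalIdeal (MvPowerSeries (Fin m) 𝒪)) hfin
    (KSet 𝒟 c E co) (KSet_nonempty h) (fun K hK => KSet_open hK)
    (fun K hK K' hK' => KSet_inf h hK hK') n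

/-- Every `𝒪`-algebra map from `R` to an Artinian test algebra factors through some
`P ⧸ K`, `K ∈ KSet`. -/
theorem exists_factor_kProj [IsAdicComplete (maximalIdeal 𝒪) 𝒪] (h : RingSideInput 𝒟 c E m co)
    {B : Type} [CommRing B] [IsLocalRing B] [Algebra 𝒪 B]
    (hB : GaloisRep.IsArtinianTestAlgebra 𝒪 B)
    (q : (MvPowerSeries (Fin m) 𝒪 ⧸ kInf 𝒟 c E co) →ₐ[𝒪] B) :
    ∃ (K : Ideal (MvPowerSeries (Fin m) 𝒪)) (hK : K ∈ KSet 𝒟 c E co)
      (q' : (MvPowerSeries (Fin m) 𝒪 ⧸ K) →ₐ[𝒪] B), q'.comp (kProj hK) = q := by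
  haveI := hB.isArtinian
  obtain ⟨N, hN⟩ := exists_maximalIdeal_pow_eq_bot B
  obtain ⟨K, hK, hKle⟩ := KSet_compact h N
  set π : MvPowerSeries (Fin m) 𝒪 →ₐ[𝒪] B := q.comp (Ideal.Quotient.mkₐ 𝒪 (kInf 𝒟 c E co))
    with hπ
  have hpow : ∀ b ∈ maximalIdeal (MvPowerSeries (Fin m) 𝒪) ^ N, π b = 0 := by
    have h1 : (maximalIdeal (MvPowerSeries (Fin m) 𝒪)).map (π : _ →+* B) ≤ maximalIdeal B := by
      rw [Ideal.map_le_iff_le_comap]
      intro x hx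
      exact algHom_map_maximalIdeal (IsCoeffAlg.of_test hB) π hx
    have h2 : (maximalIdeal (MvPowerSeries (Fin m) 𝒪) ^ N).map (π : _ →+* B) ≤ ⊥ := by
      rw [Ideal.map_pow, ← hN]
      exact Ideal.pow_right_mono h1 N
    intro b hb
    have := h2 (Ideal.mem_map_of_mem _ hb)
    simpa using this
  have hker : ∀ p ∈ K, π p = 0 := by
    intro p hp
    obtain ⟨a, ha, b, hb, rfl⟩ := Submodule.mem_sup.mp (hKle hp)
    rw [map_add, hpow b hb, add_zero, hπ, AlgHom.comp_apply]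
    have : Ideal.Quotient.mkₐ 𝒪 (kInf 𝒟 c E co) a = 0 :=
      Ideal.Quotient.eq_zero_iff_mem.mpr ha
    rw [this, map_zero]
  refine ⟨K, hK, Ideal.Quotient.liftₐ K π hker, ?_⟩
  apply AlgHom.ext
  intro y
  obtain ⟨p, rfl⟩ := Ideal.Quotient.mk_surjective y
  rw [AlgHom.comp_apply, kProj_mk]
  rfl

/-- The push-forward of the universal lift to any Artinian test algebra is in `F`. -/
theorem univRep_map_inF [IsAdicComplete (maximalIdeal 𝒪) 𝒪] (h : RingSideInput 𝒟 c E m co)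
    (r : GQ →* Matrix (Fin 2) (Fin 2) (MvPowerSeries (Fin m) 𝒪 ⧸ kInf 𝒟 c E co))
    (hr : ∀ (K : Ideal (MvPowerSeries (Fin m) 𝒪)) (hK : K ∈ KSet 𝒟 c E co),
      mapRep ((kProj hK : _ →ₐ[𝒪] _) : _ →+* (MvPowerSeries (Fin m) 𝒪 ⧸ K)) r = ksetRep hK)
    {B : Type} [CommRing B] [IsLocalRing B] [Algebra 𝒪 B]
    (hB : GaloisRep.IsArtinianTestAlgebra 𝒪 B)
    (q : (MvPowerSeries (Fin m) 𝒪 ⧸ kInf 𝒟 c E co) →ₐ[𝒪] B) :
    InF 𝒟 c E (mapRep (q : _ →+* B) r) := by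
  obtain ⟨K, hK, q', rfl⟩ := exists_factor_kProj h hB q
  haveI := kset_isLocalRing hK
  have h1 := h.map (kset_test hK) hB q' (ksetRep hK) (ksetRep_inF hK)
  rw [← hr K hK, mapRep_comp] at h1
  exact h1

/-- The universal lift is continuous. -/
theorem univRep_matCont [IsAdicComplete (maximalIdeal 𝒪) 𝒪] (h : RingSideInput 𝒟 c E m co)
    [IsLocalRing (MvPowerSeries (Fin m) 𝒪 ⧸ kInf 𝒟 c E co)]
    (r : GQ →* Matrix (Fin 2) (Fin 2) (MvPowerSeries (Fin m) 𝒪 ⧸ kInf 𝒟 c E co))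
    (hr : ∀ (K : Ideal (MvPowerSeries (Fin m) 𝒪)) (hK : K ∈ KSet 𝒟 c E co),
      mapRep ((kProj hK : _ →ₐ[𝒪] _) : _ →+* (MvPowerSeries (Fin m) 𝒪 ⧸ K)) r = ksetRep hK) :
    MatCont r := by
  intro n
  obtain ⟨K, hK, hKle⟩ := KSet_compact h n
  haveI := kset_isLocalRing hK
  haveI := (kset_test hK).isArtinian
  obtain ⟨N, hN⟩ := exists_maximalIdeal_pow_eq_bot (MvPowerSeries (Fin m) 𝒪 ⧸ K)
  obtain ⟨L, hL, hσ⟩ := (ksetRep_inF hK).cont N
  refine ⟨L, hL, fun σ hfix i j => ?_⟩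
  have h1 := hσ σ hfix i j
  rw [hN, Ideal.mem_bot] at h1
  obtain ⟨p, hp⟩ := Ideal.Quotient.mk_surjective ((r σ - 1) i j)
  have h2 : kProj hK ((r σ - 1) i j) = (ksetRep hK σ - 1) i j := by
    rw [← hr K hK]
    simp only [Matrix.sub_apply, map_sub, mapRep_apply, RingHom.coe_coe]
    congr 1
    by_cases hij : i = j
    · subst hij; simp
    · simp [Matrix.one_apply_ne hij]
  have h3 : p ∈ K := by
    rw [← Ideal.Quotient.eq_zero_iff_mem, ← kProj_mk hK, hp, h2]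
    exact h1
  obtain ⟨a, ha, b, hb, hab⟩ := Submodule.mem_sup.mp (hKle h3)
  have ha0 : Ideal.Quotient.mk (kInf 𝒟 c E co) a = 0 := Ideal.Quotient.eq_zero_iff_mem.mpr ha
  rw [← hp, ← hab, map_add, ha0, zero_add]
  have hle : (maximalIdeal (MvPowerSeries (Fin m) 𝒪) ^ n).map
      (Ideal.Quotient.mk (kInf 𝒟 c E co)) ≤
      maximalIdeal (MvPowerSeries (Fin m) 𝒪 ⧸ kInf 𝒟 c E co) ^ n := by
    have hmap : (maximalIdeal (MvPowerSeries (Fin m) 𝒪)).map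
        (Ideal.Quotient.mk (kInf 𝒟 c E co)) ≤
        maximalIdeal (MvPowerSeries (Fin m) 𝒪 ⧸ kInf 𝒟 c E co) := by
      rw [Ideal.map_le_iff_le_comap]
      intro x hx
      exact mk_mem_maximalIdeal _ hx
    rw [Ideal.map_pow]
    exact Ideal.pow_right_mono hmap n
  exact hle (Ideal.mem_map_of_mem _ hb)

/-- The universal lift is in `F(R)`. -/
theorem univRep_inF [IsAdicComplete (maximalIdeal 𝒪) 𝒪] (h : RingSideInput 𝒟 c E m co)
    (r : GQ →* Matrix (Fin 2) (Fin 2) (MvPowerSeries (Fin m) 𝒪 ⧸ kInf 𝒟 c E co))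
    (hr : ∀ (K : Ideal (MvPowerSeries (Fin m) 𝒪)) (hK : K ∈ KSet 𝒟 c E co),
      mapRep ((kProj hK : _ →ₐ[𝒪] _) : _ →+* (MvPowerSeries (Fin m) 𝒪 ⧸ K)) r = ksetRep hK) :
    @InF 𝒪 _ _ 𝒟 c E (MvPowerSeries (Fin m) 𝒪 ⧸ kInf 𝒟 c E co) _ (kInf_isLocalRing h) _ r := by
  haveI := kInf_isLocalRing h
  haveI := kInf_isAdicComplete h
  have hcont : MatCont r := univRep_matCont h r hr
  obtain ⟨K₀, hK₀⟩ := KSet_nonempty h
  haveI := kset_isLocalRing hK₀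
  refine ⟨hcont, ?_, ?_, ?_⟩
  · -- lift
    intro σ i j
    rw [mem_maximalIdeal, mem_nonunits_iff]
    intro hu
    have h1 := (ksetRep_inF hK₀).lift σ i j
    rw [← hr K₀ hK₀] at h1
    rw [mem_maximalIdeal, mem_nonunits_iff] at h1
    apply h1
    have h2 := hu.map (kProj hK₀)
    simpa [mapRep_apply] using h2
  · -- normalised
    intro e he
    unfold NormEq.Holds
    apply eq_of_forall_kProj
    intro K hK
    haveI := kset_isLocalRing hK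
    have h1 := (ksetRep_inF hK).norm e he
    unfold NormEq.Holds at h1
    rw [← hr K hK] at h1
    rw [AlgHom.commutes, ← h1, Finsupp.sum, Finsupp.sum, map_sum]
    simp only [map_mul, AlgHom.commutes, mapRep_apply, RingHom.coe_coe]
  · -- type
    exact h.of_forall_artin (kInf_isCoeffAlg h) r hcont
      (fun B _ _ _ hB q _ => univRep_map_inF h r hr hB q)

/-- (G-out) The universal object of the rigidified functor on Artinian test algebras. -/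
theorem S53_Gout [IsAdicComplete (maximalIdeal 𝒪) 𝒪] (h : RingSideInput 𝒟 c E m co) :
    ∃ (R : Type) (_ : CommRing R) (_ : IsLocalRing R) (_ : IsNoetherianRing R)
      (_ : IsAdicComplete (maximalIdeal R) R) (_ : Algebra 𝒪 R) (_ : IsCoeffAlg 𝒪 R)
      (r : GQ →* Matrix (Fin 2) (Fin 2) R), InF 𝒟 c E r ∧
      (∀ (B : Type) [CommRing B] [IsLocalRing B] [Algebra 𝒪 B],
        GaloisRep.IsArtinianTestAlgebra 𝒪 B →
        ∀ rB : GQ →* Matrix (Fin 2) (Fin 2) B, InF 𝒟 c E rB →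
          ∃ φ : R →ₐ[𝒪] B, ∀ σ, (r σ).map φ = rB σ) ∧
      (∀ (B : Type) [CommRing B] [IsLocalRing B] [Algebra 𝒪 B],
        GaloisRep.IsArtinianTestAlgebra 𝒪 B →
        ∀ φ φ' : R →ₐ[𝒪] B, (∀ σ, (r σ).map φ = (r σ).map φ') → φ = φ') := by
  obtain ⟨r, hr⟩ := exists_univRep h
  refine ⟨MvPowerSeries (Fin m) 𝒪 ⧸ kInf 𝒟 c E co, inferInstance, kInf_isLocalRing h,
    inferInstance, kInf_isAdicComplete h, inferInstance, kInf_isCoeffAlg h, r,
    univRep_inF h r hr, ?_, ?_⟩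
  · intro B _ _ _ hB rB hrB
    obtain ⟨π, hπ⟩ := exists_adapted (co := co) hB hrB.lift
    have hK := ker_mem_KSet h hB rB hrB π hπ
    obtain ⟨hl, ht, rK, hrK, haK, hmap⟩ := exists_pair_on_ker h hB rB hrB π hπ
    have hrK' : rK = ksetRep hK := ksetRep_unique h hK rK hrK haK
    refine ⟨(Ideal.kerLiftAlg π).comp (kProj hK), fun σ => ?_⟩
    have h1 : mapRep (((Ideal.kerLiftAlg π).comp (kProj hK) : _ →ₐ[𝒪] B) : _ →+* B) r = rB := by
      rw [← hmap, hrK', ← hr _ hK, mapRep_comp]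
      rfl
    exact DFunLike.congr_fun h1 σ
  · intro B _ _ _ hB φ φ' hφ
    have hrr : mapRep (φ : _ →+* B) r = mapRep (φ' : _ →+* B) r := MonoidHom.ext fun σ => hφ σ
    have hadapt := univRep_adapted r hr
    have key : φ.comp (Ideal.Quotient.mkₐ 𝒪 (kInf 𝒟 c E co)) =
        φ'.comp (Ideal.Quotient.mkₐ 𝒪 (kInf 𝒟 c E co)) := by
      apply algHom_ext_of_X hB
      intro a
      rw [(hadapt.comp φ) a, (hadapt.comp φ') a, hrr]
    apply AlgHom.ext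
    intro y
    obtain ⟨p, rfl⟩ := Ideal.Quotient.mk_surjective y
    exact DFunLike.congr_fun key p

end

end Fermat.Agent.S53
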