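import Fermat.Agent.S53.Basic

/-!
# S53: the rigidified deformation functor (shared contract)

* `IsCoeffAlg 𝒪 A` : `A` is a local `𝒪`-algebra, local structure map, residue field of `𝒪`.
* `IsLift c r`     : the matrix valued map `r` reduces to the fixed residual matrices
                     (`c : GQ → M₂(𝒪)` is a set-theoretic lift of the residual representation).
* `NormEq 𝒪`, `NormEq.Holds` : one affine-linear equation with `𝒪`-coefficients in the entries of `r`.
* `InF 𝒟 c E r`    : `r` is a continuous, normalised (all equations of `E` hold) lift of type `𝒟`.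
* `Rigidification c E` : the contract of the rigidification part
  (every lift is conjugate to a normalised one; conjugate normalised lifts are equal).
-/

set_option autoImplicit false

namespace Fermat.Agent.S53

open IsLocalRing

/-- `A` is a coefficient algebra: the structure map is local and induces a surjection on
residue fields. -/
structure IsCoeffAlg (𝒪 : Type) [CommRing 𝒪] [IsLocalRing 𝒪]
    (A : Type) [CommRing A] [IsLocalRing A] [Algebra 𝒪 A] : Prop where
  isLocalHom : IsLocalHom (algebraMap 𝒪 A)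
  residue_surjective : Function.Surjective (IsLocalRing.residue A ∘ algebraMap 𝒪 A)

/-- `r` reduces modulo the maximal ideal to (the image of) `c`. -/
def IsLift {𝒪 : Type} [CommRing 𝒪] (c : GQ → Matrix (Fin 2) (Fin 2) 𝒪)
    {A : Type} [CommRing A] [IsLocalRing A] [Algebra 𝒪 A]
    (r : GQ → Matrix (Fin 2) (Fin 2) A) : Prop :=
  ∀ σ i j, r σ i j - algebraMap 𝒪 A (c σ i j) ∈ maximalIdeal A

/-- An affine-linear equation `∑ coeff (σ,i,j) * r σ i j = const` in the entries of `r`. -/
structure NormEq (𝒪 : Type) [CommRing 𝒪] where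
  coeff : (GQ × Fin 2 × Fin 2) →₀ 𝒪
  const : 𝒪

/-- The equation `e` holds for `r`. -/
def NormEq.Holds {𝒪 : Type} [CommRing 𝒪] (e : NormEq 𝒪)
    {A : Type} [CommRing A] [Algebra 𝒪 A] (r : GQ → Matrix (Fin 2) (Fin 2) A) : Prop :=
  (e.coeff.sum fun x a => algebraMap 𝒪 A a * r x.1 x.2.1 x.2.2) = algebraMap 𝒪 A e.const

/-- `r` satisfies all normalisation equations in `E`. -/
def IsNormalised {𝒪 : Type} [CommRing 𝒪] (E : Set (NormEq 𝒪))
    {A : Type} [CommRing A] [Algebra 𝒪 A] (r : GQ → Matrix (Fin 2) (Fin 2) A) : Prop :=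
  ∀ e ∈ E, e.Holds r

/-- Membership in the rigidified deformation functor. -/
structure InF {𝒪 : Type} [CommRing 𝒪] [IsLocalRing 𝒪]
    (𝒟 : ∀ ⦃A : Type⦄ [CommRing A] [IsLocalRing A] [Algebra 𝒪 A], GaloisRepAdic A → Prop)
    (c : GQ → Matrix (Fin 2) (Fin 2) 𝒪) (E : Set (NormEq 𝒪))
    {A : Type} [CommRing A] [IsLocalRing A] [Algebra 𝒪 A]
    (r : GQ →* Matrix (Fin 2) (Fin 2) A) : Prop where
  cont : MatCont r
  lift : IsLift c r
  norm : IsNormalised E r
  type : 𝒟 (ofMatrix r cont)

/-- Conjugation of a matrix valued homomorphism by an invertible matrix. -/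
noncomputable def conj {A : Type} [CommRing A] (P : Matrix (Fin 2) (Fin 2) A) (hP : IsUnit P.det)
    (r : GQ →* Matrix (Fin 2) (Fin 2) A) : GQ →* Matrix (Fin 2) (Fin 2) A where
  toFun σ := P * r σ * P⁻¹
  map_one' := by
    rw [map_one, Matrix.mul_one, Matrix.mul_nonsing_inv _ hP]
  map_mul' σ τ := by
    rw [map_mul]
    calc P * (r σ * r τ) * P⁻¹ = P * r σ * (1 * (r τ * P⁻¹)) := by
          simp only [Matrix.mul_assoc, Matrix.one_mul]
      _ = P * r σ * ((P⁻¹ * P) * (r τ * P⁻¹)) := by rw [Matrix.nonsing_inv_mul _ hP]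
      _ = P * r σ * P⁻¹ * (P * r τ * P⁻¹) := by simp only [Matrix.mul_assoc]

@[simp] lemma conj_apply {A : Type} [CommRing A] (P : Matrix (Fin 2) (Fin 2) A)
    (hP : IsUnit P.det) (r : GQ →* Matrix (Fin 2) (Fin 2) A) (σ : GQ) :
    conj P hP r σ = P * r σ * P⁻¹ := rfl

/-- The contract of the rigidification part. -/
structure Rigidification {𝒪 : Type} [CommRing 𝒪] [IsLocalRing 𝒪]
    (c : GQ → Matrix (Fin 2) (Fin 2) 𝒪) (E : Set (NormEq 𝒪)) : Prop where
  /-- every lift over a complete noetherian local coefficient algebra is conjugate,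
  by a matrix congruent to `1`, to a normalised lift -/
  exists_conj : ∀ {A : Type} [CommRing A] [IsLocalRing A] [Algebra 𝒪 A] [IsNoetherianRing A]
    [IsAdicComplete (maximalIdeal A) A], IsCoeffAlg 𝒪 A →
    ∀ r : GQ →* Matrix (Fin 2) (Fin 2) A, IsLift c r →
      ∃ (P : Matrix (Fin 2) (Fin 2) A) (hP : IsUnit P.det),
        (∀ i j, (P - 1) i j ∈ maximalIdeal A) ∧ IsNormalised E (conj P hP r)
  /-- two normalised lifts which are conjugate are equal -/
  unique : ∀ {A : Type} [CommRing A] [IsLocalRing A] [Algebra 𝒪 A] [IsNoetherianRing A],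
    IsCoeffAlg 𝒪 A →
    ∀ r r' : GQ →* Matrix (Fin 2) (Fin 2) A, IsLift c r → IsLift c r' →
      IsNormalised E r → IsNormalised E r' →
      ∀ P : Matrix (Fin 2) (Fin 2) A, IsUnit P.det → (∀ σ, P * r σ = r' σ * P) → r = r'

end Fermat.Agent.S53
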