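import Fermat.Agent.S53.Dict
import Fermat.Agent.S53.Functor

/-!
# S53 part A (continued): lifts of the residual representation in matrix form

* `S53_exists_isLift` (A3): a representation with residual representation `ρbar` is equivalent to
  `ofMatrix r` for a lift `r` of the fixed matrix form of `ρbar`.
* `S53_residual_isEquiv` (A4): conversely `ofMatrix r` has residual representation `ρbar`.
-/

set_option autoImplicit false

open scoped TensorProduct
open IsLocalRing

namespace Fermat.Agent.S53

variable {𝒪 : Type} [CommRing 𝒪] [IsLocalRing 𝒪]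
variable {ρbar : ResidualGaloisRep (ResidueField 𝒪)}
variable {A : Type} [CommRing A] [IsLocalRing A] [Algebra 𝒪 A] [IsLocalHom (algebraMap 𝒪 A)]

/-- Reformulation of `IsLift` via residues. -/
lemma S53_isLift_iff_residue (e : Module.Basis (Fin 2) (ResidueField 𝒪) ρbar.V)
    (c : GQ → Matrix (Fin 2) (Fin 2) 𝒪)
    (hc : ∀ σ i j, residue 𝒪 (c σ i j) = S53_rmat ρbar e σ i j)
    (r : GQ → Matrix (Fin 2) (Fin 2) A) :
    IsLift c r ↔ ∀ σ i j, residue A (r σ i j) =
      ResidueField.map (algebraMap 𝒪 A) (S53_rmat ρbar e σ i j) := by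
  unfold IsLift
  refine forall_congr' fun σ => forall_congr' fun i => forall_congr' fun j => ?_
  rw [← residue_eq_zero_iff, map_sub, sub_eq_zero, ← hc σ i j, ResidueField.map_residue]

/-- A basis lifting the residual basis. -/
theorem S53_exists_lift_basis (e : Module.Basis (Fin 2) (ResidueField 𝒪) ρbar.V)
    (ρ : GaloisRepAdic A)
    (hres : ρ.residual.IsEquiv (ρbar.baseChangeAlong (ResidueField.map (algebraMap 𝒪 A)))) :
    ∃ b : Module.Basis (Fin 2) A ρ.V, ∀ g i j, residue A (S53_mat ρ b g i j) =
      ResidueField.map (algebraMap 𝒪 A) (S53_rmat ρbar e g i j) := by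
  obtain ⟨E⟩ := hres
  set κ := ResidueField.map (algebraMap 𝒪 A) with hκ
  let ebar : Module.Basis (Fin 2) (ResidueField A) ρ.residual.V :=
    (S53_rbcBasis κ ρbar e).map E.symm.toLinearEquiv
  have hebar : ∀ g, S53_rmat ρ.residual ebar g = (S53_rmat ρbar e g).map κ := by
    intro g
    rw [S53_rmat_map_equiv, S53_rmat_baseChangeAlong]
  have hsurj : Function.Surjective (TensorProduct.mk A (ResidueField A) ρ.V 1) :=
    TensorProduct.mk_surjective A ρ.V (ResidueField A) (residue_surjective)
  choose v hv using fun i => hsurj (ebar i)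
  have hli : LinearIndependent A v := by
    apply Module.IsLocalRing.linearIndependent_of_flat
    have : (TensorProduct.mk A (ResidueField A) ρ.V 1 ∘ v) = ebar := by
      funext i
      exact hv i
    rw [this]
    exact ebar.linearIndependent
  have hsp : ⊤ ≤ Submodule.span A (Set.range v) :=
    (IsLocalRing.span_eq_top_of_tmul_eq_basis v ebar hv).ge
  let b : Module.Basis (Fin 2) A ρ.V := Module.Basis.mk hli hsp
  have hb : ∀ i, b i = v i := fun i => by simp [b]
  have hbas : Algebra.TensorProduct.basis (ResidueField A) b = ebar := by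
    apply Module.Basis.eq_of_apply_eq
    intro i
    rw [Algebra.TensorProduct.basis_apply, hb i]
    exact hv i
  refine ⟨b, fun g i j => ?_⟩
  have h1 := S53_rmat_residual ρ b g
  rw [hbas, hebar g] at h1
  have := congrFun (congrFun h1 i) j
  rw [Matrix.map_apply, Matrix.map_apply] at this
  exact this.symm

/-- (A3) every deformation is equivalent to `ofMatrix r` for a lift `r`. -/
theorem S53_exists_isLift (e : Module.Basis (Fin 2) (ResidueField 𝒪) ρbar.V)
    (c : GQ → Matrix (Fin 2) (Fin 2) 𝒪)
    (hc : ∀ σ i j, residue 𝒪 (c σ i j) = S53_rmat ρbar e σ i j)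
    (ρ : GaloisRepAdic A)
    (hres : ρ.residual.IsEquiv (ρbar.baseChangeAlong (ResidueField.map (algebraMap 𝒪 A)))) :
    ∃ (r : GQ →* Matrix (Fin 2) (Fin 2) A) (hr : MatCont r),
      IsLift c r ∧ ρ.IsEquiv (ofMatrix r hr) := by
  obtain ⟨b, hb⟩ := S53_exists_lift_basis e ρ hres
  refine ⟨S53_matHom ρ b, S53_matHom_cont ρ b, ?_, S53_isEquiv_ofMatrix ρ b⟩
  rw [S53_isLift_iff_residue e c hc]
  exact hb

/-- (A4) a lift of the matrix form of `ρbar` has residual representation `ρbar`. -/
theorem S53_residual_isEquiv (e : Module.Basis (Fin 2) (ResidueField 𝒪) ρbar.V)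
    (c : GQ → Matrix (Fin 2) (Fin 2) 𝒪)
    (hc : ∀ σ i j, residue 𝒪 (c σ i j) = S53_rmat ρbar e σ i j)
    (r : GQ →* Matrix (Fin 2) (Fin 2) A) (hr : MatCont r) (hl : IsLift c r) :
    (ofMatrix r hr).residual.IsEquiv
      (ρbar.baseChangeAlong (ResidueField.map (algebraMap 𝒪 A))) := by
  refine S53_risEquiv_of_rmat_eq _ _
    (Algebra.TensorProduct.basis (ResidueField A) (S53_stdBasis r hr))
    (S53_rbcBasis (ResidueField.map (algebraMap 𝒪 A)) ρbar e) fun g => ?_
  rw [S53_rmat_residual, S53_rmat_baseChangeAlong, S53_mat_ofMatrix]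
  ext i j
  exact (S53_isLift_iff_residue e c hc r).mp hl g i j

/-- Equivalent representations have equivalent residual representations. -/
theorem S53_residual_isEquiv_of_isEquiv {ρ₁ ρ₂ : GaloisRepAdic A} (h : ρ₁.IsEquiv ρ₂) :
    ρ₁.residual.IsEquiv ρ₂.residual := by
  obtain ⟨E⟩ := h
  exact ⟨E.residual⟩

end Fermat.Agent.S53
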