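import Fermat.Agent.S53.ArtinPrep

/-!
# S53, part G: the input contract of the ring side

`RingSideInput 𝒟 c E m co` bundles everything the construction of the universal ring
(`ArtinUniv.lean`) needs from the other parts (transport of `InF`, products, sub-pairs,
generators, the base point).
-/

set_option autoImplicit false

namespace Fermat.Agent.S53

open IsLocalRing

/-- The `a`-th coordinate `r (σ_a) (i_a) (j_a) - c (σ_a) (i_a) (j_a)` of a matrix valued map. -/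
def coordOf {𝒪 : Type} [CommRing 𝒪] (c : GQ → Matrix (Fin 2) (Fin 2) 𝒪) {m : ℕ}
    (co : Fin m → GQ × Fin 2 × Fin 2) {A : Type} [CommRing A] [Algebra 𝒪 A]
    (r : GQ → Matrix (Fin 2) (Fin 2) A) (a : Fin m) : A :=
  r (co a).1 (co a).2.1 (co a).2.2 - algebraMap 𝒪 A (c (co a).1 (co a).2.1 (co a).2.2)

/-- Everything the ring side needs from the other parts. -/
structure RingSideInput {𝒪 : Type} [CommRing 𝒪] [IsLocalRing 𝒪]
    (𝒟 : ∀ ⦃A : Type⦄ [CommRing A] [IsLocalRing A] [Algebra 𝒪 A], GaloisRepAdic A → Prop)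
    (c : GQ → Matrix (Fin 2) (Fin 2) 𝒪) (E : Set (NormEq 𝒪))
    (m : ℕ) (co : Fin m → GQ × Fin 2 × Fin 2) : Prop where
  /-- (T1) `InF` is preserved by `𝒪`-algebra homomorphisms of Artinian test algebras. -/
  map : ∀ {A B : Type} [CommRing A] [IsLocalRing A] [Algebra 𝒪 A]
    [CommRing B] [IsLocalRing B] [Algebra 𝒪 B],
    GaloisRep.IsArtinianTestAlgebra 𝒪 A → GaloisRep.IsArtinianTestAlgebra 𝒪 B →
    ∀ (φ : A →ₐ[𝒪] B) (r : GQ →* Matrix (Fin 2) (Fin 2) A),
      InF 𝒟 c E r → InF 𝒟 c E (mapRep (φ : A →+* B) r)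
  /-- (T2) `InF` is reflected by injective `𝒪`-algebra homomorphisms of Artinian test
  algebras. -/
  of_map_injective : ∀ {A B : Type} [CommRing A] [IsLocalRing A] [Algebra 𝒪 A]
    [CommRing B] [IsLocalRing B] [Algebra 𝒪 B],
    GaloisRep.IsArtinianTestAlgebra 𝒪 A → GaloisRep.IsArtinianTestAlgebra 𝒪 B →
    ∀ (φ : A →ₐ[𝒪] B) (r : GQ →* Matrix (Fin 2) (Fin 2) A), Function.Injective φ →
      InF 𝒟 c E (mapRep (φ : A →+* B) r) → InF 𝒟 c E r
  /-- (T3) products: two pairs are dominated by a common pair (the fibre product over `k`). -/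
  prod : ∀ {A B : Type} [CommRing A] [IsLocalRing A] [Algebra 𝒪 A]
    [CommRing B] [IsLocalRing B] [Algebra 𝒪 B],
    GaloisRep.IsArtinianTestAlgebra 𝒪 A → GaloisRep.IsArtinianTestAlgebra 𝒪 B →
    ∀ (rA : GQ →* Matrix (Fin 2) (Fin 2) A) (rB : GQ →* Matrix (Fin 2) (Fin 2) B),
      InF 𝒟 c E rA → InF 𝒟 c E rB →
      ∃ (D : Type) (_ : CommRing D) (_ : IsLocalRing D) (_ : Algebra 𝒪 D)
        (_ : GaloisRep.IsArtinianTestAlgebra 𝒪 D) (pA : D →ₐ[𝒪] A) (pB : D →ₐ[𝒪] B)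
        (rD : GQ →* Matrix (Fin 2) (Fin 2) D),
        InF 𝒟 c E rD ∧ mapRep (pA : D →+* A) rD = rA ∧ mapRep (pB : D →+* B) rD = rB ∧
          ∀ d d' : D, pA d = pA d' → pB d = pB d' → d = d'
  /-- sub-pairs: every pair comes from a tight pair (the subalgebra generated by the
  entries). -/
  sub : ∀ {A : Type} [CommRing A] [IsLocalRing A] [Algebra 𝒪 A],
    GaloisRep.IsArtinianTestAlgebra 𝒪 A →
    ∀ (r : GQ →* Matrix (Fin 2) (Fin 2) A), InF 𝒟 c E r →
      ∃ (B : Type) (_ : CommRing B) (_ : IsLocalRing B) (_ : Algebra 𝒪 B)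
        (_ : GaloisRep.IsArtinianTestAlgebra 𝒪 B) (ι : B →ₐ[𝒪] A)
        (rB : GQ →* Matrix (Fin 2) (Fin 2) B),
        Function.Injective ι ∧ mapRep (ι : B →+* A) rB = r ∧ InF 𝒟 c E rB ∧
          Algebra.adjoin 𝒪 (Set.range fun x : GQ × Fin 2 × Fin 2 => rB x.1 x.2.1 x.2.2) = ⊤
  /-- (E-out) generators: for a tight pair the coordinates and `𝔪_𝒪` generate the maximal
  ideal. -/
  coords : ∀ {A : Type} [CommRing A] [IsLocalRing A] [Algebra 𝒪 A],
    GaloisRep.IsArtinianTestAlgebra 𝒪 A →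
    ∀ (r : GQ →* Matrix (Fin 2) (Fin 2) A), InF 𝒟 c E r →
      Algebra.adjoin 𝒪 (Set.range fun x : GQ × Fin 2 × Fin 2 => r x.1 x.2.1 x.2.2) = ⊤ →
      maximalIdeal A ≤ Ideal.span (Set.range (coordOf c co r)) ⊔
        (maximalIdeal 𝒪).map (algebraMap 𝒪 A)
  /-- (T4) the type condition over a complete noetherian local coefficient algebra can be
  checked on Artinian quotients. -/
  of_forall_artin : ∀ {R : Type} [CommRing R] [IsLocalRing R] [IsNoetherianRing R]
    [IsAdicComplete (maximalIdeal R) R] [Algebra 𝒪 R], IsCoeffAlg 𝒪 R →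
    ∀ (r : GQ →* Matrix (Fin 2) (Fin 2) R) (hr : MatCont r),
      (∀ (B : Type) [CommRing B] [IsLocalRing B] [Algebra 𝒪 B],
        GaloisRep.IsArtinianTestAlgebra 𝒪 B → ∀ q : R →ₐ[𝒪] B, Function.Surjective q →
          InF 𝒟 c E (mapRep (q : R →+* B) r)) →
      𝒟 (ofMatrix r hr)
  /-- the base point: the residual representation itself. -/
  base : ∃ r₀ : GQ →* Matrix (Fin 2) (Fin 2) (ResidueField 𝒪), InF 𝒟 c E r₀

end Fermat.Agent.S53
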