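import Fermat.Agent.S53.Gen
import Fermat.Agent.S53.DictLift
import Fermat.Agent.S53.RingSide

/-!
# S53, part E (contract form): coordinates generating the maximal ideal of tight pairs

* `S53_dualAlg 𝒪` : the `𝒪`-algebra structure on `k[ε]` used by `GaloisRep.TangentFinite`.
* `S53_finite_inF_dual` : the set of rigidified lifts over `k[ε]` is finite.
* `S53_exists_coords` : (E-out) finitely many coordinates generate `𝔪_A` for all tight pairs.
-/

set_option autoImplicit false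
set_option linter.style.haveILetI false

open IsLocalRing

namespace Fermat.Agent.S53

section dual

variable (𝒪 : Type) [CommRing 𝒪] [IsLocalRing 𝒪]

/-- The `𝒪`-algebra structure on `k[ε]` used in `GaloisRep.TangentFinite`. -/
@[reducible] noncomputable def S53_dualAlg : Algebra 𝒪 (DualNumber (ResidueField 𝒪)) :=
  ((algebraMap (ResidueField 𝒪) (DualNumber (ResidueField 𝒪))).comp
    (algebraMap 𝒪 (ResidueField 𝒪))).toAlgebra

/-- The `k`-algebra structure on the residue field of `k[ε]` used in `GaloisRep.TangentFinite`. -/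
@[reducible] noncomputable def S53_dualResAlg :
    Algebra (ResidueField 𝒪) (ResidueField (DualNumber (ResidueField 𝒪))) :=
  ((IsLocalRing.residue (DualNumber (ResidueField 𝒪))).comp
    (algebraMap (ResidueField 𝒪) (DualNumber (ResidueField 𝒪)))).toAlgebra

lemma S53_dualAlg_algebraMap (o : 𝒪) :
    letI := S53_dualAlg 𝒪
    algebraMap 𝒪 (DualNumber (ResidueField 𝒪)) o = TrivSqZeroExt.inl (residue 𝒪 o) := rfl

lemma S53_dualAlg_isLocalHom :
    letI := S53_dualAlg 𝒪
    IsLocalHom (algebraMap 𝒪 (DualNumber (ResidueField 𝒪))) := by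
  let _ := S53_dualAlg 𝒪
  refine ⟨fun o ho => ?_⟩
  rw [S53_dualAlg_algebraMap, TrivSqZeroExt.isUnit_inl_iff] at ho
  exact (residue_ne_zero_iff_isUnit o).mp ho.ne_zero

lemma S53_dual_residue_inl_add_inr (a b : ResidueField 𝒪) :
    residue (DualNumber (ResidueField 𝒪)) (TrivSqZeroExt.inl a + TrivSqZeroExt.inr b) =
      residue (DualNumber (ResidueField 𝒪)) (TrivSqZeroExt.inl a) := by
  rw [map_add, add_eq_left, residue_eq_zero_iff, mem_maximalIdeal, mem_nonunits_iff,
    TrivSqZeroExt.isUnit_iff_isUnit_fst, TrivSqZeroExt.fst_inr]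
  exact not_isUnit_zero

lemma S53_dualAlg_residue_surjective :
    letI := S53_dualAlg 𝒪
    Function.Surjective (residue (DualNumber (ResidueField 𝒪)) ∘
      algebraMap 𝒪 (DualNumber (ResidueField 𝒪))) := by
  let _ := S53_dualAlg 𝒪
  intro x
  obtain ⟨y, rfl⟩ := residue_surjective x
  obtain ⟨o, ho⟩ := residue_surjective y.fst
  refine ⟨o, ?_⟩
  rw [Function.comp_apply, S53_dualAlg_algebraMap, ho]
  conv_rhs => rw [← TrivSqZeroExt.inl_fst_add_inr_snd_eq y]
  rw [S53_dual_residue_inl_add_inr]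

lemma S53_dualAlg_isCoeffAlg :
    letI := S53_dualAlg 𝒪
    IsCoeffAlg 𝒪 (DualNumber (ResidueField 𝒪)) :=
  letI := S53_dualAlg 𝒪
  ⟨S53_dualAlg_isLocalHom 𝒪, S53_dualAlg_residue_surjective 𝒪⟩

instance S53_dual_moduleFinite : Module.Finite (ResidueField 𝒪) (DualNumber (ResidueField 𝒪)) :=
  inferInstanceAs (Module.Finite (ResidueField 𝒪) (ResidueField 𝒪 × ResidueField 𝒪))

instance S53_dual_isArtinianRing : IsArtinianRing (DualNumber (ResidueField 𝒪)) :=
  IsArtinianRing.of_finite (ResidueField 𝒪) _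

lemma S53_dualAlg_isArtinianTestAlgebra :
    letI := S53_dualAlg 𝒪
    GaloisRep.IsArtinianTestAlgebra 𝒪 (DualNumber (ResidueField 𝒪)) :=
  letI := S53_dualAlg 𝒪
  ⟨S53_dualAlg_isLocalHom 𝒪, S53_dualAlg_residue_surjective 𝒪, inferInstance⟩

lemma S53_residueField_map_dual :
    letI := S53_dualAlg 𝒪
    haveI := S53_dualAlg_isLocalHom 𝒪
    ResidueField.map (algebraMap 𝒪 (DualNumber (ResidueField 𝒪))) =
      (IsLocalRing.residue (DualNumber (ResidueField 𝒪))).comp
        (algebraMap (ResidueField 𝒪) (DualNumber (ResidueField 𝒪))) := by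
  letI := S53_dualAlg 𝒪
  haveI := S53_dualAlg_isLocalHom 𝒪
  ext x
  obtain ⟨o, rfl⟩ := residue_surjective x
  rw [ResidueField.map_residue]
  rfl

end dual

section finite

variable {𝒪 : Type} [CommRing 𝒪] [IsLocalRing 𝒪]
variable {ρbar : ResidualGaloisRep (ResidueField 𝒪)}
variable {𝒟 : ∀ ⦃A : Type⦄ [CommRing A] [IsLocalRing A] [Algebra 𝒪 A], GaloisRepAdic A → Prop}

/-- The residual representation of a lift over `k[ε]`, in the form used by `TangentFinite`. -/
lemma S53_residual_isEquiv_dual (e : Module.Basis (Fin 2) (ResidueField 𝒪) ρbar.V)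
    (c : GQ → Matrix (Fin 2) (Fin 2) 𝒪)
    (hc : ∀ σ i j, residue 𝒪 (c σ i j) = S53_rmat ρbar e σ i j)
    (r : GQ →* Matrix (Fin 2) (Fin 2) (DualNumber (ResidueField 𝒪))) (hr : MatCont r)
    (hl : letI := S53_dualAlg 𝒪; IsLift c r) :
    letI := S53_dualResAlg 𝒪
    (ofMatrix r hr).residual.IsEquiv (ρbar.baseChange (ResidueField (DualNumber (ResidueField 𝒪)))) := by
  letI := S53_dualAlg 𝒪
  haveI := S53_dualAlg_isLocalHom 𝒪
  have h := S53_residual_isEquiv e c hc r hr hl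
  rw [S53_residueField_map_dual] at h
  exact h

/-- **Finiteness of the rigidified tangent space.** -/
theorem S53_finite_inF_dual (hfin : GaloisRep.TangentFinite 𝒪 ρbar 𝒟)
    (e : Module.Basis (Fin 2) (ResidueField 𝒪) ρbar.V)
    (c : GQ → Matrix (Fin 2) (Fin 2) 𝒪)
    (hc : ∀ σ i j, residue 𝒪 (c σ i j) = S53_rmat ρbar e σ i j)
    (E : Set (NormEq 𝒪)) (hrig : Rigidification c E) :
    letI := S53_dualAlg 𝒪
    Set.Finite {r : GQ →* Matrix (Fin 2) (Fin 2) (DualNumber (ResidueField 𝒪)) | InF 𝒟 c E r} := by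
  letI := S53_dualAlg 𝒪
  letI := S53_dualResAlg 𝒪
  haveI := S53_dualAlg_isLocalHom 𝒪
  unfold GaloisRep.TangentFinite at hfin
  rw [← Set.finite_coe_iff]
  let S : Setoid {ρ : GaloisRepAdic (DualNumber (ResidueField 𝒪)) //
      𝒟 ρ ∧ ρ.residual.IsEquiv (ρbar.baseChange (ResidueField (DualNumber (ResidueField 𝒪)))) } :=
    ⟨fun ρ ρ' => ρ.1.IsEquiv ρ'.1, ⟨fun ρ => ⟨GaloisRepAdic.Equiv.refl ρ.1⟩,
        fun ⟨e⟩ => ⟨e.symm⟩, fun ⟨e⟩ ⟨e'⟩ => ⟨e.trans e'⟩⟩⟩
  have hfin' : Finite (Quotient S) := hfin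
  let f : {r : GQ →* Matrix (Fin 2) (Fin 2) (DualNumber (ResidueField 𝒪)) | InF 𝒟 c E r} →
      Quotient S := fun r =>
    Quotient.mk S ⟨ofMatrix r.1 r.2.cont, r.2.type,
      S53_residual_isEquiv_dual e c hc r.1 r.2.cont r.2.lift⟩
  refine Finite.of_injective f ?_
  intro r r' hrr'
  have h1 : (ofMatrix r.1 r.2.cont).IsEquiv (ofMatrix r'.1 r'.2.cont) := Quotient.exact hrr'
  obtain ⟨P, hP, hint⟩ := (S53_ofMatrix_isEquiv_iff _ _ _ _).mp h1
  exact Subtype.ext (hrig.unique (S53_dualAlg_isCoeffAlg 𝒪) r.1 r'.1 r.2.lift r'.2.lift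
    r.2.norm r'.2.norm P hP hint)

end finite

section push

variable {𝒪 : Type} [CommRing 𝒪] [IsLocalRing 𝒪]
variable {A : Type} [CommRing A] [IsLocalRing A] [Algebra 𝒪 A]

/-- A ring homomorphism `A → k[ε]` which is `inl ∘ residue` on `𝒪` is local. -/
lemma S53_isLocalHom_toDual
    (φ : A →+* DualNumber (ResidueField 𝒪))
    (hφ : ∀ o, φ (algebraMap 𝒪 A o) = TrivSqZeroExt.inl (residue 𝒪 o)) : IsLocalHom φ := by
  refine ⟨fun a ha => ?_⟩
  by_contra hna
  have ham : a ∈ maximalIdeal A := (mem_maximalIdeal a).mpr hna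
  have hfst : ∀ x ∈ maximalIdeal A, (φ x).fst = 0 := by
    intro x hx
    by_contra hne
    -- choose `o'` with residue `((φ x).fst)⁻¹`
    obtain ⟨o', ho'⟩ := residue_surjective ((φ x).fst)⁻¹
    have h1 : (φ (1 - x * algebraMap 𝒪 A o')).fst = 0 := by
      rw [map_sub, map_one, map_mul, hφ, TrivSqZeroExt.fst_sub, TrivSqZeroExt.fst_one,
        TrivSqZeroExt.fst_mul, TrivSqZeroExt.fst_inl, ho', mul_inv_cancel₀ hne, sub_self]
    have hu : IsUnit (1 - x * algebraMap 𝒪 A o') := by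
      by_contra hnu
      have hm : 1 - x * algebraMap 𝒪 A o' ∈ maximalIdeal A := (mem_maximalIdeal _).mpr hnu
      have : (1 : A) ∈ maximalIdeal A := by
        have := Ideal.add_mem _ hm (Ideal.mul_mem_right (algebraMap 𝒪 A o') _ hx)
        rwa [sub_add_cancel] at this
      exact (Ideal.ne_top_iff_one _).mp (maximalIdeal.isMaximal A).ne_top this
    have hu' := (TrivSqZeroExt.isUnit_iff_isUnit_fst.mp (hu.map φ))
    rw [h1] at hu'
    exact not_isUnit_zero hu'
  have := TrivSqZeroExt.isUnit_iff_isUnit_fst.mp ha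
  rw [hfst a ham] at this
  exact not_isUnit_zero this

/-- **(E-out)** Finitely many coordinates generate the maximal ideal of every tight pair.
The hypothesis `hmap` is the transport statement (T1) for maps into `k[ε]`. -/
theorem S53_exists_coords {ρbar : ResidualGaloisRep (ResidueField 𝒪)}
    {𝒟 : ∀ ⦃A : Type⦄ [CommRing A] [IsLocalRing A] [Algebra 𝒪 A], GaloisRepAdic A → Prop}
    (hfin : GaloisRep.TangentFinite 𝒪 ρbar 𝒟)
    (e : Module.Basis (Fin 2) (ResidueField 𝒪) ρbar.V)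
    (c : GQ → Matrix (Fin 2) (Fin 2) 𝒪)
    (hc : ∀ σ i j, residue 𝒪 (c σ i j) = S53_rmat ρbar e σ i j)
    (E : Set (NormEq 𝒪)) (hrig : Rigidification c E)
    (hmap : ∀ {A B : Type} [CommRing A] [IsLocalRing A] [Algebra 𝒪 A]
      [CommRing B] [IsLocalRing B] [Algebra 𝒪 B],
      GaloisRep.IsArtinianTestAlgebra 𝒪 A → GaloisRep.IsArtinianTestAlgebra 𝒪 B →
      ∀ (φ : A →ₐ[𝒪] B) (r : GQ →* Matrix (Fin 2) (Fin 2) A),
        InF 𝒟 c E r → InF 𝒟 c E (mapRep (φ : A →+* B) r)) :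
    ∃ (m : ℕ) (co : Fin m → GQ × Fin 2 × Fin 2),
      ∀ {A : Type} [CommRing A] [IsLocalRing A] [Algebra 𝒪 A],
        GaloisRep.IsArtinianTestAlgebra 𝒪 A →
        ∀ (r : GQ →* Matrix (Fin 2) (Fin 2) A), InF 𝒟 c E r →
          Algebra.adjoin 𝒪 (Set.range fun x : GQ × Fin 2 × Fin 2 => r x.1 x.2.1 x.2.2) = ⊤ →
          maximalIdeal A ≤ Ideal.span (Set.range (coordOf c co r)) ⊔
            (maximalIdeal 𝒪).map (algebraMap 𝒪 A) := by
  classical
  letI algD := S53_dualAlg 𝒪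
  -- the finite set of rigidified lifts over `k[ε]`, as functions
  set L : Set (GQ → Matrix (Fin 2) (Fin 2) (DualNumber (ResidueField 𝒪))) :=
    (fun r : GQ →* Matrix (Fin 2) (Fin 2) (DualNumber (ResidueField 𝒪)) => (r : GQ → _)) ''
      {r | InF 𝒟 c E r} with hL
  have hLfin : L.Finite := (S53_finite_inF_dual hfin e c hc E hrig).image _
  obtain ⟨m, σ, i, j, hco⟩ := S53_exists_coordinates c L hLfin
  refine ⟨m, fun a => (σ a, i a, j a), ?_⟩
  intro A _ _ _ hA r hr hgen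
  haveI := hA.isLocalHom
  haveI := hA.isArtinian
  have key := hco A hA.residue_surjective (fun g => r g) hr.lift hgen ?_
  · exact key.ge
  · intro φ hφ
    -- `φ` as an algebra homomorphism
    let φA : A →ₐ[𝒪] DualNumber (ResidueField 𝒪) :=
      { φ with commutes' := fun o => hφ o }
    have h1 := hmap hA (S53_dualAlg_isArtinianTestAlgebra 𝒪) φA r hr
    exact ⟨_, h1, rfl⟩

end push

end Fermat.Agent.S53
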