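import Fermat.Prelude.Def_GaloisRep_DeformationRingData
import Fermat.Prelude.Def_GaloisRep_DeformationCondition

/-!
# S53 helper: consequences of absolute irreducibility in dimension 2

From `ρbar.IsAbsolutelyIrreducible` we extract the rigidifying data: `g0`, a basis `(v, ρ(g0) v)`,
and `g1` not commuting with `g0`.
-/

set_option autoImplicit false

open scoped TensorProduct

namespace Fermat.Agent.S53

local notation "Γℚ" => (AlgebraicClosure ℚ ≃ₐ[ℚ] AlgebraicClosure ℚ)

variable {k : Type} [Field k]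

/-- Matrix of a residual representation in a basis. -/
noncomputable def S53_rmat (ρ : ResidualGaloisRep k) (b : Module.Basis (Fin 2) k ρ.V) (g : Γℚ) :
    Matrix (Fin 2) (Fin 2) k :=
  LinearMap.toMatrix b b (ρ.ρ g)

/-- In an absolutely irreducible representation no nonzero vector of the base change to the
algebraic closure spans a stable line. -/
lemma S53_no_stable_line (ρ : ResidualGaloisRep k) (habs : ρ.IsAbsolutelyIrreducible)
    (w : (ρ.baseChange (AlgebraicClosure k)).V) (hw : w ≠ 0)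
    (hst : ∀ g : Γℚ, ∃ c : AlgebraicClosure k, (ρ.baseChange (AlgebraicClosure k)).ρ g w = c • w) :
    False := by
  have hirr := habs
  unfold ResidualGaloisRep.IsAbsolutelyIrreducible ResidualGaloisRep.IsIrreducible at hirr
  have hstable : ∀ σ : Γℚ, ∀ x ∈ Submodule.span (AlgebraicClosure k) {w},
      (ρ.baseChange (AlgebraicClosure k)).ρ σ x ∈ Submodule.span (AlgebraicClosure k) {w} := by
    intro σ x hx
    obtain ⟨a, rfl⟩ := Submodule.mem_span_singleton.mp hx
    obtain ⟨c, hc⟩ := hst σ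
    rw [map_smul, hc]
    exact Submodule.mem_span_singleton.mpr ⟨a * c, by rw [mul_smul]⟩
  rcases hirr _ hstable with h | h
  · have : w ∈ Submodule.span (AlgebraicClosure k) {w} := Submodule.mem_span_singleton_self w
    rw [h] at this
    exact hw ((Submodule.mem_bot _).mp this)
  · have h1 : Module.finrank (AlgebraicClosure k)
        (Submodule.span (AlgebraicClosure k) {w}) = 1 := finrank_span_singleton hw
    have h2 : Module.finrank (AlgebraicClosure k)
        (⊤ : Submodule (AlgebraicClosure k) (ρ.baseChange (AlgebraicClosure k)).V) = 2 := by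
      rw [finrank_top]; exact (ρ.baseChange (AlgebraicClosure k)).finrank_eq
    rw [h] at h1
    omega

lemma S53_exists_cyclic (ρ : ResidualGaloisRep k) (habs : ρ.IsAbsolutelyIrreducible) :
    ∃ (g0 : Γℚ) (v : ρ.V), LinearIndependent k ![v, ρ.ρ g0 v] := by
  by_contra hcon
  push Not at hcon
  have : Module.Finite k ρ.V := inferInstance
  let b0 : Module.Basis (Fin 2) k ρ.V := Module.finBasisOfFinrankEq k ρ.V ρ.finrank_eq
  have hv : b0 0 ≠ 0 := b0.ne_zero 0
  have hline : ∀ g : Γℚ, ∃ a : k, ρ.ρ g (b0 0) = a • b0 0 := by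
    intro g
    have hdep := hcon g (b0 0)
    rw [LinearIndependent.pair_iff] at hdep
    push Not at hdep
    obtain ⟨s, t, hst, hne⟩ := hdep
    have ht : t ≠ 0 := by
      intro ht
      rw [ht, zero_smul, add_zero] at hst
      have hs : s = 0 := by
        rcases smul_eq_zero.mp hst with h | h
        · exact h
        · exact absurd h hv
      exact hne hs ht
    refine ⟨-(t⁻¹ * s), ?_⟩
    have : t • ρ.ρ g (b0 0) = -(s • b0 0) := by
      rw [eq_neg_iff_add_eq_zero, add_comm]; exact hst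
    calc ρ.ρ g (b0 0) = t⁻¹ • (t • ρ.ρ g (b0 0)) := by rw [smul_smul, inv_mul_cancel₀ ht, one_smul]
      _ = -(t⁻¹ * s) • b0 0 := by rw [this, smul_neg, smul_smul, neg_smul]
  refine S53_no_stable_line ρ habs ((1 : AlgebraicClosure k) ⊗ₜ[k] b0 0) ?_ ?_
  · have := (Algebra.TensorProduct.basis (AlgebraicClosure k) b0).ne_zero 0
    rwa [Algebra.TensorProduct.basis_apply] at this
  · intro g
    obtain ⟨a, ha⟩ := hline g
    refine ⟨algebraMap k (AlgebraicClosure k) a, ?_⟩
    show (ρ.ρ g).baseChange (AlgebraicClosure k) (1 ⊗ₜ[k] b0 0) = _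
    rw [LinearMap.baseChange_tmul, ha, TensorProduct.tmul_smul, algebraMap_smul]

lemma S53_exists_noncomm (ρ : ResidualGaloisRep k) (habs : ρ.IsAbsolutelyIrreducible)
    (g0 : Γℚ) (v : ρ.V) (hli : LinearIndependent k ![v, ρ.ρ g0 v]) :
    ∃ g1 : Γℚ, ρ.ρ g1 * ρ.ρ g0 ≠ ρ.ρ g0 * ρ.ρ g1 := by
  by_contra hcon
  push Not at hcon
  set kb := AlgebraicClosure k
  set ρ' := ρ.baseChange kb with hρ'
  have : Module.Finite kb ρ'.V := inferInstance
  have : Nontrivial ρ'.V := by
    apply Module.nontrivial_of_finrank_pos (R := kb)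
    rw [ρ'.finrank_eq]; norm_num
  obtain ⟨μ, hμ⟩ := Module.End.exists_eigenvalue (ρ'.ρ g0)
  have hirr := habs
  unfold ResidualGaloisRep.IsAbsolutelyIrreducible ResidualGaloisRep.IsIrreducible at hirr
  have hcomm' : ∀ g : Γℚ, ρ'.ρ g * ρ'.ρ g0 = ρ'.ρ g0 * ρ'.ρ g := by
    intro g
    rw [← map_mul, ← map_mul]
    show (ρ.ρ (g * g0)).baseChange kb = (ρ.ρ (g0 * g)).baseChange kb
    rw [map_mul, map_mul, hcon g]
  have hstable : ∀ σ : Γℚ, ∀ x ∈ Module.End.eigenspace (ρ'.ρ g0) μ,
      ρ'.ρ σ x ∈ Module.End.eigenspace (ρ'.ρ g0) μ := by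
    intro σ x hx
    rw [Module.End.mem_eigenspace_iff] at hx ⊢
    have := congrArg (fun f => f x) (hcomm' σ)
    simp only [Module.End.mul_apply] at this
    rw [← this, hx, map_smul]
  rcases hirr _ hstable with h | h
  · exact hμ h
  · -- then ρ' g0 = μ • id, contradiction with linear independence
    have hb : LinearIndependent k ![v, ρ.ρ g0 v] := hli
    have hsp : ⊤ ≤ Submodule.span k (Set.range ![v, ρ.ρ g0 v]) := by
      have hcard : Fintype.card (Fin 2) = Module.finrank k ρ.V := by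
        rw [ρ.finrank_eq]; rfl
      have := hb.span_eq_top_of_card_eq_finrank' hcard
      rw [this]
    let e : Module.Basis (Fin 2) k ρ.V := Module.Basis.mk hb hsp
    let e' := Algebra.TensorProduct.basis kb e
    have he0 : e' 0 = (1 : kb) ⊗ₜ[k] v := by
      rw [Algebra.TensorProduct.basis_apply]; simp [e]
    have he1 : e' 1 = (1 : kb) ⊗ₜ[k] ρ.ρ g0 v := by
      rw [Algebra.TensorProduct.basis_apply]; simp [e]
    have hmem : e' 0 ∈ Module.End.eigenspace (ρ'.ρ g0) μ := by rw [h]; trivial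
    rw [Module.End.mem_eigenspace_iff] at hmem
    have hact : ρ'.ρ g0 (e' 0) = e' 1 := by
      rw [he0, he1]
      show (ρ.ρ g0).baseChange kb (1 ⊗ₜ[k] v) = _
      rw [LinearMap.baseChange_tmul]
    rw [hact] at hmem
    -- e' 1 = μ • e' 0 contradicts independence
    have h01 : (e'.repr (e' 1)) 1 = 1 := by simp
    rw [hmem, map_smul] at h01
    simp at h01

/-- The rigidifying data attached to an absolutely irreducible 2-dimensional representation. -/
theorem S53_exists_rigid_data (ρ : ResidualGaloisRep k) (habs : ρ.IsAbsolutelyIrreducible) :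
    ∃ (g0 g1 : Γℚ) (e : Module.Basis (Fin 2) k ρ.V) (i0 j0 : Fin 2),
      S53_rmat ρ e g0 0 0 = 0 ∧ S53_rmat ρ e g0 1 0 = 1 ∧
      (S53_rmat ρ e g1 * S53_rmat ρ e g0 - S53_rmat ρ e g0 * S53_rmat ρ e g1) i0 j0 ≠ 0 := by
  obtain ⟨g0, v, hli⟩ := S53_exists_cyclic ρ habs
  obtain ⟨g1, hg1⟩ := S53_exists_noncomm ρ habs g0 v hli
  have hsp : ⊤ ≤ Submodule.span k (Set.range ![v, ρ.ρ g0 v]) := by
    have hcard : Fintype.card (Fin 2) = Module.finrank k ρ.V := by
      rw [ρ.finrank_eq]; rfl
    have := hli.span_eq_top_of_card_eq_finrank' hcard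
    rw [this]
  let e : Module.Basis (Fin 2) k ρ.V := Module.Basis.mk hli hsp
  have he0 : e 0 = v := by simp [e]
  have he1 : e 1 = ρ.ρ g0 v := by simp [e]
  have hK : S53_rmat ρ e g1 * S53_rmat ρ e g0 - S53_rmat ρ e g0 * S53_rmat ρ e g1 ≠ 0 := by
    intro h
    apply hg1
    have h' : S53_rmat ρ e g1 * S53_rmat ρ e g0 = S53_rmat ρ e g0 * S53_rmat ρ e g1 :=
      sub_eq_zero.mp h
    unfold S53_rmat at h'
    rw [← LinearMap.toMatrix_mul, ← LinearMap.toMatrix_mul] at h'
    exact (LinearMap.toMatrix e e).injective h'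
  have : ∃ i0 j0, (S53_rmat ρ e g1 * S53_rmat ρ e g0 -
      S53_rmat ρ e g0 * S53_rmat ρ e g1) i0 j0 ≠ 0 := by
    by_contra hcon
    push Not at hcon
    exact hK (Matrix.ext hcon)
  obtain ⟨i0, j0, hij⟩ := this
  refine ⟨g0, g1, e, i0, j0, ?_, ?_, hij⟩
  · unfold S53_rmat
    rw [LinearMap.toMatrix_apply, he0, ← he1]
    simp
  · unfold S53_rmat
    rw [LinearMap.toMatrix_apply, he0, ← he1]
    simp

end Fermat.Agent.S53
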