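import Mathlib

/-!
# S53 helper: solving the rigidification equation by Hensel's lemma
-/

set_option autoImplicit false

namespace Fermat.Agent.S53

open Matrix IsLocalRing Polynomial

variable {A : Type*} [CommRing A]

/-- Root of `f0 + f1 t + f2 t^2` in the maximal ideal when `f0 ∈ 𝔪` and `f1` is a unit. -/
lemma S53_quadratic_root [IsLocalRing A] [IsAdicComplete (maximalIdeal A) A]
    (f0 f1 f2 : A) (h0 : f0 ∈ maximalIdeal A) (h1 : IsUnit f1) :
    ∃ t ∈ maximalIdeal A, f0 + f1 * t + f2 * t ^ 2 = 0 := by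
  have : HenselianRing A (maximalIdeal A) := IsAdicComplete.henselianRing A (maximalIdeal A)
  let p : A[X] := X ^ 2 + C f1 * X + C (f2 * f0)
  have hmonic : p.Monic := by
    have : p = X ^ 2 + (C f1 * X + C (f2 * f0)) := by simp [p, add_assoc]
    rw [this]
    apply Polynomial.monic_X_pow_add
    refine lt_of_le_of_lt (Polynomial.degree_add_le _ _) ?_
    refine max_lt ?_ ?_
    · refine lt_of_le_of_lt (Polynomial.degree_C_mul_X_le f1) (by norm_num)
    · refine lt_of_le_of_lt Polynomial.degree_C_le (by norm_num)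
  have heval : p.eval (-f1) ∈ maximalIdeal A := by
    have : p.eval (-f1) = f2 * f0 := by simp [p]; ring
    rw [this]
    exact Ideal.mul_mem_left _ _ h0
  have hder : IsUnit (Ideal.Quotient.mk (maximalIdeal A) (p.derivative.eval (-f1))) := by
    have : p.derivative.eval (-f1) = -f1 := by
      simp [p]; ring
    rw [this]
    exact (h1.neg).map _
  obtain ⟨z, hz, hzm⟩ := HenselianRing.is_henselian p hmonic (-f1) heval hder
  have hzu : IsUnit z := by
    by_contra h
    have hzmem : z ∈ maximalIdeal A := (IsLocalRing.mem_maximalIdeal z).mpr h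
    have : f1 ∈ maximalIdeal A := by
      have := Ideal.sub_mem _ hzm hzmem
      simpa using this
    exact ((IsLocalRing.mem_maximalIdeal _).mp this) h1
  obtain ⟨u, rfl⟩ := hzu
  have hroot : (u : A) ^ 2 + f1 * u + f2 * f0 = 0 := by
    have := hz
    simp only [Polynomial.IsRoot.def, p, Polynomial.eval_add, Polynomial.eval_pow,
      Polynomial.eval_X, Polynomial.eval_mul, Polynomial.eval_C] at this
    exact this
  refine ⟨f0 * (↑u⁻¹ : A), Ideal.mul_mem_right _ _ h0, ?_⟩
  have hu : (u : A) * (↑u⁻¹ : A) = 1 := Units.mul_inv u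
  have : f0 + f1 * (f0 * ↑u⁻¹) + f2 * (f0 * ↑u⁻¹) ^ 2 =
      f0 * (↑u⁻¹ : A) ^ 2 * ((u : A) ^ 2 + f1 * u + f2 * f0) +
        f0 * (1 - (u : A) * ↑u⁻¹) * (1 + (u : A) * ↑u⁻¹ + f1 * ↑u⁻¹) := by
    ring
  rw [this, hroot, hu]
  ring

/-- The rigidification equation is a quadratic in `t`. -/
lemma S53_rigid_equation (C M : Matrix (Fin 2) (Fin 2) A) (s : A) (i0 j0 : Fin 2)
    (h0 : C 0 0 = 0) (h1 : C 1 0 = 1) (t : A) :
    ((1 + t • C).adjugate * M * (1 + t • C)) i0 j0 - s * (1 + t • C).det =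
      (M i0 j0 - s) + ((M * C - C * M) i0 j0 + C 1 1 * (M i0 j0 - s)) * t +
        (((C 1 1 • (1 : Matrix (Fin 2) (Fin 2) A) - C) * M * C) i0 j0 + s * C 0 1) * t ^ 2 := by
  rw [Matrix.adjugate_fin_two, Matrix.det_fin_two]
  fin_cases i0 <;> fin_cases j0 <;>
    simp only [Matrix.mul_apply, Fin.sum_univ_two, h0, h1, Matrix.add_apply, Matrix.sub_apply,
      Matrix.smul_apply, Matrix.one_apply_eq, Matrix.one_apply_ne, smul_eq_mul, Matrix.of_apply,
      Matrix.cons_val_zero, Matrix.cons_val_one, Matrix.cons_val', Matrix.empty_val',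
      Matrix.cons_val_fin_one, Fin.zero_eta, Fin.mk_one, ne_eq, zero_ne_one, one_ne_zero,
      not_false_eq_true, Fin.isValue] <;> ring

theorem S53_rigid_exists [IsLocalRing A] [IsAdicComplete (maximalIdeal A) A]
    (C M : Matrix (Fin 2) (Fin 2) A) (s : A) (i0 j0 : Fin 2)
    (h0 : C 0 0 = 0) (h1 : C 1 0 = 1)
    (hs : M i0 j0 - s ∈ maximalIdeal A)
    (hunit : IsUnit ((M * C - C * M) i0 j0)) :
    ∃ t ∈ maximalIdeal A,
      ((1 + t • C).adjugate * M * (1 + t • C)) i0 j0 = s * (1 + t • C).det := by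
  have hf1 : IsUnit ((M * C - C * M) i0 j0 + C 1 1 * (M i0 j0 - s)) := by
    by_contra h
    have hmem := (IsLocalRing.mem_maximalIdeal _).mpr h
    have : (M * C - C * M) i0 j0 ∈ maximalIdeal A := by
      have := Ideal.sub_mem _ hmem (Ideal.mul_mem_left _ (C 1 1) hs)
      simpa using this
    exact ((IsLocalRing.mem_maximalIdeal _).mp this) hunit
  obtain ⟨t, ht, hroot⟩ := S53_quadratic_root (M i0 j0 - s) _
    (((C 1 1 • (1 : Matrix (Fin 2) (Fin 2) A) - C) * M * C) i0 j0 + s * C 0 1) hs hf1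
  refine ⟨t, ht, ?_⟩
  have := S53_rigid_equation C M s i0 j0 h0 h1 t
  rw [hroot] at this
  exact sub_eq_zero.mp this

end Fermat.Agent.S53
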