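import Mathlib

/-!
# S53 helper: rigidity of 2x2 matrix families over a local ring

Pure algebra on `Matrix (Fin 2) (Fin 2) A`.
-/

set_option autoImplicit false

namespace Fermat.Agent.S53

open Matrix IsLocalRing

variable {A : Type*} [CommRing A]

/-- If `P * C = C' * P` and both `C`, `C'` have first column `(0,1)`, then `P = a + b C'`
with `a = P 0 0`, `b = P 1 0`. -/
lemma S53_P_form (P C C' : Matrix (Fin 2) (Fin 2) A)
    (h0 : C 0 0 = 0) (h1 : C 1 0 = 1) (h0' : C' 0 0 = 0) (h1' : C' 1 0 = 1)
    (hPC : P * C = C' * P) :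
    P = P 0 0 • (1 : Matrix (Fin 2) (Fin 2) A) + P 1 0 • C' := by
  have e00 := congrFun (congrFun hPC 0) 0
  have e10 := congrFun (congrFun hPC 1) 0
  simp only [Matrix.mul_apply, Fin.sum_univ_two, h0, h1, h0', h1', mul_zero, zero_add, mul_one,
    zero_mul, one_mul] at e00 e10
  ext i j
  fin_cases i <;> fin_cases j <;>
    simp [h0', h1', e00, e10, mul_comm]

lemma S53_comm_of_form (a b : A) (C' : Matrix (Fin 2) (Fin 2) A) :
    (a • (1 : Matrix (Fin 2) (Fin 2) A) + b • C') * C' =
      C' * (a • (1 : Matrix (Fin 2) (Fin 2) A) + b • C') := by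
  simp [add_mul, mul_add]

lemma S53_eq_of_mul_left_eq {P X Y : Matrix (Fin 2) (Fin 2) A} (hP : IsUnit P.det)
    (h : P * X = P * Y) : X = Y := by
  have hP' : IsUnit P := (Matrix.isUnit_iff_isUnit_det P).mpr hP
  exact hP'.mul_left_cancel h

/-- Core rigidity statement: two matrix families conjugate by `P`, both normalised at `g0`
(first column `(0,1)`) and at `g1` (same `(i0,j0)` entry, residually equal, commutator entry a unit)
are equal. -/
theorem S53_rigid_unique [IsLocalRing A] {G : Type*}
    (r r' : G → Matrix (Fin 2) (Fin 2) A) (P : Matrix (Fin 2) (Fin 2) A)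
    (hP : IsUnit P.det) (hint : ∀ g, P * r g = r' g * P)
    (g0 g1 : G) (i0 j0 : Fin 2)
    (h0 : r g0 0 0 = 0) (h1 : r g0 1 0 = 1) (h0' : r' g0 0 0 = 0) (h1' : r' g0 1 0 = 1)
    (hs : r g1 i0 j0 = r' g1 i0 j0)
    (hres : ∀ i j, r g1 i j - r' g1 i j ∈ maximalIdeal A)
    (hunit : IsUnit ((r' g1 * r' g0 - r' g0 * r' g1) i0 j0)) :
    r = r' := by
  set a := P 0 0 with ha
  set b := P 1 0 with hb
  set C' := r' g0 with hC'
  set M := r g1 with hM
  set M' := r' g1 with hM'
  have hPform : P = a • (1 : Matrix (Fin 2) (Fin 2) A) + b • C' :=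
    S53_P_form P (r g0) C' h0 h1 h0' h1' (hint g0)
  -- key identity
  have hkey : P * (M - M') = b • (M' * C' - C' * M') := by
    have h1 : P * M = M' * P := hint g1
    have h2 : M' * P - P * M' = b • (M' * C' - C' * M') := by
      rw [hPform]
      simp [mul_add, add_mul, smul_sub]
    rw [mul_sub, h1, h2]
  -- b is in the maximal ideal
  have hbm : b ∈ maximalIdeal A := by
    have hentry : (P * (M - M')) i0 j0 ∈ maximalIdeal A := by
      rw [Matrix.mul_apply]
      refine Ideal.sum_mem _ fun k _ => ?_
      exact Ideal.mul_mem_left _ _ (by simpa using hres k j0)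
    rw [hkey, Matrix.smul_apply, smul_eq_mul] at hentry
    by_contra hb'
    have hbu : IsUnit b := by
      by_contra h
      exact hb' ((IsLocalRing.mem_maximalIdeal b).mpr h)
    have : IsUnit (b * (M' * C' - C' * M') i0 j0) := hbu.mul hunit
    exact ((IsLocalRing.mem_maximalIdeal _).mp hentry) this
  -- a is a unit
  have hdet : P.det = a * a + b * (a * C' 1 1 - b * C' 0 1) := by
    rw [Matrix.det_fin_two]
    have e01 : P 0 1 = b * C' 0 1 := by
      have := congrFun (congrFun hPform 0) 1
      simpa using this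
    have e11 : P 1 1 = a + b * C' 1 1 := by
      have := congrFun (congrFun hPform 1) 1
      simpa using this
    rw [e01, e11]
    ring
  have hau : IsUnit a := by
    by_contra h
    have ham : a ∈ maximalIdeal A := (IsLocalRing.mem_maximalIdeal a).mpr h
    have : P.det ∈ maximalIdeal A := by
      rw [hdet]
      exact Ideal.add_mem _ (Ideal.mul_mem_left _ _ ham) (Ideal.mul_mem_right _ _ hbm)
    exact ((IsLocalRing.mem_maximalIdeal _).mp this) hP
  -- the adjugate trick
  set K := M' * C' - C' * M' with hK
  have hadj : P.det • (M - M') = b • (P.adjugate * K) := by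
    have : P.adjugate * (P * (M - M')) = P.adjugate * (b • K) := by rw [hkey]
    rw [← Matrix.mul_assoc, Matrix.adjugate_mul, Matrix.smul_mul, Matrix.one_mul,
      Matrix.mul_smul] at this
    exact this
  have hzero : b * (P.adjugate * K) i0 j0 = 0 := by
    have := congrFun (congrFun hadj i0) j0
    simp only [Matrix.smul_apply, smul_eq_mul, Matrix.sub_apply] at this
    rw [← this, hs, sub_self, mul_zero]
  have hunit2 : IsUnit ((P.adjugate * K) i0 j0) := by
    have e01 : P 0 1 = b * C' 0 1 := by
      have := congrFun (congrFun hPform 0) 1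
      simpa using this
    have e11 : P 1 1 = a + b * C' 1 1 := by
      have := congrFun (congrFun hPform 1) 1
      simpa using this
    have hform : ∃ y ∈ maximalIdeal A, (P.adjugate * K) i0 j0 = a * K i0 j0 + y := by
      rw [Matrix.adjugate_fin_two, Matrix.mul_apply, Fin.sum_univ_two]
      fin_cases i0
      · refine ⟨b * (C' 1 1 * K 0 j0 - C' 0 1 * K 1 j0), Ideal.mul_mem_right _ _ hbm, ?_⟩
        simp only [Fin.zero_eta, Matrix.of_apply, Matrix.cons_val_zero, Matrix.cons_val_one,
          e01, e11, ← ha, ← hb]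
        ring
      · refine ⟨b * (- K 0 j0), Ideal.mul_mem_right _ _ hbm, ?_⟩
        simp only [Fin.mk_one, Matrix.of_apply, Matrix.cons_val_zero, Matrix.cons_val_one,
          ← ha, ← hb]
        ring
    obtain ⟨y, hy, hform⟩ := hform
    rw [hform]
    by_contra h
    have hmem : a * K i0 j0 + y ∈ maximalIdeal A := (IsLocalRing.mem_maximalIdeal _).mpr h
    have : a * K i0 j0 ∈ maximalIdeal A := by
      have := Ideal.sub_mem _ hmem hy
      simpa using this
    exact ((IsLocalRing.mem_maximalIdeal _).mp this) (hau.mul hunit)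
  have hb0 : b = 0 := hunit2.mul_left_eq_zero.mp hzero
  have hPa : P = a • (1 : Matrix (Fin 2) (Fin 2) A) := by
    rw [hPform, hb0, zero_smul, add_zero]
  funext g
  have := hint g
  rw [hPa] at this
  simp only [Matrix.smul_mul, Matrix.one_mul, Matrix.mul_smul, Matrix.mul_one] at this
  ext i j
  have hij := congrFun (congrFun this i) j
  simp only [Matrix.smul_apply, smul_eq_mul] at hij
  exact hau.mul_left_cancel hij

end Fermat.Agent.S53
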