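import Fermat.Agent.S53.Functor
import Fermat.Agent.S53.AbsIrr
import Fermat.Agent.S53.MatrixRigid
import Fermat.Agent.S53.MatrixHensel

/-!
# S53: the rigidification contract is satisfiable

Normalisation used: `r g0 0 0 = 0`, `r g0 1 0 = 1`, `r g1 i0 j0 = s`.
-/

set_option autoImplicit false

namespace Fermat.Agent.S53

open IsLocalRing Matrix

section modm

variable {A : Type} [CommRing A] [IsLocalRing A]

lemma S53_map_residue_eq_iff (X Y : Matrix (Fin 2) (Fin 2) A) :
    X.map (residue A) = Y.map (residue A) ↔ ∀ i j, X i j - Y i j ∈ maximalIdeal A := by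
  constructor
  · intro h i j
    have := congrFun (congrFun h i) j
    rw [Matrix.map_apply, Matrix.map_apply] at this
    rw [← residue_eq_zero_iff, map_sub, this, sub_self]
  · intro h
    ext i j
    rw [Matrix.map_apply, Matrix.map_apply]
    have := h i j
    rw [← residue_eq_zero_iff, map_sub, sub_eq_zero] at this
    exact this

lemma S53_map_residue_mul (X Y : Matrix (Fin 2) (Fin 2) A) :
    (X * Y).map (residue A) = X.map (residue A) * Y.map (residue A) :=
  Matrix.map_mul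

lemma S53_map_residue_one : (1 : Matrix (Fin 2) (Fin 2) A).map (residue A) = 1 := by
  ext i j
  by_cases h : i = j
  · subst h; simp
  · simp [Matrix.one_apply_ne h]

lemma S53_map_residue_inv (Q : Matrix (Fin 2) (Fin 2) A) (hQ : IsUnit Q.det)
    (h1 : Q.map (residue A) = 1) : Q⁻¹.map (residue A) = 1 := by
  have h := congrArg (fun X : Matrix (Fin 2) (Fin 2) A => X.map (residue A))
    (Matrix.nonsing_inv_mul Q hQ)
  simp only [S53_map_residue_mul, S53_map_residue_one, h1, Matrix.mul_one] at h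
  exact h

lemma S53_map_residue_conj (Q : Matrix (Fin 2) (Fin 2) A) (hQ : IsUnit Q.det)
    (h1 : Q.map (residue A) = 1) (X : Matrix (Fin 2) (Fin 2) A) :
    (Q⁻¹ * X * Q).map (residue A) = X.map (residue A) := by
  rw [S53_map_residue_mul, S53_map_residue_mul, S53_map_residue_inv Q hQ h1, h1, Matrix.one_mul,
    Matrix.mul_one]

lemma S53_isUnit_of_sub_mem {x y : A} (hy : IsUnit y) (h : x - y ∈ maximalIdeal A) : IsUnit x := by
  by_contra hx
  have hxm : x ∈ maximalIdeal A := (mem_maximalIdeal x).mpr hx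
  have : y ∈ maximalIdeal A := by
    have := Ideal.sub_mem _ hxm h
    simpa using this
  exact ((mem_maximalIdeal y).mp this) hy

lemma S53_isUnit_det_of_map_residue_eq_one (Q : Matrix (Fin 2) (Fin 2) A)
    (h1 : Q.map (residue A) = 1) : IsUnit Q.det := by
  rw [← residue_ne_zero_iff_isUnit]
  have : residue A Q.det = ((residue A).mapMatrix Q).det := RingHom.map_det _ _
  rw [this, RingHom.mapMatrix_apply, h1, Matrix.det_one]
  exact one_ne_zero

lemma S53_comm_entry_sub_mem (X1 X0 Y1 Y0 : Matrix (Fin 2) (Fin 2) A)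
    (h1 : ∀ i j, X1 i j - Y1 i j ∈ maximalIdeal A)
    (h0 : ∀ i j, X0 i j - Y0 i j ∈ maximalIdeal A) (i j : Fin 2) :
    (X1 * X0 - X0 * X1) i j - (Y1 * Y0 - Y0 * Y1) i j ∈ maximalIdeal A := by
  have e1 : ∀ i j, residue A (X1 i j) = residue A (Y1 i j) := fun i j => by
    have := h1 i j
    rwa [← residue_eq_zero_iff, map_sub, sub_eq_zero] at this
  have e0 : ∀ i j, residue A (X0 i j) = residue A (Y0 i j) := fun i j => by
    have := h0 i j
    rwa [← residue_eq_zero_iff, map_sub, sub_eq_zero] at this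
  rw [← residue_eq_zero_iff]
  simp only [map_sub, Matrix.sub_apply, Matrix.mul_apply, map_sum, map_mul, e1, e0, sub_self]

end modm

section eqns

variable {𝒪 : Type} [CommRing 𝒪]

/-- The equation `r g i j = a`. -/
noncomputable def S53_eqn (g : GQ) (i j : Fin 2) (a : 𝒪) : NormEq 𝒪 :=
  ⟨Finsupp.single (g, i, j) 1, a⟩

lemma S53_eqn_holds_iff {A : Type} [CommRing A] [Algebra 𝒪 A] (g : GQ) (i j : Fin 2) (a : 𝒪)
    (r : GQ → Matrix (Fin 2) (Fin 2) A) :
    (S53_eqn g i j a).Holds r ↔ r g i j = algebraMap 𝒪 A a := by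
  unfold NormEq.Holds S53_eqn
  simp only
  rw [Finsupp.sum_single_index (by simp)]
  simp

/-- The three normalisation equations. -/
noncomputable def S53_eqns (g0 g1 : GQ) (i0 j0 : Fin 2) (s : 𝒪) : Set (NormEq 𝒪) :=
  {S53_eqn g0 0 0 0, S53_eqn g0 1 0 1, S53_eqn g1 i0 j0 s}

lemma S53_isNormalised_iff {A : Type} [CommRing A] [Algebra 𝒪 A] (g0 g1 : GQ) (i0 j0 : Fin 2)
    (s : 𝒪) (r : GQ → Matrix (Fin 2) (Fin 2) A) :
    IsNormalised (S53_eqns g0 g1 i0 j0 s) r ↔
      r g0 0 0 = 0 ∧ r g0 1 0 = 1 ∧ r g1 i0 j0 = algebraMap 𝒪 A s := by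
  unfold IsNormalised S53_eqns
  simp only [Set.mem_insert_iff, Set.mem_singleton_iff, forall_eq_or_imp, forall_eq,
    S53_eqn_holds_iff, map_zero, map_one]

end eqns

section main

variable {𝒪 : Type} [CommRing 𝒪] [IsLocalRing 𝒪]

omit [IsLocalRing 𝒪] in
lemma S53_isLift_iff {A : Type} [CommRing A] [IsLocalRing A] [Algebra 𝒪 A]
    (c : GQ → Matrix (Fin 2) (Fin 2) 𝒪) (r : GQ → Matrix (Fin 2) (Fin 2) A) :
    IsLift c r ↔ ∀ σ, (r σ).map (residue A) =
      ((c σ).map (algebraMap 𝒪 A)).map (residue A) := by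
  unfold IsLift
  constructor
  · intro h σ
    rw [S53_map_residue_eq_iff]
    intro i j
    exact h σ i j
  · intro h σ i j
    have := (S53_map_residue_eq_iff _ _).mp (h σ) i j
    simpa using this

/-- The first step: make `r g0` have first column `(0,1)`. -/
lemma S53_step_one {A : Type} [CommRing A] [IsLocalRing A]
    (R0 : Matrix (Fin 2) (Fin 2) A) (h00 : R0 0 0 ∈ maximalIdeal A)
    (h10 : R0 1 0 - 1 ∈ maximalIdeal A) :
    ∃ Q : Matrix (Fin 2) (Fin 2) A, Q.map (residue A) = 1 ∧ IsUnit Q.det ∧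
      (Q⁻¹ * R0 * Q) 0 0 = 0 ∧ (Q⁻¹ * R0 * Q) 1 0 = 1 := by
  let Q : Matrix (Fin 2) (Fin 2) A := !![1, R0 0 0; 0, R0 1 0]
  have hQ1 : Q.map (residue A) = 1 := by
    rw [← S53_map_residue_one, S53_map_residue_eq_iff]
    intro i j
    fin_cases i <;> fin_cases j <;> simp [Q, h00, h10]
  have hQ : IsUnit Q.det := S53_isUnit_det_of_map_residue_eq_one Q hQ1
  have hdet : Q.det = R0 1 0 := by simp [Q, Matrix.det_fin_two]
  have hd : IsUnit (R0 1 0) := hdet ▸ hQ
  have hX : Q * (Q⁻¹ * R0 * Q) = R0 * Q := by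
    rw [← Matrix.mul_assoc, ← Matrix.mul_assoc, Matrix.mul_nonsing_inv Q hQ, Matrix.one_mul]
  have e00 := congrFun (congrFun hX 0) 0
  have e10 := congrFun (congrFun hX 1) 0
  simp only [Matrix.mul_apply (M := Q), Matrix.mul_apply (M := R0), Fin.sum_univ_two, Q,
    Matrix.of_apply, Matrix.cons_val_zero, Matrix.cons_val_one, Matrix.cons_val',
    Matrix.cons_val_fin_one, one_mul, zero_mul, zero_add, mul_one, mul_zero, add_zero] at e00 e10
  have h1 : (Q⁻¹ * R0 * Q) 1 0 = 1 := by
    have : R0 1 0 * (Q⁻¹ * R0 * Q) 1 0 = R0 1 0 * 1 := by rw [mul_one]; exact e10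
    exact hd.mul_left_cancel this
  refine ⟨Q, hQ1, hQ, ?_, h1⟩
  rw [h1, mul_one] at e00
  exact add_eq_right.mp e00

/-- Conjugation identities. -/
lemma S53_conj_mul {A : Type} [CommRing A] (W : Matrix (Fin 2) (Fin 2) A) (hW : IsUnit W.det)
    (X : Matrix (Fin 2) (Fin 2) A) : W * (W⁻¹ * X * W) = X * W := by
  rw [← Matrix.mul_assoc, ← Matrix.mul_assoc, Matrix.mul_nonsing_inv W hW, Matrix.one_mul]

/-- The second step: fix the `(i0,j0)` entry at `g1` without changing `C`. -/
lemma S53_step_two {A : Type} [CommRing A] [IsLocalRing A] [IsAdicComplete (maximalIdeal A) A]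
    (C M : Matrix (Fin 2) (Fin 2) A) (s : A) (i0 j0 : Fin 2)
    (h0 : C 0 0 = 0) (h1 : C 1 0 = 1)
    (hs : M i0 j0 - s ∈ maximalIdeal A)
    (hunit : IsUnit ((M * C - C * M) i0 j0)) :
    ∃ P : Matrix (Fin 2) (Fin 2) A, P.map (residue A) = 1 ∧ IsUnit P.det ∧
      P⁻¹ * C * P = C ∧ (P⁻¹ * M * P) i0 j0 = s := by
  obtain ⟨t, ht, heq⟩ := S53_rigid_exists C M s i0 j0 h0 h1 hs hunit
  set P : Matrix (Fin 2) (Fin 2) A := 1 + t • C with hPdef
  have hP1 : P.map (residue A) = 1 := by
    rw [← S53_map_residue_one, S53_map_residue_eq_iff]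
    intro i j
    simp only [hPdef, Matrix.add_apply, Matrix.smul_apply, smul_eq_mul, add_sub_cancel_left]
    exact Ideal.mul_mem_right _ _ ht
  have hP : IsUnit P.det := S53_isUnit_det_of_map_residue_eq_one P hP1
  refine ⟨P, hP1, hP, ?_, ?_⟩
  · have hcomm : C * P = P * C := by
      simp [hPdef, mul_add, add_mul]
    rw [Matrix.mul_assoc, hcomm, ← Matrix.mul_assoc, Matrix.nonsing_inv_mul P hP, Matrix.one_mul]
  · rw [Matrix.inv_def, Matrix.smul_mul, Matrix.smul_mul, Matrix.smul_apply, smul_eq_mul, heq,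
      mul_comm s, ← mul_assoc, Ring.inverse_mul_cancel _ hP, one_mul]

/-- The rigidification contract holds for the normalisation
`r g0 0 0 = 0`, `r g0 1 0 = 1`, `r g1 i0 j0 = c g1 i0 j0`. -/
theorem S53_rigidification (c : GQ → Matrix (Fin 2) (Fin 2) 𝒪) (g0 g1 : GQ) (i0 j0 : Fin 2)
    (h00 : residue 𝒪 (c g0 0 0) = 0) (h10 : residue 𝒪 (c g0 1 0) = 1)
    (hK : IsUnit ((c g1 * c g0 - c g0 * c g1) i0 j0)) :
    Rigidification c (S53_eqns g0 g1 i0 j0 (c g1 i0 j0)) where
  exists_conj := by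
    intro A _ _ _ _ _ hA r hr
    have : IsLocalHom (algebraMap 𝒪 A) := hA.isLocalHom
    have hr' := (S53_isLift_iff c r).mp hr
    -- step one
    have hc00 : algebraMap 𝒪 A (c g0 0 0) ∈ maximalIdeal A := by
      rw [← residue_eq_zero_iff, ← ResidueField.map_residue, h00, map_zero]
    have hc10 : algebraMap 𝒪 A (c g0 1 0) - 1 ∈ maximalIdeal A := by
      rw [← residue_eq_zero_iff, map_sub, ← ResidueField.map_residue, h10, map_one, map_one,
        sub_self]
    have hR00 : r g0 0 0 ∈ maximalIdeal A := by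
      have := Ideal.add_mem _ (hr g0 0 0) hc00
      simpa using this
    have hR10 : r g0 1 0 - 1 ∈ maximalIdeal A := by
      have := Ideal.add_mem _ (hr g0 1 0) hc10
      simpa using this
    obtain ⟨Q, hQ1, hQ, hX00, hX10⟩ := S53_step_one (r g0) hR00 hR10
    -- step two
    have hM : (Q⁻¹ * r g1 * Q) i0 j0 - algebraMap 𝒪 A (c g1 i0 j0) ∈ maximalIdeal A := by
      have h1 := S53_map_residue_conj Q hQ hQ1 (r g1)
      rw [hr' g1, S53_map_residue_eq_iff] at h1
      have := h1 i0 j0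
      simpa using this
    have hunit : IsUnit (((Q⁻¹ * r g1 * Q) * (Q⁻¹ * r g0 * Q) -
        (Q⁻¹ * r g0 * Q) * (Q⁻¹ * r g1 * Q)) i0 j0) := by
      have hcu : IsUnit (algebraMap 𝒪 A ((c g1 * c g0 - c g0 * c g1) i0 j0)) := hK.map _
      refine S53_isUnit_of_sub_mem hcu ?_
      have e1 := S53_map_residue_conj Q hQ hQ1 (r g1)
      have e0 := S53_map_residue_conj Q hQ hQ1 (r g0)
      rw [hr' g1, S53_map_residue_eq_iff] at e1
      rw [hr' g0, S53_map_residue_eq_iff] at e0
      have := S53_comm_entry_sub_mem _ _ _ _ e1 e0 i0 j0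
      convert this using 2
      simp only [Matrix.sub_apply, Matrix.mul_apply, map_sub, map_sum, map_mul, Matrix.map_apply]
    obtain ⟨P2, hP21, hP2, hC, hs⟩ := S53_step_two (Q⁻¹ * r g0 * Q) (Q⁻¹ * r g1 * Q)
      (algebraMap 𝒪 A (c g1 i0 j0)) i0 j0 hX00 hX10 hM hunit
    -- assemble
    have hW : IsUnit (Q * P2).det := by
      rw [Matrix.det_mul]; exact hQ.mul hP2
    have hW1 : (Q * P2).map (residue A) = 1 := by
      rw [S53_map_residue_mul, hQ1, hP21, Matrix.mul_one]
    have hWi : IsUnit (Q * P2)⁻¹.det := Matrix.isUnit_nonsing_inv_det _ hW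
    have hconj : ∀ σ, conj (Q * P2)⁻¹ hWi r σ = P2⁻¹ * (Q⁻¹ * r σ * Q) * P2 := by
      intro σ
      rw [conj_apply, Matrix.nonsing_inv_nonsing_inv _ hW, Matrix.mul_inv_rev]
      simp only [Matrix.mul_assoc]
    refine ⟨(Q * P2)⁻¹, hWi, ?_, ?_⟩
    · have := S53_map_residue_inv (Q * P2) hW hW1
      rw [← S53_map_residue_one, S53_map_residue_eq_iff] at this
      exact this
    · rw [S53_isNormalised_iff]
      refine ⟨?_, ?_, ?_⟩
      · rw [hconj, hC]; exact hX00
      · rw [hconj, hC]; exact hX10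
      · rw [hconj]; exact hs
  unique := by
    intro A _ _ _ _ hA r r' hr hr' hn hn' P hP hint
    have : IsLocalHom (algebraMap 𝒪 A) := hA.isLocalHom
    rw [S53_isNormalised_iff] at hn hn'
    have hrr := (S53_isLift_iff c r).mp hr
    have hrr' := (S53_isLift_iff c r').mp hr'
    have hfun : (r : GQ → Matrix (Fin 2) (Fin 2) A) = r' := by
      refine S53_rigid_unique r r' P hP hint g0 g1 i0 j0 hn.1 hn.2.1 hn'.1 hn'.2.1
        (by rw [hn.2.2, hn'.2.2]) ?_ ?_
      · intro i j
        have := Ideal.sub_mem _ (hr g1 i j) (hr' g1 i j)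
        simpa using this
      · have hcu : IsUnit (algebraMap 𝒪 A ((c g1 * c g0 - c g0 * c g1) i0 j0)) := hK.map _
        refine S53_isUnit_of_sub_mem hcu ?_
        have := S53_comm_entry_sub_mem (r' g1) (r' g0) ((c g1).map (algebraMap 𝒪 A))
          ((c g0).map (algebraMap 𝒪 A)) (fun i j => hr' g1 i j) (fun i j => hr' g0 i j) i0 j0
        convert this using 2
        simp only [Matrix.sub_apply, Matrix.mul_apply, map_sub, map_sum, map_mul,
          Matrix.map_apply]
    exact DFunLike.coe_injective hfun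

/-- Existence of a rigidification for an absolutely irreducible residual representation. -/
theorem S53_exists_rigidification (ρbar : ResidualGaloisRep (ResidueField 𝒪))
    (habs : ρbar.IsAbsolutelyIrreducible) :
    ∃ (e : Module.Basis (Fin 2) (ResidueField 𝒪) ρbar.V) (c : GQ → Matrix (Fin 2) (Fin 2) 𝒪)
      (E : Set (NormEq 𝒪)),
      (∀ σ i j, residue 𝒪 (c σ i j) = S53_rmat ρbar e σ i j) ∧ Rigidification c E := by
  obtain ⟨g0, g1, e, i0, j0, h00, h10, hK⟩ := S53_exists_rigid_data ρbar habs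
  have hex : ∀ σ i j, ∃ a : 𝒪, residue 𝒪 a = S53_rmat ρbar e σ i j :=
    fun σ i j => residue_surjective _
  choose c hc using hex
  refine ⟨e, fun σ => Matrix.of (c σ), S53_eqns g0 g1 i0 j0 (c g1 i0 j0), fun σ i j => hc σ i j,
    S53_rigidification _ g0 g1 i0 j0 ?_ ?_ ?_⟩
  · simpa using (hc g0 0 0).trans h00
  · simpa using (hc g0 1 0).trans h10
  · rw [← residue_ne_zero_iff_isUnit]
    have : residue 𝒪 ((Matrix.of (c g1) * Matrix.of (c g0) -
        Matrix.of (c g0) * Matrix.of (c g1)) i0 j0) =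
        (S53_rmat ρbar e g1 * S53_rmat ρbar e g0 -
          S53_rmat ρbar e g0 * S53_rmat ρbar e g1) i0 j0 := by
      simp only [Matrix.sub_apply, Matrix.mul_apply, map_sub, map_sum, map_mul, Matrix.of_apply,
        hc]
    rw [this]
    exact hK

end main

end Fermat.Agent.S53
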