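import Fermat.Agent.S53.RingSideT
import Fermat.Agent.S53.DictLift

/-!
# S53 (helper4): the fields `base` and `sub` of `RingSideInput`, in exactly the form of
`RingSide.lean`.
-/

set_option autoImplicit false

namespace Fermat.Agent.S53

open IsLocalRing GaloisRep

variable {𝒪 : Type} [CommRing 𝒪] [IsLocalRing 𝒪]
  {𝒟 : ∀ ⦃A : Type⦄ [CommRing A] [IsLocalRing A] [Algebra 𝒪 A], GaloisRepAdic A → Prop}
  {c : GQ → Matrix (Fin 2) (Fin 2) 𝒪} {E : Set (NormEq 𝒪)}

/-- The maximal ideal of a field is zero. -/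
lemma S53_BS_maximalIdeal_field (k : Type) [Field k] : maximalIdeal k = ⊥ :=
  (Ideal.eq_bot_or_top _).resolve_right (Ideal.IsMaximal.ne_top inferInstance)

/-- A field is complete for its maximal ideal. -/
lemma S53_BS_isAdicComplete_field (k : Type) [Field k] : IsAdicComplete (maximalIdeal k) k := by
  rw [S53_BS_maximalIdeal_field]
  infer_instance

/-- field `base` of `RingSideInput`. -/
theorem S53_RS_base (h𝒟 : IsDeformationCondition 𝒪 𝒟)
    {ρbar : ResidualGaloisRep (ResidueField 𝒪)}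
    (e : Module.Basis (Fin 2) (ResidueField 𝒪) ρbar.V)
    (hc : ∀ σ i j, residue 𝒪 (c σ i j) = S53_rmat ρbar e σ i j)
    (hrig : Rigidification c E)
    (hbar : 𝒟 (GaloisRepAdic.ofResidualGaloisRep ρbar)) :
    ∃ r₀ : GQ →* Matrix (Fin 2) (Fin 2) (ResidueField 𝒪), InF 𝒟 c E r₀ := by
  have htest : IsArtinianTestAlgebra 𝒪 (ResidueField 𝒪) := residueField_test
  have hco : IsCoeffAlg 𝒪 (ResidueField 𝒪) := IsCoeffAlg.of_test htest
  let b : Module.Basis (Fin 2) (ResidueField 𝒪) (GaloisRepAdic.ofResidualGaloisRep ρbar).V := e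
  let r₀ : GQ →* Matrix (Fin 2) (Fin 2) (ResidueField 𝒪) :=
    S53_matHom (GaloisRepAdic.ofResidualGaloisRep ρbar) b
  have hr₀ : ∀ σ, r₀ σ = S53_rmat ρbar e σ := fun σ => rfl
  have hcont : MatCont r₀ := S53_matHom_cont _ b
  have hlift : IsLift c r₀ := by
    intro σ i j
    have : r₀ σ i j - algebraMap 𝒪 (ResidueField 𝒪) (c σ i j) = 0 := by
      rw [hr₀, ResidueField.algebraMap_eq, hc, sub_self]
    rw [this]
    exact Ideal.zero_mem _
  refine ⟨r₀, hcont, hlift, ?_, ?_⟩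
  · have := S53_BS_isAdicComplete_field (ResidueField 𝒪)
    obtain ⟨P, hP, hP1, hnorm⟩ := hrig.exists_conj hco r₀ hlift
    have hPone : P = 1 := by
      ext i j
      have h := hP1 i j
      rw [S53_BS_maximalIdeal_field, Ideal.mem_bot, Matrix.sub_apply, sub_eq_zero] at h
      exact h
    subst hPone
    have hconj : conj (1 : Matrix (Fin 2) (Fin 2) (ResidueField 𝒪)) hP r₀ = r₀ := by
      ext σ i j
      simp [conj_apply]
    rwa [hconj] at hnorm
  · exact h𝒟.of_isEquiv htest (S53_isEquiv_ofMatrix _ b) hbar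

/-- field `sub` of `RingSideInput`. -/
theorem S53_RS_sub [Finite (ResidueField 𝒪)] (h𝒟 : IsDeformationCondition 𝒪 𝒟) :
    ∀ {A : Type} [CommRing A] [IsLocalRing A] [Algebra 𝒪 A],
    GaloisRep.IsArtinianTestAlgebra 𝒪 A →
    ∀ (r : GQ →* Matrix (Fin 2) (Fin 2) A), InF 𝒟 c E r →
      ∃ (B : Type) (_ : CommRing B) (_ : IsLocalRing B) (_ : Algebra 𝒪 B)
        (_ : GaloisRep.IsArtinianTestAlgebra 𝒪 B) (ι : B →ₐ[𝒪] A)
        (rB : GQ →* Matrix (Fin 2) (Fin 2) B),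
        Function.Injective ι ∧ mapRep (ι : B →+* A) rB = r ∧ InF 𝒟 c E rB ∧
          Algebra.adjoin 𝒪 (Set.range fun x : GQ × Fin 2 × Fin 2 => rB x.1 x.2.1 x.2.2) = ⊤ := by
  intro A _ _ _ hA r hr
  let S : Subalgebra 𝒪 A :=
    Algebra.adjoin 𝒪 (Set.range fun x : GQ × Fin 2 × Fin 2 => r x.1 x.2.1 x.2.2)
  have hloc : IsLocalRing S := S53_subalgebra_isLocalRing hA S
  have hS : IsArtinianTestAlgebra 𝒪 S := S53_subalgebra_isArtinianTestAlgebra hA S
  have hinj : Function.Injective (S.val : S →ₐ[𝒪] A) := Subtype.val_injective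
  obtain ⟨rB, hrB⟩ := exists_descent ((S.val : S →ₐ[𝒪] A) : S →+* A) hinj r
    (fun σ i j => ⟨⟨r σ i j, Algebra.subset_adjoin ⟨(σ, i, j), rfl⟩⟩, rfl⟩)
  refine ⟨S, inferInstance, hloc, inferInstance, hS, S.val, rB, hinj, hrB, ?_, ?_⟩
  · refine InF.of_map_injective h𝒟 hS hA S.val hinj ?_
    have : S53_push ((S.val : S →ₐ[𝒪] A) : S →+* A) rB = r := hrB
    rw [this]
    exact hr
  · apply Subalgebra.map_injective hinj
    rw [Algebra.map_top, AlgHom.map_adjoin, Subalgebra.range_val]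
    show Algebra.adjoin 𝒪 _ = Algebra.adjoin 𝒪 _
    congr 1
    ext a
    constructor
    · rintro ⟨_, ⟨x, rfl⟩, rfl⟩
      refine ⟨x, ?_⟩
      have := congrFun (congrFun (DFunLike.congr_fun hrB x.1) x.2.1) x.2.2
      exact this.symm
    · rintro ⟨x, rfl⟩
      refine ⟨rB x.1 x.2.1 x.2.2, ⟨x, rfl⟩, ?_⟩
      have := congrFun (congrFun (DFunLike.congr_fun hrB x.1) x.2.1) x.2.2
      exact this

end Fermat.Agent.S53
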