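import Fermat.Agent.S53.UnivQuot

/-!
# S53 part H: from a universal normalised lift over finite test algebras to `DeformationRingData`
-/

set_option autoImplicit false
set_option linter.unusedSectionVars false

open IsLocalRing

namespace Fermat.Agent.S53

section univ

variable {𝒪 : Type} [CommRing 𝒪] [IsLocalRing 𝒪]
variable {𝒟 : ∀ ⦃A : Type⦄ [CommRing A] [IsLocalRing A] [Algebra 𝒪 A], GaloisRepAdic A → Prop}
variable {c : GQ → Matrix (Fin 2) (Fin 2) 𝒪} {E : Set (NormEq 𝒪)}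

lemma S53_U_push_comp {A B C : Type} [CommRing A] [IsLocalRing A] [Algebra 𝒪 A]
    [CommRing B] [IsLocalRing B] [Algebra 𝒪 B] [CommRing C] [IsLocalRing C] [Algebra 𝒪 C]
    (φ : A →ₐ[𝒪] B) (ψ : B →ₐ[𝒪] C) (r : GQ →* Matrix (Fin 2) (Fin 2) A) :
    S53_U_push (ψ.comp φ) r = S53_U_push ψ (S53_U_push φ r) := by
  ext σ i j
  rfl

/-- Equal matrix homs give equivalent representations. -/
lemma S53_U_isEquiv_of_eq {A : Type} [CommRing A] [IsLocalRing A]
    (r r' : GQ →* Matrix (Fin 2) (Fin 2) A) (hr : MatCont r) (hr' : MatCont r') (h : r = r') :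
    (ofMatrix r hr).IsEquiv (ofMatrix r' hr') := by
  subst h
  exact ⟨GaloisRepAdic.Equiv.refl _⟩

/-- Membership in the functor is inherited by quotients `A ⧸ 𝔪^(n+1)` of a complete noetherian
coefficient algebra. -/
theorem S53_U_inF_quot (h𝒟 : GaloisRep.IsDeformationCondition 𝒪 𝒟)
    {A : Type} [CommRing A] [IsLocalRing A] [IsNoetherianRing A]
    [IsAdicComplete (maximalIdeal A) A] [Algebra 𝒪 A] (hA : IsCoeffAlg 𝒪 A)
    (rA : GQ →* Matrix (Fin 2) (Fin 2) A) (hrA : InF 𝒟 c E rA) (n : ℕ) :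
    InF 𝒟 c E (S53_U_push (Ideal.Quotient.mkₐ 𝒪 (maximalIdeal A ^ (n + 1))) rA) := by
  have hq : IsLocalHom ((Ideal.Quotient.mkₐ 𝒪 (maximalIdeal A ^ (n + 1)) : A →ₐ[𝒪] S53_U_Q A n) :
      A →+* S53_U_Q A n) := S53_U_Q_isLocalHom_mk A n
  have hB := S53_U_Q_isArtinianTestAlgebra (𝒪 := 𝒪) A hA n
  refine ⟨S53_U_matCont_push _ hq rA hrA.cont, S53_U_isLift_push c _ hq rA hrA.lift,
    S53_U_isNormalised_push E _ rA hrA.norm, ?_⟩
  have h1 := (h𝒟.iff_forall_surjective hA.isLocalHom hA.residue_surjective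
    (ofMatrix rA hrA.cont)).mp hrA.type hB (Ideal.Quotient.mkₐ 𝒪 (maximalIdeal A ^ (n + 1))) hq
    (Ideal.Quotient.mkₐ_surjective 𝒪 _)
  exact h𝒟.of_isEquiv hB (S53_U_baseChange_isEquiv_push _ hq rA hrA.cont) h1

/-- Krull: two elements congruent modulo all powers of the maximal ideal are equal. -/
lemma S53_U_eq_of_forall_mk_eq {A : Type} [CommRing A] [IsLocalRing A] [IsNoetherianRing A]
    (x y : A)
    (h : ∀ n : ℕ, Ideal.Quotient.mk (maximalIdeal A ^ (n + 1)) x =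
      Ideal.Quotient.mk (maximalIdeal A ^ (n + 1)) y) : x = y := by
  have hmem : x - y ∈ (⨅ n : ℕ, maximalIdeal A ^ n) := by
    rw [Ideal.mem_iInf]
    intro n
    have := h n
    rw [Ideal.Quotient.eq] at this
    exact Ideal.pow_le_pow_right (Nat.le_succ n) this
  rw [Ideal.iInf_pow_eq_bot_of_isLocalRing _ (maximalIdeal.isMaximal A).ne_top] at hmem
  exact sub_eq_zero.mp ((Ideal.mem_bot).mp hmem)

end univ

section main

variable {𝒪 : Type} [CommRing 𝒪] [IsDomain 𝒪] [IsDiscreteValuationRing 𝒪]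
  [IsAdicComplete (maximalIdeal 𝒪) 𝒪]

/-- Part H: a universal normalised lift over finite test algebras gives `DeformationRingData`. -/
theorem S53_deformationRingData_of_univ
    (ρbar : ResidualGaloisRep (ResidueField 𝒪))
    (𝒟 : ∀ ⦃A : Type⦄ [CommRing A] [IsLocalRing A] [Algebra 𝒪 A], GaloisRepAdic A → Prop)
    (habs : ρbar.IsAbsolutelyIrreducible)
    (h𝒟 : GaloisRep.IsDeformationCondition 𝒪 𝒟)
    (e : Module.Basis (Fin 2) (ResidueField 𝒪) ρbar.V)
    (c : GQ → Matrix (Fin 2) (Fin 2) 𝒪) (E : Set (NormEq 𝒪))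
    (hc : ∀ σ i j, residue 𝒪 (c σ i j) = S53_rmat ρbar e σ i j)
    (hrig : Rigidification c E)
    (R : Type) [CommRing R] [IsLocalRing R] [IsNoetherianRing R]
    [IsAdicComplete (maximalIdeal R) R] [Algebra 𝒪 R]
    (hR : IsCoeffAlg 𝒪 R) (r : GQ →* Matrix (Fin 2) (Fin 2) R) (hr : InF 𝒟 c E r)
    (hex : ∀ (B : Type) [CommRing B] [IsLocalRing B] [Algebra 𝒪 B],
      GaloisRep.IsArtinianTestAlgebra 𝒪 B →
      ∀ rB : GQ →* Matrix (Fin 2) (Fin 2) B, InF 𝒟 c E rB →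
        ∃ φ : R →ₐ[𝒪] B, S53_U_push φ r = rB)
    (huniq : ∀ (B : Type) [CommRing B] [IsLocalRing B] [Algebra 𝒪 B],
      GaloisRep.IsArtinianTestAlgebra 𝒪 B →
      ∀ φ φ' : R →ₐ[𝒪] B, S53_U_push φ r = S53_U_push φ' r → φ = φ') :
    Nonempty (GaloisRep.DeformationRingData 𝒪 ρbar 𝒟) := by
  have : IsLocalHom (algebraMap 𝒪 R) := hR.isLocalHom
  refine ⟨{ R := R
            residue_surjective := hR.residue_surjective
            absIrr := habs
            ρ := ofMatrix r hr.cont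
            isOfType := hr.type
            residual_isEquiv := S53_residual_isEquiv e c hc r hr.cont hr.lift
            universal := ?_ }⟩
  intro A _ _ _ _ _ _ hAsurj ρA hρA hresA
  have hA : IsCoeffAlg 𝒪 A := ⟨inferInstance, hAsurj⟩
  -- matrix form of ρA
  obtain ⟨r₀, hr₀c, hr₀l, hr₀e⟩ := S53_exists_isLift e c hc ρA hresA
  obtain ⟨P, hP, hP1, hnorm⟩ := hrig.exists_conj hA r₀ hr₀l
  set rA := conj P hP r₀ with hrAdef
  have hrAc : MatCont rA := S53_U_matCont_conj P hP r₀ hr₀c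
  have hrAl : IsLift c rA := S53_U_isLift_conj c P hP hP1 r₀ hr₀l
  have he0 : (ofMatrix r₀ hr₀c).IsEquiv (ofMatrix rA hrAc) :=
    (S53_ofMatrix_isEquiv_iff r₀ rA hr₀c hrAc).mpr
      ⟨P, hP, fun σ => S53_U_conj_intertwine P hP r₀ σ⟩
  have heA : ρA.IsEquiv (ofMatrix rA hrAc) := S53_U_isEquiv_trans hr₀e he0
  have hrAF : InF 𝒟 c E rA :=
    ⟨hrAc, hrAl, hnorm, S53_U_type_of_isEquiv h𝒟 hA heA hρA⟩
  -- the finite levels
  have hB : ∀ n, GaloisRep.IsArtinianTestAlgebra 𝒪 (S53_U_Q A n) :=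
    fun n => S53_U_Q_isArtinianTestAlgebra A hA n
  have hF : ∀ n, InF 𝒟 c E (S53_U_push (Ideal.Quotient.mkₐ 𝒪 (maximalIdeal A ^ (n + 1))) rA) :=
    fun n => S53_U_inF_quot h𝒟 hA rA hrAF n
  choose φn hφn using fun n => hex (S53_U_Q A n) (hB n) _ (hF n)
  -- compatibility of the φn
  have hcompat : ∀ m n (hle : m ≤ n),
      (Ideal.Quotient.factorₐ 𝒪 (Ideal.pow_le_pow_right (I := maximalIdeal A)
        (Nat.succ_le_succ hle))).comp (φn n) = φn m := by
    intro m n hle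
    apply huniq (S53_U_Q A m) (hB m)
    rw [S53_U_push_comp, hφn n, hφn m, ← S53_U_push_comp]
    rfl
  -- the family for `liftAlgHom`
  let f : (n : ℕ) → R →ₐ[𝒪] A ⧸ maximalIdeal A ^ n := fun n =>
    (Ideal.Quotient.factorₐ 𝒪 (Ideal.pow_le_pow_right (I := maximalIdeal A)
      (Nat.le_succ n))).comp (φn n)
  have hf : ∀ {m n : ℕ} (hle : m ≤ n),
      (Ideal.Quotient.factorₐ 𝒪 (Ideal.pow_le_pow_right (I := maximalIdeal A) hle)).comp (f n) =
        f m := by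
    intro m n hle
    simp only [f]
    rw [← hcompat m n hle]
    ext x
    obtain ⟨a, ha⟩ := Ideal.Quotient.mk_surjective (φn n x)
    simp only [AlgHom.comp_apply, ← ha]
    rfl
  let φ : R →ₐ[𝒪] A := IsAdicComplete.liftAlgHom (maximalIdeal A) f hf
  have hφmk : ∀ n x, Ideal.Quotient.mk (maximalIdeal A ^ n) (φ x) = f n x :=
    fun n x => IsAdicComplete.mk_liftAlgHom (maximalIdeal A) f hf n x
  have hφmk' : ∀ n x, Ideal.Quotient.mk (maximalIdeal A ^ (n + 1)) (φ x) = φn n x := by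
    intro n x
    rw [hφmk (n + 1) x]
    simp only [f, AlgHom.comp_apply]
    rw [← hcompat n (n + 1) (Nat.le_succ n)]
    obtain ⟨a, ha⟩ := Ideal.Quotient.mk_surjective (φn (n + 1) x)
    simp only [AlgHom.comp_apply, ← ha]
  have hφloc : IsLocalHom (φ : R →+* A) := S53_U_isLocalHom_of_algHom hAsurj φ
  have hpush : S53_U_push φ r = rA := by
    ext σ i j
    apply S53_U_eq_of_forall_mk_eq
    intro n
    rw [S53_U_push_apply, hφmk' n]
    have := congrArg (fun s : GQ →* Matrix (Fin 2) (Fin 2) (S53_U_Q A n) => s σ i j) (hφn n)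
    simp only [S53_U_push_apply] at this
    rw [this]
    rfl
  refine ⟨φ, ⟨hφloc, ?_⟩, ?_⟩
  · -- the base change is equivalent to ρA
    have h1 := S53_U_baseChange_isEquiv_push φ hφloc r hr.cont
    have h2 := S53_U_isEquiv_of_eq _ _ (S53_U_matCont_push φ hφloc r hr.cont) hrAc hpush
    exact S53_U_isEquiv_trans h1 (S53_U_isEquiv_trans h2 (S53_U_isEquiv_symm heA))
  · -- uniqueness
    rintro φ' ⟨hφ', hequiv'⟩
    have h1 := S53_U_baseChange_isEquiv_push φ' hφ' r hr.cont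
    have h2 : (ofMatrix (S53_U_push φ' r) (S53_U_matCont_push φ' hφ' r hr.cont)).IsEquiv
        (ofMatrix rA hrAc) :=
      S53_U_isEquiv_trans (S53_U_isEquiv_symm h1) (S53_U_isEquiv_trans hequiv' heA)
    obtain ⟨P', hP', hint'⟩ := (S53_ofMatrix_isEquiv_iff _ _ _ _).mp h2
    have hpush' : S53_U_push φ' r = rA :=
      hrig.unique hA _ _ (S53_U_isLift_push c φ' hφ' r hr.lift) hrAl
        (S53_U_isNormalised_push E φ' r hr.norm) hnorm P' hP' hint'
    apply IsAdicComplete.algHom_ext (maximalIdeal A)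
    intro n
    ext x
    simp only [AlgHom.comp_apply, Ideal.Quotient.mkₐ_eq_mk]
    have hn : (Ideal.Quotient.mkₐ 𝒪 (maximalIdeal A ^ (n + 1))).comp φ' = φn n := by
      apply huniq (S53_U_Q A n) (hB n)
      rw [S53_U_push_comp, hpush', hφn n]
    have e1 : Ideal.Quotient.mk (maximalIdeal A ^ (n + 1)) (φ' x) =
        Ideal.Quotient.mk (maximalIdeal A ^ (n + 1)) (φ x) := by
      rw [hφmk' n x, ← hn]
      rfl
    rw [Ideal.Quotient.eq] at e1 ⊢
    exact Ideal.pow_le_pow_right (Nat.le_succ n) e1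

/-- Part H in the exact form of the `(G-out)` interface. -/
theorem S53_deformationRingData_of_Gout
    (ρbar : ResidualGaloisRep (ResidueField 𝒪))
    (𝒟 : ∀ ⦃A : Type⦄ [CommRing A] [IsLocalRing A] [Algebra 𝒪 A], GaloisRepAdic A → Prop)
    (habs : ρbar.IsAbsolutelyIrreducible)
    (h𝒟 : GaloisRep.IsDeformationCondition 𝒪 𝒟)
    (e : Module.Basis (Fin 2) (ResidueField 𝒪) ρbar.V)
    (c : GQ → Matrix (Fin 2) (Fin 2) 𝒪) (E : Set (NormEq 𝒪))
    (hc : ∀ σ i j, residue 𝒪 (c σ i j) = S53_rmat ρbar e σ i j)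
    (hrig : Rigidification c E)
    (hG : ∃ (R : Type) (_ : CommRing R) (_ : IsLocalRing R) (_ : IsNoetherianRing R)
      (_ : IsAdicComplete (maximalIdeal R) R) (_ : Algebra 𝒪 R) (_ : IsCoeffAlg 𝒪 R)
      (r : GQ →* Matrix (Fin 2) (Fin 2) R), InF 𝒟 c E r ∧
      (∀ (B : Type) [CommRing B] [IsLocalRing B] [Algebra 𝒪 B],
        GaloisRep.IsArtinianTestAlgebra 𝒪 B →
        ∀ rB : GQ →* Matrix (Fin 2) (Fin 2) B, InF 𝒟 c E rB →
          ∃ φ : R →ₐ[𝒪] B, ∀ σ, (r σ).map φ = rB σ) ∧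
      (∀ (B : Type) [CommRing B] [IsLocalRing B] [Algebra 𝒪 B],
        GaloisRep.IsArtinianTestAlgebra 𝒪 B →
        ∀ φ φ' : R →ₐ[𝒪] B, (∀ σ, (r σ).map φ = (r σ).map φ') → φ = φ')) :
    Nonempty (GaloisRep.DeformationRingData 𝒪 ρbar 𝒟) := by
  obtain ⟨R, _, _, _, _, _, hR, r, hr, hex, huniq⟩ := hG
  refine S53_deformationRingData_of_univ ρbar 𝒟 habs h𝒟 e c E hc hrig R hR r hr ?_ ?_
  · intro B _ _ _ hB rB hrB
    obtain ⟨φ, hφ⟩ := hex B hB rB hrB
    exact ⟨φ, MonoidHom.ext fun σ => hφ σ⟩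
  · intro B _ _ _ hB φ φ' h
    exact huniq B hB φ φ' fun σ => DFunLike.congr_fun h σ

end main

end Fermat.Agent.S53
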