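import Fermat.Agent.S53.RingSideT
import Fermat.Agent.S53.RingSideBS
import Fermat.Agent.S53.Coords
import Fermat.Agent.S53.Rigidify
import Fermat.Agent.S53.Univ

/-!
# S53: final assembly

* `S53_exists_ringSideInput` : the ring side input contract `RingSideInput 𝒟 c E m co` for
  suitable coordinates `co`, from the landed fields `map`, `of_map_injective`, `of_forall_artin`
  (`RingSideT.lean`), `coords` (`Coords.lean`), and the three fields `base`, `sub`, `prod`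
  taken as hypotheses.
* `S53_result_core` : the frozen statement S53 from the (G-out) interface and the three fields.
-/

set_option autoImplicit false
set_option linter.unusedSectionVars false

open IsLocalRing

namespace Fermat.Agent.S53

section ringside

variable {𝒪 : Type} [CommRing 𝒪] [IsLocalRing 𝒪]

/-- The statement of the field `prod` of `RingSideInput`. -/
def S53_ProdStmt
    (𝒟 : ∀ ⦃A : Type⦄ [CommRing A] [IsLocalRing A] [Algebra 𝒪 A], GaloisRepAdic A → Prop)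
    (c : GQ → Matrix (Fin 2) (Fin 2) 𝒪) (E : Set (NormEq 𝒪)) : Prop :=
  ∀ {A B : Type} [CommRing A] [IsLocalRing A] [Algebra 𝒪 A]
    [CommRing B] [IsLocalRing B] [Algebra 𝒪 B],
    GaloisRep.IsArtinianTestAlgebra 𝒪 A → GaloisRep.IsArtinianTestAlgebra 𝒪 B →
    ∀ (rA : GQ →* Matrix (Fin 2) (Fin 2) A) (rB : GQ →* Matrix (Fin 2) (Fin 2) B),
      InF 𝒟 c E rA → InF 𝒟 c E rB →
      ∃ (D : Type) (_ : CommRing D) (_ : IsLocalRing D) (_ : Algebra 𝒪 D)
        (_ : GaloisRep.IsArtinianTestAlgebra 𝒪 D) (pA : D →ₐ[𝒪] A) (pB : D →ₐ[𝒪] B)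
        (rD : GQ →* Matrix (Fin 2) (Fin 2) D),
        InF 𝒟 c E rD ∧ mapRep (pA : D →+* A) rD = rA ∧ mapRep (pB : D →+* B) rD = rB ∧
          ∀ d d' : D, pA d = pA d' → pB d = pB d' → d = d'

/-- The statement of the `(G-out)` interface (the hypothesis `hG` of
`S53_deformationRingData_of_Gout`). -/
def S53_GoutStmt
    (𝒟 : ∀ ⦃A : Type⦄ [CommRing A] [IsLocalRing A] [Algebra 𝒪 A], GaloisRepAdic A → Prop)
    (c : GQ → Matrix (Fin 2) (Fin 2) 𝒪) (E : Set (NormEq 𝒪)) : Prop :=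
  ∃ (R : Type) (_ : CommRing R) (_ : IsLocalRing R) (_ : IsNoetherianRing R)
    (_ : IsAdicComplete (maximalIdeal R) R) (_ : Algebra 𝒪 R) (_ : IsCoeffAlg 𝒪 R)
    (r : GQ →* Matrix (Fin 2) (Fin 2) R), InF 𝒟 c E r ∧
    (∀ (B : Type) [CommRing B] [IsLocalRing B] [Algebra 𝒪 B],
      GaloisRep.IsArtinianTestAlgebra 𝒪 B →
      ∀ rB : GQ →* Matrix (Fin 2) (Fin 2) B, InF 𝒟 c E rB →
        ∃ φ : R →ₐ[𝒪] B, ∀ σ, (r σ).map φ = rB σ) ∧
    (∀ (B : Type) [CommRing B] [IsLocalRing B] [Algebra 𝒪 B],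
      GaloisRep.IsArtinianTestAlgebra 𝒪 B →
      ∀ φ φ' : R →ₐ[𝒪] B, (∀ σ, (r σ).map φ = (r σ).map φ') → φ = φ')

/-- **Assembly of the ring side input** (all fields landed except `prod`, taken as a
hypothesis). -/
theorem S53_exists_ringSideInput [Finite (ResidueField 𝒪)]
    {ρbar : ResidualGaloisRep (ResidueField 𝒪)}
    {𝒟 : ∀ ⦃A : Type⦄ [CommRing A] [IsLocalRing A] [Algebra 𝒪 A], GaloisRepAdic A → Prop}
    (hfin : GaloisRep.TangentFinite 𝒪 ρbar 𝒟)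
    (h𝒟 : GaloisRep.IsDeformationCondition 𝒪 𝒟)
    (hbar : 𝒟 (GaloisRepAdic.ofResidualGaloisRep ρbar))
    (e : Module.Basis (Fin 2) (ResidueField 𝒪) ρbar.V)
    (c : GQ → Matrix (Fin 2) (Fin 2) 𝒪)
    (hc : ∀ σ i j, residue 𝒪 (c σ i j) = S53_rmat ρbar e σ i j)
    (E : Set (NormEq 𝒪)) (hrig : Rigidification c E)
    (hprod : S53_ProdStmt 𝒟 c E) :
    ∃ (m : ℕ) (co : Fin m → GQ × Fin 2 × Fin 2), RingSideInput 𝒟 c E m co := by
  obtain ⟨m, co, hco⟩ := S53_exists_coords hfin e c hc E hrig (S53_RS_map h𝒟)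
  exact ⟨m, co,
    { map := S53_RS_map h𝒟
      of_map_injective := S53_RS_of_map_injective h𝒟
      prod := hprod
      sub := S53_RS_sub h𝒟
      coords := hco
      of_forall_artin := S53_RS_of_forall_artin h𝒟
      base := S53_RS_base h𝒟 e hc hrig hbar }⟩

end ringside

section core

variable (𝒪 : Type) [CommRing 𝒪] [IsDomain 𝒪] [IsDiscreteValuationRing 𝒪]
  [IsAdicComplete (maximalIdeal 𝒪) 𝒪] [Finite (ResidueField 𝒪)]

/-- **S53, modulo the two open interfaces** (`prod`, `(G-out)`). -/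
theorem S53_result_core
    (ρbar : ResidualGaloisRep (ResidueField 𝒪))
    (𝒟 : ∀ ⦃A : Type⦄ [CommRing A] [IsLocalRing A] [Algebra 𝒪 A], GaloisRepAdic A → Prop)
    (habs : ρbar.IsAbsolutelyIrreducible)
    (h𝒟 : GaloisRep.IsDeformationCondition 𝒪 𝒟)
    (hbar : 𝒟 (GaloisRepAdic.ofResidualGaloisRep ρbar))
    (hfin : GaloisRep.TangentFinite 𝒪 ρbar 𝒟)
    (hprod : ∀ (c : GQ → Matrix (Fin 2) (Fin 2) 𝒪) (E : Set (NormEq 𝒪)), S53_ProdStmt 𝒟 c E)
    (hGout : ∀ (c : GQ → Matrix (Fin 2) (Fin 2) 𝒪) (E : Set (NormEq 𝒪)) (m : ℕ)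
      (co : Fin m → GQ × Fin 2 × Fin 2), RingSideInput 𝒟 c E m co → S53_GoutStmt 𝒟 c E) :
    Nonempty (GaloisRep.DeformationRingData 𝒪 ρbar 𝒟) := by
  obtain ⟨e, c, E, hc, hrig⟩ := S53_exists_rigidification ρbar habs
  obtain ⟨m, co, h⟩ := S53_exists_ringSideInput hfin h𝒟 hbar e c hc E hrig (hprod c E)
  exact S53_deformationRingData_of_Gout ρbar 𝒟 habs h𝒟 e c E hc hrig (hGout c E m co h)

end core

end Fermat.Agent.S53
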