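import Mathlib

/-!
# S53, part E: generators of the maximal ideal of a tight pair

* `S53_exists_separating`: a finite set of functions has a finite separating family of arguments.
* `S53_span_sup_map_eq_maximalIdeal`: if a family `y j ∈ A` separates the ring homomorphisms
  `A → k[ε]` over `𝒪`, then the `y j - c j` together with `𝔪_𝒪` generate `𝔪_A`.
-/

set_option autoImplicit false

namespace Fermat.Agent.S53

open IsLocalRing

/-- A finite set of functions admits a finite separating family of arguments. -/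
theorem S53_exists_separating {α β : Type*} (L : Set (α → β)) (hL : L.Finite) :
    ∃ (m : ℕ) (p : Fin m → α), ∀ f ∈ L, ∀ f' ∈ L, (∀ j, f (p j) = f' (p j)) → f = f' := by
  classical
  have : Finite L := hL
  let T := {q : L × L // (q.1 : α → β) ≠ (q.2 : α → β)}
  have : Finite T := inferInstance
  let e : T ≃ Fin (Nat.card T) := Finite.equivFin T
  have hT : ∀ t : T, ∃ a : α, (t.1.1 : α → β) a ≠ (t.1.2 : α → β) a := fun t =>
    Function.ne_iff.mp t.2
  choose pt hpt using hT
  refine ⟨Nat.card T, fun j => pt (e.symm j), fun f hf f' hf' h => ?_⟩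
  by_contra hne
  let t : T := ⟨(⟨f, hf⟩, ⟨f', hf'⟩), hne⟩
  have := hpt t
  apply this
  have h2 := h (e t)
  simpa using h2

section core

variable {𝒪 : Type*} [CommRing 𝒪] [IsLocalRing 𝒪]
variable {A : Type*} [CommRing A] [IsLocalRing A] [Algebra 𝒪 A]

lemma S53_residueFieldMap_bijective [IsLocalHom (algebraMap 𝒪 A)]
    (hres : Function.Surjective (residue A ∘ algebraMap 𝒪 A)) :
    Function.Bijective (ResidueField.map (algebraMap 𝒪 A)) := by
  refine ⟨(ResidueField.map (algebraMap 𝒪 A)).injective, fun x => ?_⟩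
  obtain ⟨o, ho⟩ := hres x
  exact ⟨residue 𝒪 o, by rw [ResidueField.map_residue]; exact ho⟩

/-- The residue map `A → k`, `k` the residue field of `𝒪`. -/
noncomputable def S53_resTo [IsLocalHom (algebraMap 𝒪 A)]
    (hres : Function.Surjective (residue A ∘ algebraMap 𝒪 A)) : A →+* ResidueField 𝒪 :=
  ((RingEquiv.ofBijective (ResidueField.map (algebraMap 𝒪 A))
    (S53_residueFieldMap_bijective hres)).symm : ResidueField A →+* ResidueField 𝒪).comp
    (residue A)

lemma S53_resTo_algebraMap [IsLocalHom (algebraMap 𝒪 A)]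
    (hres : Function.Surjective (residue A ∘ algebraMap 𝒪 A)) (o : 𝒪) :
    S53_resTo hres (algebraMap 𝒪 A o) = residue 𝒪 o := by
  unfold S53_resTo
  rw [RingHom.comp_apply, RingHom.coe_coe, RingEquiv.symm_apply_eq]
  rw [RingEquiv.ofBijective_apply, ResidueField.map_residue]

lemma S53_resTo_eq_zero_iff [IsLocalHom (algebraMap 𝒪 A)]
    (hres : Function.Surjective (residue A ∘ algebraMap 𝒪 A)) (a : A) :
    S53_resTo hres a = 0 ↔ a ∈ maximalIdeal A := by
  unfold S53_resTo
  rw [RingHom.comp_apply, RingHom.coe_coe, map_eq_zero_iff _ (RingEquiv.injective _),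
    residue_eq_zero_iff]

end core

section deriv

variable {𝒪 : Type*} [CommRing 𝒪] [IsLocalRing 𝒪]
variable {A : Type*} [CommRing A] [IsLocalRing A] [Algebra 𝒪 A] [IsLocalHom (algebraMap 𝒪 A)]
variable (hres : Function.Surjective (residue A ∘ algebraMap 𝒪 A))
variable (lam : CotangentSpace A →ₗ[ResidueField A] ResidueField A)

/-- The functional `lam` on the cotangent space, read as a `k`-valued function on `𝔪_A`. -/
noncomputable def S53_lamK (m : maximalIdeal A) : ResidueField 𝒪 :=
  (RingEquiv.ofBijective (ResidueField.map (algebraMap 𝒪 A))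
    (S53_residueFieldMap_bijective hres)).symm (lam ((maximalIdeal A).toCotangent m))

lemma S53_lamK_add (m m' : maximalIdeal A) :
    S53_lamK hres lam (m + m') = S53_lamK hres lam m + S53_lamK hres lam m' := by
  unfold S53_lamK
  rw [map_add, map_add, map_add]

lemma S53_lamK_sub (m m' : maximalIdeal A) :
    S53_lamK hres lam (m - m') = S53_lamK hres lam m - S53_lamK hres lam m' := by
  unfold S53_lamK
  rw [map_sub, map_sub, map_sub]

lemma S53_lamK_zero : S53_lamK hres lam 0 = 0 := by
  unfold S53_lamK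
  rw [map_zero, map_zero, map_zero]

lemma S53_lamK_smul (a : A) (m : maximalIdeal A) :
    S53_lamK hres lam (a • m) = S53_resTo hres a * S53_lamK hres lam m := by
  unfold S53_lamK S53_resTo
  rw [map_smul, ← algebraMap_smul (ResidueField A) a ((maximalIdeal A).toCotangent m),
    map_smul, smul_eq_mul, map_mul]
  rfl

lemma S53_lamK_of_mem_sq (m : maximalIdeal A) (hm : (m : A) ∈ maximalIdeal A ^ 2) :
    S53_lamK hres lam m = 0 := by
  unfold S53_lamK
  rw [(Ideal.toCotangent_eq_zero _ m).mpr hm, map_zero, map_zero]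

/-- A choice of `o : 𝒪` with the same residue as `a`. -/
noncomputable def S53_sec (a : A) : 𝒪 := (hres (residue A a)).choose

omit [IsLocalRing 𝒪] [IsLocalHom (algebraMap 𝒪 A)] in
lemma S53_sec_spec (a : A) : a - algebraMap 𝒪 A (S53_sec hres a) ∈ maximalIdeal A := by
  have h := (hres (residue A a)).choose_spec
  rw [← residue_eq_zero_iff, map_sub, sub_eq_zero]
  exact h.symm

/-- The "derivation" `A → k` attached to the functional `lam`. -/
noncomputable def S53_delta (a : A) : ResidueField 𝒪 :=
  S53_lamK hres lam ⟨a - algebraMap 𝒪 A (S53_sec hres a), S53_sec_spec hres a⟩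

variable (hlam : ∀ (ϖ : 𝒪) (h : algebraMap 𝒪 A ϖ ∈ maximalIdeal A),
    lam ((maximalIdeal A).toCotangent ⟨algebraMap 𝒪 A ϖ, h⟩) = 0)

include hlam in
lemma S53_delta_eq (a : A) (o : 𝒪) (h : a - algebraMap 𝒪 A o ∈ maximalIdeal A) :
    S53_delta hres lam a = S53_lamK hres lam ⟨a - algebraMap 𝒪 A o, h⟩ := by
  unfold S53_delta
  have hmem : algebraMap 𝒪 A (o - S53_sec hres a) ∈ maximalIdeal A := by
    have := Ideal.sub_mem _ (S53_sec_spec hres a) h
    rw [map_sub]
    convert this using 1
    ring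
  have hsub : (⟨a - algebraMap 𝒪 A (S53_sec hres a), S53_sec_spec hres a⟩ : maximalIdeal A)
      - ⟨a - algebraMap 𝒪 A o, h⟩ = ⟨algebraMap 𝒪 A (o - S53_sec hres a), hmem⟩ := by
    apply Subtype.ext
    simp only [AddSubgroupClass.coe_sub, map_sub]
    ring
  have h0 : S53_lamK hres lam ⟨algebraMap 𝒪 A (o - S53_sec hres a), hmem⟩ = 0 := by
    unfold S53_lamK
    rw [hlam _ hmem, map_zero]
  rw [← sub_eq_zero, ← S53_lamK_sub, hsub, h0]

include hlam in
lemma S53_delta_algebraMap (o : 𝒪) : S53_delta hres lam (algebraMap 𝒪 A o) = 0 := by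
  rw [S53_delta_eq hres lam hlam (algebraMap 𝒪 A o) o (by rw [sub_self]; exact Ideal.zero_mem _)]
  have : (⟨algebraMap 𝒪 A o - algebraMap 𝒪 A o, by rw [sub_self]; exact Ideal.zero_mem _⟩ :
      maximalIdeal A) = 0 := Subtype.ext (sub_self _)
  rw [this, S53_lamK_zero]

include hlam in
lemma S53_delta_of_mem (m : maximalIdeal A) :
    S53_delta hres lam (m : A) = S53_lamK hres lam m := by
  rw [S53_delta_eq hres lam hlam (m : A) 0 (by rw [map_zero, sub_zero]; exact m.2)]
  congr 1
  apply Subtype.ext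
  simp

include hlam in
lemma S53_delta_add (a b : A) :
    S53_delta hres lam (a + b) = S53_delta hres lam a + S53_delta hres lam b := by
  have ha := S53_sec_spec hres a
  have hb := S53_sec_spec hres b
  have hab : a + b - algebraMap 𝒪 A (S53_sec hres a + S53_sec hres b) ∈ maximalIdeal A := by
    have := Ideal.add_mem _ ha hb
    rw [map_add]
    convert this using 1
    ring
  rw [S53_delta_eq hres lam hlam (a + b) _ hab]
  unfold S53_delta
  rw [← S53_lamK_add]
  congr 1
  apply Subtype.ext
  simp only [map_add, AddMemClass.mk_add_mk]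
  ring

include hlam in
lemma S53_delta_mul (a b : A) :
    S53_delta hres lam (a * b) =
      S53_resTo hres a * S53_delta hres lam b + S53_resTo hres b * S53_delta hres lam a := by
  have ha := S53_sec_spec hres a
  have hb := S53_sec_spec hres b
  set oa := S53_sec hres a with hoa
  set ob := S53_sec hres b with hob
  set ma : maximalIdeal A := ⟨a - algebraMap 𝒪 A oa, ha⟩ with hma
  set mb : maximalIdeal A := ⟨b - algebraMap 𝒪 A ob, hb⟩ with hmb
  have hab : a * b - algebraMap 𝒪 A (oa * ob) ∈ maximalIdeal A := by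
    have h1 : a * b - algebraMap 𝒪 A (oa * ob) =
        a * (b - algebraMap 𝒪 A ob) + algebraMap 𝒪 A ob * (a - algebraMap 𝒪 A oa) := by
      rw [map_mul]; ring
    rw [h1]
    exact Ideal.add_mem _ (Ideal.mul_mem_left _ _ hb) (Ideal.mul_mem_left _ _ ha)
  rw [S53_delta_eq hres lam hlam (a * b) _ hab]
  have hda : S53_delta hres lam a = S53_lamK hres lam ma := rfl
  have hdb : S53_delta hres lam b = S53_lamK hres lam mb := rfl
  rw [hda, hdb, ← S53_lamK_smul, ← S53_lamK_smul, ← S53_lamK_add]
  -- difference is `ma * mb`-type term in `𝔪²`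
  have hsq : ((ma : A) * (mb : A)) ∈ maximalIdeal A ^ 2 := by
    rw [pow_two]; exact Ideal.mul_mem_mul ma.2 mb.2
  have hmm : (ma : A) * (mb : A) ∈ maximalIdeal A := Ideal.mul_mem_left _ _ mb.2
  have key : (⟨a * b - algebraMap 𝒪 A (oa * ob), hab⟩ : maximalIdeal A) =
      (a • mb + b • ma) - ⟨(ma : A) * (mb : A), hmm⟩ := by
    apply Subtype.ext
    simp only [hma, hmb, map_mul, AddSubgroupClass.coe_sub, Submodule.coe_add,
      Submodule.coe_smul, smul_eq_mul]
    ring
  rw [key, S53_lamK_sub, S53_lamK_of_mem_sq hres lam ⟨(ma : A) * (mb : A), hmm⟩ hsq, sub_zero]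

/-- The ring homomorphism `A → k[ε]` attached to the functional `lam`. -/
noncomputable def S53_toDual : A →+* DualNumber (ResidueField 𝒪) where
  toFun a := TrivSqZeroExt.inl (S53_resTo hres a) + TrivSqZeroExt.inr (S53_delta hres lam a)
  map_one' := by
    have h1 : S53_delta hres lam (1 : A) = 0 := by
      have := S53_delta_algebraMap hres lam hlam (1 : 𝒪)
      rwa [map_one] at this
    rw [h1, map_one, TrivSqZeroExt.inr_zero, add_zero, TrivSqZeroExt.inl_one]
  map_mul' a b := by
    rw [S53_delta_mul hres lam hlam, map_mul]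
    apply TrivSqZeroExt.ext
    · simp
    · simp only [TrivSqZeroExt.snd_add, TrivSqZeroExt.snd_inl, TrivSqZeroExt.snd_inr, zero_add,
        TrivSqZeroExt.snd_mul, TrivSqZeroExt.fst_add, TrivSqZeroExt.fst_inl,
        TrivSqZeroExt.fst_inr, add_zero, smul_eq_mul, MulOpposite.smul_eq_mul_unop,
        MulOpposite.unop_op]
      ring
  map_zero' := by
    have h0 : S53_delta hres lam (0 : A) = 0 := by
      have := S53_delta_algebraMap hres lam hlam (0 : 𝒪)
      rwa [map_zero] at this
    rw [h0, map_zero, TrivSqZeroExt.inr_zero, add_zero, TrivSqZeroExt.inl_zero]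
  map_add' a b := by
    rw [S53_delta_add hres lam hlam, map_add, TrivSqZeroExt.inl_add, TrivSqZeroExt.inr_add]
    abel

lemma S53_toDual_apply (a : A) :
    S53_toDual hres lam hlam a =
      TrivSqZeroExt.inl (S53_resTo hres a) + TrivSqZeroExt.inr (S53_delta hres lam a) := rfl

lemma S53_toDual_algebraMap (o : 𝒪) :
    S53_toDual hres lam hlam (algebraMap 𝒪 A o) = TrivSqZeroExt.inl (residue 𝒪 o) := by
  rw [S53_toDual_apply, S53_delta_algebraMap hres lam hlam, S53_resTo_algebraMap,
    TrivSqZeroExt.inr_zero, add_zero]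

end deriv

section main

variable {𝒪 : Type*} [CommRing 𝒪] [IsLocalRing 𝒪]
variable {A : Type*} [CommRing A] [IsLocalRing A] [Algebra 𝒪 A] [IsLocalHom (algebraMap 𝒪 A)]

/-- **Generators from separation.** If the family `y` separates the ring homomorphisms
`A → k[ε]` over `𝒪` (i.e. those restricting to `o ↦ inl (residue o)` on `𝒪`), then the elements
`y j - c j` (assumed to lie in `𝔪_A`) together with the image of `𝔪_𝒪` generate `𝔪_A`. -/
theorem S53_span_sup_map_eq_maximalIdeal [IsNoetherianRing A]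
    (hres : Function.Surjective (residue A ∘ algebraMap 𝒪 A))
    {ι : Type*} (y : ι → A) (c : ι → 𝒪)
    (hyc : ∀ j, y j - algebraMap 𝒪 A (c j) ∈ maximalIdeal A)
    (hsep : ∀ φ φ' : A →+* DualNumber (ResidueField 𝒪),
      (∀ o, φ (algebraMap 𝒪 A o) = TrivSqZeroExt.inl (residue 𝒪 o)) →
      (∀ o, φ' (algebraMap 𝒪 A o) = TrivSqZeroExt.inl (residue 𝒪 o)) →
      (∀ j, φ (y j) = φ' (y j)) → φ = φ') :
    Ideal.span (Set.range fun j => y j - algebraMap 𝒪 A (c j)) ⊔
      (maximalIdeal 𝒪).map (algebraMap 𝒪 A) = maximalIdeal A := by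
  classical
  set I : Ideal A := Ideal.span (Set.range fun j => y j - algebraMap 𝒪 A (c j)) ⊔
      (maximalIdeal 𝒪).map (algebraMap 𝒪 A) with hI
  have hmap_le : (maximalIdeal 𝒪).map (algebraMap 𝒪 A) ≤ maximalIdeal A := by
    rw [Ideal.map_le_iff_le_comap]
    intro ϖ hϖ
    rw [Ideal.mem_comap, mem_maximalIdeal, mem_nonunits_iff]
    intro hu
    exact (mem_maximalIdeal ϖ).mp hϖ (isUnit_of_map_unit (algebraMap 𝒪 A) ϖ hu)
  have hIle : I ≤ maximalIdeal A := by
    refine sup_le ?_ hmap_le
    rw [Ideal.span_le]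
    rintro _ ⟨j, rfl⟩
    exact hyc j
  refine le_antisymm hIle ?_
  -- the set of generators inside `𝔪_A`
  set s : Set (maximalIdeal A) := {m | (m : A) ∈ I} with hs
  have hspan : Submodule.span A s = ⊤ := by
    rw [← CotangentSpace.span_image_eq_top_iff]
    by_contra hne
    obtain ⟨x, hx⟩ : ∃ x : CotangentSpace A,
        x ∉ Submodule.span (ResidueField A) ((maximalIdeal A).toCotangent '' s) := by
      by_contra hall
      push Not at hall
      exact hne (eq_top_iff.mpr fun x _ => hall x)
    obtain ⟨f, hfx, hf⟩ := Submodule.exists_dual_map_eq_bot_of_notMem hx inferInstance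
    have hfs : ∀ m : maximalIdeal A, (m : A) ∈ I → f ((maximalIdeal A).toCotangent m) = 0 := by
      intro m hm
      have h1 : (maximalIdeal A).toCotangent m ∈
          Submodule.span (ResidueField A) ((maximalIdeal A).toCotangent '' s) :=
        Submodule.subset_span ⟨m, hm, rfl⟩
      have h2 : f ((maximalIdeal A).toCotangent m) ∈
          (Submodule.span (ResidueField A) ((maximalIdeal A).toCotangent '' s)).map f :=
        Submodule.mem_map_of_mem h1
      rw [hf] at h2
      exact (Submodule.mem_bot _).mp h2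
    have hlam : ∀ (ϖ : 𝒪) (h : algebraMap 𝒪 A ϖ ∈ maximalIdeal A),
        f ((maximalIdeal A).toCotangent ⟨algebraMap 𝒪 A ϖ, h⟩) = 0 := by
      intro ϖ h
      apply hfs
      have hϖ : ϖ ∈ maximalIdeal 𝒪 := by
        rw [mem_maximalIdeal, mem_nonunits_iff]
        intro hu
        exact (mem_maximalIdeal _).mp h (hu.map (algebraMap 𝒪 A))
      exact Ideal.mem_sup_right (Ideal.mem_map_of_mem _ hϖ)
    have hlam0 : ∀ (ϖ : 𝒪) (h : algebraMap 𝒪 A ϖ ∈ maximalIdeal A),
        (0 : CotangentSpace A →ₗ[ResidueField A] ResidueField A)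
          ((maximalIdeal A).toCotangent ⟨algebraMap 𝒪 A ϖ, h⟩) = 0 := fun _ _ => rfl
    set φ := S53_toDual hres f hlam with hφ
    set φ₀ := S53_toDual hres
      (0 : CotangentSpace A →ₗ[ResidueField A] ResidueField A) hlam0 with hφ₀
    have hd0 : ∀ a : A, S53_delta hres
        (0 : CotangentSpace A →ₗ[ResidueField A] ResidueField A) a = 0 := by
      intro a
      unfold S53_delta S53_lamK
      rw [LinearMap.zero_apply, map_zero]
    have hφy : ∀ j, φ (y j) = φ₀ (y j) := by
      intro j
      rw [hφ, hφ₀, S53_toDual_apply, S53_toDual_apply, hd0,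
        S53_delta_eq hres f hlam (y j) (c j) (hyc j)]
      unfold S53_lamK
      rw [hfs _ (Ideal.mem_sup_left (Ideal.subset_span ⟨j, rfl⟩)), map_zero]
    have heq := hsep φ φ₀ (S53_toDual_algebraMap hres f hlam)
      (S53_toDual_algebraMap hres 0 hlam0) hφy
    obtain ⟨x₀, rfl⟩ := Ideal.toCotangent_surjective _ x
    have h1 := congrArg (fun ψ : A →+* DualNumber (ResidueField 𝒪) => (ψ (x₀ : A)).snd) heq
    simp only [hφ, hφ₀, S53_toDual_apply, hd0, TrivSqZeroExt.snd_add, TrivSqZeroExt.snd_inl,
      TrivSqZeroExt.snd_inr, zero_add, add_zero] at h1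
    rw [S53_delta_of_mem hres f hlam x₀] at h1
    unfold S53_lamK at h1
    rw [map_eq_zero_iff _ (RingEquiv.injective _)] at h1
    exact hfx h1
  intro m hm
  have hmem : (⟨m, hm⟩ : maximalIdeal A) ∈ Submodule.span A s := by rw [hspan]; trivial
  have key : ∀ z ∈ Submodule.span A s, ((z : maximalIdeal A) : A) ∈ I := by
    intro z hz
    induction hz using Submodule.span_induction with
    | mem z hz => exact hz
    | zero => exact I.zero_mem
    | add z w _ _ hz hw => exact I.add_mem hz hw
    | smul a z _ hz => exact I.mul_mem_left a hz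
  exact key _ hmem

omit [IsLocalRing 𝒪] [IsLocalRing A] [IsLocalHom (algebraMap 𝒪 A)] in
/-- Ring homomorphisms that agree on `𝒪` and on a generating set agree. -/
lemma S53_ringHom_ext_of_adjoin {B : Type*} [CommRing B] (X : Set A)
    (hX : Algebra.adjoin 𝒪 X = ⊤) (φ φ' : A →+* B)
    (h𝒪 : ∀ o, φ (algebraMap 𝒪 A o) = φ' (algebraMap 𝒪 A o))
    (hgen : ∀ x ∈ X, φ x = φ' x) : φ = φ' := by
  ext a
  have ha : a ∈ Algebra.adjoin 𝒪 X := by rw [hX]; trivial
  induction ha using Algebra.adjoin_induction with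
  | mem x hx => exact hgen x hx
  | algebraMap o => exact h𝒪 o
  | add x y _ _ hx hy => rw [map_add, map_add, hx, hy]
  | mul x y _ _ hx hy => rw [map_mul, map_mul, hx, hy]

/-- **Part E, abstract form.** Let `L` be a finite set of matrix valued functions over `k[ε]`.
There are finitely many coordinates `(σ a, i a, j a)` such that for every noetherian local
`𝒪`-algebra `A` with residue field `k` and every `r : G → M₂(A)` lifting `c` whose entries
generate `A` and all of whose push-forwards to `k[ε]` lie in `L`, the elements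
`r (σ a) (i a) (j a) - c (σ a) (i a) (j a)` together with `𝔪_𝒪` generate `𝔪_A`. -/
theorem S53_exists_coordinates {G : Type*} (c : G → Matrix (Fin 2) (Fin 2) 𝒪)
    (L : Set (G → Matrix (Fin 2) (Fin 2) (DualNumber (ResidueField 𝒪)))) (hL : L.Finite) :
    ∃ (m : ℕ) (σ : Fin m → G) (i j : Fin m → Fin 2),
      ∀ (A : Type*) [CommRing A] [IsLocalRing A] [IsNoetherianRing A] [Algebra 𝒪 A]
        [IsLocalHom (algebraMap 𝒪 A)],
        Function.Surjective (residue A ∘ algebraMap 𝒪 A) →
        ∀ r : G → Matrix (Fin 2) (Fin 2) A,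
          (∀ g i j, r g i j - algebraMap 𝒪 A (c g i j) ∈ maximalIdeal A) →
          Algebra.adjoin 𝒪 (Set.range fun x : G × Fin 2 × Fin 2 => r x.1 x.2.1 x.2.2) = ⊤ →
          (∀ φ : A →+* DualNumber (ResidueField 𝒪),
            (∀ o, φ (algebraMap 𝒪 A o) = TrivSqZeroExt.inl (residue 𝒪 o)) →
              (fun g => (r g).map φ) ∈ L) →
          Ideal.span (Set.range fun a =>
              r (σ a) (i a) (j a) - algebraMap 𝒪 A (c (σ a) (i a) (j a))) ⊔
            (maximalIdeal 𝒪).map (algebraMap 𝒪 A) = maximalIdeal A := by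
  classical
  -- uncurried version of `L`
  let u : (G → Matrix (Fin 2) (Fin 2) (DualNumber (ResidueField 𝒪))) →
      (G × Fin 2 × Fin 2 → DualNumber (ResidueField 𝒪)) := fun f x => f x.1 x.2.1 x.2.2
  obtain ⟨m, p, hp⟩ := S53_exists_separating (u '' L) (hL.image u)
  refine ⟨m, fun a => (p a).1, fun a => (p a).2.1, fun a => (p a).2.2, ?_⟩
  intro A _ _ _ _ _ hres r hlift hgen hpush
  refine S53_span_sup_map_eq_maximalIdeal hres
    (fun a => r (p a).1 (p a).2.1 (p a).2.2) (fun a => c (p a).1 (p a).2.1 (p a).2.2)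
    (fun a => hlift _ _ _) ?_
  intro φ φ' hφ hφ' hy
  have h1 : u (fun g => (r g).map φ) = u (fun g => (r g).map φ') :=
    hp _ ⟨_, hpush φ hφ, rfl⟩ _ ⟨_, hpush φ' hφ', rfl⟩ (fun a => hy a)
  refine S53_ringHom_ext_of_adjoin _ hgen φ φ' (fun o => by rw [hφ, hφ']) ?_
  rintro _ ⟨x, rfl⟩
  exact congrFun h1 x

end main

end Fermat.Agent.S53
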