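import Fermat.Agent.S53.Basic
import Fermat.Agent.S53.AbsIrr

/-!
# S53 part A: dictionary between `GaloisRepAdic` and matrix valued homomorphisms
-/

set_option autoImplicit false

open scoped TensorProduct

namespace Fermat.Agent.S53

variable {A : Type} [CommRing A] [IsLocalRing A]

/-- Matrix of `ρ g` in the basis `b`. -/
noncomputable def S53_mat (ρ : GaloisRepAdic A) (b : Module.Basis (Fin 2) A ρ.V) (g : GQ) :
    Matrix (Fin 2) (Fin 2) A :=
  LinearMap.toMatrix b b (ρ.ρ g)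

lemma S53_mat_mul (ρ : GaloisRepAdic A) (b : Module.Basis (Fin 2) A ρ.V) (g h : GQ) :
    S53_mat ρ b (g * h) = S53_mat ρ b g * S53_mat ρ b h := by
  unfold S53_mat
  rw [map_mul, LinearMap.toMatrix_mul]

lemma S53_mat_one (ρ : GaloisRepAdic A) (b : Module.Basis (Fin 2) A ρ.V) :
    S53_mat ρ b 1 = 1 := by
  unfold S53_mat
  rw [map_one]
  exact LinearMap.toMatrix_one b

/-- The matrix valued homomorphism attached to `ρ` and a basis. -/
noncomputable def S53_matHom (ρ : GaloisRepAdic A) (b : Module.Basis (Fin 2) A ρ.V) :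
    GQ →* Matrix (Fin 2) (Fin 2) A where
  toFun := S53_mat ρ b
  map_one' := S53_mat_one ρ b
  map_mul' := S53_mat_mul ρ b

@[simp] lemma S53_matHom_apply (ρ : GaloisRepAdic A) (b : Module.Basis (Fin 2) A ρ.V) (g : GQ) :
    S53_matHom ρ b g = S53_mat ρ b g := rfl

lemma S53_rmat_mul {k : Type} [Field k] (ρ : ResidualGaloisRep k)
    (b : Module.Basis (Fin 2) k ρ.V) (g h : GQ) :
    S53_rmat ρ b (g * h) = S53_rmat ρ b g * S53_rmat ρ b h := by
  unfold S53_rmat
  rw [map_mul, LinearMap.toMatrix_mul]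

lemma S53_rmat_one {k : Type} [Field k] (ρ : ResidualGaloisRep k)
    (b : Module.Basis (Fin 2) k ρ.V) :
    S53_rmat ρ b 1 = 1 := by
  unfold S53_rmat
  rw [map_one]
  exact LinearMap.toMatrix_one b

/-- The matrix valued homomorphism attached to a residual representation and a basis. -/
noncomputable def S53_rmatHom {k : Type} [Field k] (ρ : ResidualGaloisRep k)
    (b : Module.Basis (Fin 2) k ρ.V) : GQ →* Matrix (Fin 2) (Fin 2) k where
  toFun := S53_rmat ρ b
  map_one' := S53_rmat_one ρ b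
  map_mul' := S53_rmat_mul ρ b

@[simp] lemma S53_rmatHom_apply {k : Type} [Field k] (ρ : ResidualGaloisRep k)
    (b : Module.Basis (Fin 2) k ρ.V) (g : GQ) :
    S53_rmatHom ρ b g = S53_rmat ρ b g := rfl

omit [IsLocalRing A] in
lemma S53_repr_mem_of_mem_smul_top {M : Type} [AddCommGroup M] [Module A M]
    (b : Module.Basis (Fin 2) A M) (I : Ideal A) (x : M)
    (hx : x ∈ I • (⊤ : Submodule A M)) (i : Fin 2) : b.repr x i ∈ I := by
  refine Submodule.smul_induction_on hx ?_ ?_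
  · intro a ha m _
    rw [map_smul, Finsupp.smul_apply, smul_eq_mul]
    exact Ideal.mul_mem_right _ _ ha
  · intro x y hx hy
    rw [map_add, Finsupp.add_apply]
    exact Ideal.add_mem _ hx hy

omit [IsLocalRing A] in
lemma S53_mem_smul_top_of_repr_mem {M : Type} [AddCommGroup M] [Module A M]
    (b : Module.Basis (Fin 2) A M) (I : Ideal A) (x : M)
    (hx : ∀ i, b.repr x i ∈ I) : x ∈ I • (⊤ : Submodule A M) := by
  rw [← b.sum_repr x]
  refine Submodule.sum_mem _ fun i _ => ?_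
  exact Submodule.smul_mem_smul (hx i) Submodule.mem_top

lemma S53_matHom_cont (ρ : GaloisRepAdic A) (b : Module.Basis (Fin 2) A ρ.V) :
    MatCont (S53_matHom ρ b) := by
  intro n
  obtain ⟨L, hL, h⟩ := ρ.isAdicContinuous n
  refine ⟨L, hL, fun σ hσ i j => ?_⟩
  have := S53_repr_mem_of_mem_smul_top b _ _ (h σ hσ (b j)) i
  rw [S53_matHom_apply]
  unfold S53_mat
  rw [Matrix.sub_apply, LinearMap.toMatrix_apply]
  rw [map_sub, Finsupp.sub_apply] at this
  convert this using 2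
  rw [Matrix.one_apply, b.repr_self, Finsupp.single_apply]
  simp [eq_comm]

/-- Equal matrices give equivalent representations. -/
lemma S53_isEquiv_of_mat_eq (ρ₁ ρ₂ : GaloisRepAdic A) (b₁ : Module.Basis (Fin 2) A ρ₁.V)
    (b₂ : Module.Basis (Fin 2) A ρ₂.V) (h : ∀ g, S53_mat ρ₁ b₁ g = S53_mat ρ₂ b₂ g) :
    ρ₁.IsEquiv ρ₂ := by
  refine ⟨⟨b₁.equiv b₂ (Equiv.refl _), fun σ x => ?_⟩⟩
  have hσ := h σ
  unfold S53_mat at hσ
  apply b₂.repr.injective
  have key : ∀ (y : ρ₁.V), b₂.repr (b₁.equiv b₂ (Equiv.refl _) y) = b₁.repr y := by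
    intro y
    ext j
    simp [Module.Basis.equiv]
  rw [key]
  ext i
  have e1 := LinearMap.toMatrix_mulVec_repr b₁ b₁ (ρ₁.ρ σ) x
  have e2 := LinearMap.toMatrix_mulVec_repr b₂ b₂ (ρ₂.ρ σ) (b₁.equiv b₂ (Equiv.refl _) x)
  have e1i := congrFun e1 i
  have e2i := congrFun e2 i
  rw [← e1i, ← e2i, hσ]
  congr 1
  funext j
  exact (DFunLike.congr_fun (key x) j).symm

lemma S53_risEquiv_of_rmat_eq {k : Type} [Field k] (ρ₁ ρ₂ : ResidualGaloisRep k)
    (b₁ : Module.Basis (Fin 2) k ρ₁.V)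
    (b₂ : Module.Basis (Fin 2) k ρ₂.V) (h : ∀ g, S53_rmat ρ₁ b₁ g = S53_rmat ρ₂ b₂ g) :
    ρ₁.IsEquiv ρ₂ := by
  refine ⟨⟨b₁.equiv b₂ (Equiv.refl _), fun σ x => ?_⟩⟩
  have hσ := h σ
  unfold S53_rmat at hσ
  apply b₂.repr.injective
  have key : ∀ (y : ρ₁.V), b₂.repr (b₁.equiv b₂ (Equiv.refl _) y) = b₁.repr y := by
    intro y
    ext j
    simp [Module.Basis.equiv]
  rw [key]
  ext i
  have e1 := LinearMap.toMatrix_mulVec_repr b₁ b₁ (ρ₁.ρ σ) x
  have e2 := LinearMap.toMatrix_mulVec_repr b₂ b₂ (ρ₂.ρ σ) (b₁.equiv b₂ (Equiv.refl _) x)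
  have e1i := congrFun e1 i
  have e2i := congrFun e2 i
  rw [← e1i, ← e2i, hσ]
  congr 1
  funext j
  exact (DFunLike.congr_fun (key x) j).symm

/-- Transport of a basis along an equivalence does not change matrices. -/
lemma S53_mat_map_equiv (ρ₁ ρ₂ : GaloisRepAdic A) (e : GaloisRepAdic.Equiv ρ₁ ρ₂)
    (b₁ : Module.Basis (Fin 2) A ρ₁.V) (g : GQ) :
    S53_mat ρ₂ (b₁.map e.toLinearEquiv) g = S53_mat ρ₁ b₁ g := by
  unfold S53_mat
  ext i j
  rw [LinearMap.toMatrix_apply, LinearMap.toMatrix_apply, Module.Basis.map_apply,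
    ← e.map_apply, Module.Basis.map_repr, LinearEquiv.trans_apply,
    LinearEquiv.symm_apply_apply]

lemma S53_rmat_map_equiv {k : Type} [Field k] (ρ₁ ρ₂ : ResidualGaloisRep k)
    (e : ResidualGaloisRep.Equiv ρ₁ ρ₂)
    (b₁ : Module.Basis (Fin 2) k ρ₁.V) (g : GQ) :
    S53_rmat ρ₂ (b₁.map e.toLinearEquiv) g = S53_rmat ρ₁ b₁ g := by
  unfold S53_rmat
  ext i j
  rw [LinearMap.toMatrix_apply, LinearMap.toMatrix_apply, Module.Basis.map_apply,
    ← e.map_apply, Module.Basis.map_repr, LinearEquiv.trans_apply,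
    LinearEquiv.symm_apply_apply]

/-- Change of basis: intertwining matrix. -/
lemma S53_mat_change_basis (ρ : GaloisRepAdic A) (b b' : Module.Basis (Fin 2) A ρ.V) (g : GQ) :
    b.toMatrix b' * S53_mat ρ b' g = S53_mat ρ b g * b.toMatrix b' := by
  unfold S53_mat
  rw [basis_toMatrix_mul_linearMap_toMatrix, linearMap_toMatrix_mul_basis_toMatrix]

lemma S53_exists_intertwiner (ρ₁ ρ₂ : GaloisRepAdic A) (h : ρ₁.IsEquiv ρ₂)
    (b₁ : Module.Basis (Fin 2) A ρ₁.V) (b₂ : Module.Basis (Fin 2) A ρ₂.V) :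
    ∃ P : Matrix (Fin 2) (Fin 2) A, IsUnit P.det ∧
      ∀ g, P * S53_mat ρ₁ b₁ g = S53_mat ρ₂ b₂ g * P := by
  obtain ⟨e⟩ := h
  refine ⟨b₂.toMatrix (b₁.map e.toLinearEquiv), ?_, fun g => ?_⟩
  · rw [← Module.Basis.det_apply]
    exact Module.Basis.isUnit_det _ _
  · rw [← S53_mat_map_equiv ρ₁ ρ₂ e b₁ g]
    exact S53_mat_change_basis ρ₂ b₂ _ g

/-- The standard basis of `(ofMatrix r hr).V = Fin 2 → A`. -/
noncomputable def S53_stdBasis (r : GQ →* Matrix (Fin 2) (Fin 2) A) (hr : MatCont r) :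
    Module.Basis (Fin 2) A (ofMatrix r hr).V :=
  Pi.basisFun A (Fin 2)

lemma S53_mat_ofMatrix (r : GQ →* Matrix (Fin 2) (Fin 2) A) (hr : MatCont r) (g : GQ) :
    S53_mat (ofMatrix r hr) (S53_stdBasis r hr) g = r g := by
  have key : LinearMap.toMatrix (Pi.basisFun A (Fin 2)) (Pi.basisFun A (Fin 2))
      (Matrix.mulVecLin (r g)) = r g := by
    rw [LinearMap.toMatrix_eq_toMatrix', ← Matrix.toLin'_apply', LinearMap.toMatrix'_toLin']
  exact key

/-- (A3, first half) every representation is equivalent to `ofMatrix` of its matrix in a basis. -/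
lemma S53_isEquiv_ofMatrix (ρ : GaloisRepAdic A) (b : Module.Basis (Fin 2) A ρ.V) :
    ρ.IsEquiv (ofMatrix (S53_matHom ρ b) (S53_matHom_cont ρ b)) :=
  S53_isEquiv_of_mat_eq _ _ b (S53_stdBasis _ _) fun g => by
    rw [S53_mat_ofMatrix, S53_matHom_apply]

/-- (A2) equivalences between `ofMatrix` representations are conjugations. -/
lemma S53_ofMatrix_isEquiv_iff (r r' : GQ →* Matrix (Fin 2) (Fin 2) A) (hr : MatCont r)
    (hr' : MatCont r') :
    (ofMatrix r hr).IsEquiv (ofMatrix r' hr') ↔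
      ∃ P : Matrix (Fin 2) (Fin 2) A, IsUnit P.det ∧ ∀ σ, P * r σ = r' σ * P := by
  constructor
  · intro h
    obtain ⟨P, hP, hint⟩ := S53_exists_intertwiner _ _ h (S53_stdBasis r hr) (S53_stdBasis r' hr')
    refine ⟨P, hP, fun σ => ?_⟩
    have := hint σ
    rwa [S53_mat_ofMatrix, S53_mat_ofMatrix] at this
  · rintro ⟨P, hP, hint⟩
    refine ⟨⟨Matrix.toLinearEquiv' P ((Matrix.isUnit_iff_isUnit_det P).mpr hP).invertible,
      fun σ x => ?_⟩⟩
    have key : ∀ y : Fin 2 → A, P.mulVec ((r σ).mulVec y) = (r' σ).mulVec (P.mulVec y) := by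
      intro y
      rw [Matrix.mulVec_mulVec, Matrix.mulVec_mulVec, hint σ]
    exact key x

/-- Continuity is preserved by local ring homomorphisms. -/
lemma S53_matCont_map {B : Type} [CommRing B] [IsLocalRing B] (φ : A →+* B) (hφ : IsLocalHom φ)
    (r : GQ →* Matrix (Fin 2) (Fin 2) A) (hr : MatCont r) :
    MatCont ((φ.mapMatrix.toMonoidHom).comp r) := by
  intro n
  obtain ⟨L, hL, h⟩ := hr n
  refine ⟨L, hL, fun σ hσ i j => ?_⟩
  have hmap : (IsLocalRing.maximalIdeal A ^ n).map φ ≤ IsLocalRing.maximalIdeal B ^ n := by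
    rw [Ideal.map_pow]
    exact Ideal.pow_right_mono (Ideal.map_le_iff_le_comap.mpr fun a ha =>
      Ideal.mem_comap.mpr (haveI := hφ; map_nonunit φ a ha)) n
  have h1 := h σ hσ i j
  have h2 : ((φ.mapMatrix.toMonoidHom).comp r σ - 1) i j = φ ((r σ - 1) i j) := by
    simp only [MonoidHom.coe_comp, RingHom.toMonoidHom_eq_coe, MonoidHom.coe_coe,
      Function.comp_apply, RingHom.mapMatrix_apply, Matrix.sub_apply, Matrix.map_apply, map_sub]
    congr 1
    by_cases hij : i = j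
    · subst hij; simp
    · simp [Matrix.one_apply_ne hij]
  rw [h2]
  exact hmap (Ideal.mem_map_of_mem φ h1)

/-- Base change of a basis along a ring hom. -/
noncomputable def S53_bcBasis {B : Type} [CommRing B] [IsLocalRing B] (φ : A →+* B)
    (hφ : IsLocalHom φ) (ρ : GaloisRepAdic A) (b : Module.Basis (Fin 2) A ρ.V) :
    Module.Basis (Fin 2) B (ρ.baseChangeAlong φ hφ).V :=
  letI : Algebra A B := φ.toAlgebra
  Algebra.TensorProduct.basis B b

lemma S53_mat_baseChangeAlong {B : Type} [CommRing B] [IsLocalRing B] (φ : A →+* B)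
    (hφ : IsLocalHom φ) (ρ : GaloisRepAdic A) (b : Module.Basis (Fin 2) A ρ.V) (g : GQ) :
    S53_mat (ρ.baseChangeAlong φ hφ) (S53_bcBasis φ hφ ρ b) g = (S53_mat ρ b g).map φ := by
  let _ : Algebra A B := φ.toAlgebra
  unfold S53_mat S53_bcBasis
  exact LinearMap.toMatrix_baseChange B (ρ.ρ g) b b

/-- (A1) base change of `ofMatrix r` is `ofMatrix (φ ∘ r)`. -/
lemma S53_baseChangeAlong_ofMatrix {B : Type} [CommRing B] [IsLocalRing B] (φ : A →+* B)
    (hφ : IsLocalHom φ) (r : GQ →* Matrix (Fin 2) (Fin 2) A) (hr : MatCont r) :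
    ((ofMatrix r hr).baseChangeAlong φ hφ).IsEquiv
      (ofMatrix ((φ.mapMatrix.toMonoidHom).comp r) (S53_matCont_map φ hφ r hr)) :=
  S53_isEquiv_of_mat_eq _ _ (S53_bcBasis φ hφ _ (S53_stdBasis r hr)) (S53_stdBasis _ _) fun g => by
    rw [S53_mat_baseChangeAlong, S53_mat_ofMatrix, S53_mat_ofMatrix]
    rfl

/-- Base change in general, in terms of matrices. -/
lemma S53_baseChangeAlong_isEquiv {B : Type} [CommRing B] [IsLocalRing B] (φ : A →+* B)
    (hφ : IsLocalHom φ) (ρ : GaloisRepAdic A) (b : Module.Basis (Fin 2) A ρ.V) :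
    (ρ.baseChangeAlong φ hφ).IsEquiv
      (ofMatrix ((φ.mapMatrix.toMonoidHom).comp (S53_matHom ρ b))
        (S53_matCont_map φ hφ _ (S53_matHom_cont ρ b))) :=
  S53_isEquiv_of_mat_eq _ _ (S53_bcBasis φ hφ _ b) (S53_stdBasis _ _) fun g => by
    rw [S53_mat_baseChangeAlong, S53_mat_ofMatrix]
    rfl

lemma S53_rmat_residual (ρ : GaloisRepAdic A) (b : Module.Basis (Fin 2) A ρ.V) (g : GQ) :
    S53_rmat ρ.residual (Algebra.TensorProduct.basis (IsLocalRing.ResidueField A) b) g =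
      (S53_mat ρ b g).map (IsLocalRing.residue A) := by
  unfold S53_rmat S53_mat
  exact LinearMap.toMatrix_baseChange (IsLocalRing.ResidueField A) (ρ.ρ g) b b

/-- The base-changed basis of `ρ.baseChangeAlong κ`. -/
noncomputable def S53_rbcBasis {k k' : Type} [Field k] [Field k'] (κ : k →+* k')
    (ρ : ResidualGaloisRep k) (b : Module.Basis (Fin 2) k ρ.V) :
    Module.Basis (Fin 2) k' (ρ.baseChangeAlong κ).V :=
  letI : Algebra k k' := κ.toAlgebra
  Algebra.TensorProduct.basis k' b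

lemma S53_rmat_baseChangeAlong {k k' : Type} [Field k] [Field k'] (κ : k →+* k')
    (ρ : ResidualGaloisRep k) (b : Module.Basis (Fin 2) k ρ.V) (g : GQ) :
    S53_rmat (ρ.baseChangeAlong κ) (S53_rbcBasis κ ρ b) g = (S53_rmat ρ b g).map κ := by
  let _ : Algebra k k' := κ.toAlgebra
  unfold S53_rmat S53_rbcBasis
  exact LinearMap.toMatrix_baseChange k' (ρ.ρ g) b b

end Fermat.Agent.S53
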