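import Fermat.Agent.S53.TestAlgBasic
import Fermat.Agent.S53.Dict

/-!
# S53 part D (helper8): transport of `InF` (the rigidified deformation functor)

* `InF.map` (T1): `InF` is functorial for local `𝒪`-algebra homs of Artinian test algebras;
* `InF.of_map_injective` (T2): `InF` is reflected by injective homs;
* `InF.of_fibre` (T3, abstract form) and `InF.of_quotient_inf` (T3 for `P ⧸ K`, `P ⧸ K'`);
* `S53_type_iff_forall_quotPow` (T4): over a complete noetherian coefficient algebra, `𝒟` can be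
  tested on the quotients `A ⧸ 𝔪 ^ (n+1)`.
-/

set_option autoImplicit false
set_option linter.style.haveILetI false
set_option linter.unusedSectionVars false

namespace Fermat.Agent.S53

open IsLocalRing GaloisRep

variable {𝒪 : Type} [CommRing 𝒪] [IsLocalRing 𝒪]
  {𝒟 : ∀ ⦃A : Type⦄ [CommRing A] [IsLocalRing A] [Algebra 𝒪 A], GaloisRepAdic A → Prop}
  {c : GQ → Matrix (Fin 2) (Fin 2) 𝒪} {E : Set (NormEq 𝒪)}

section maps

variable {A B : Type} [CommRing A] [IsLocalRing A] [Algebra 𝒪 A]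
  [CommRing B] [IsLocalRing B] [Algebra 𝒪 B]

/-- Push-forward of a matrix valued homomorphism along a ring hom. -/
noncomputable abbrev S53_push (φ : A →+* B) (r : GQ →* Matrix (Fin 2) (Fin 2) A) :
    GQ →* Matrix (Fin 2) (Fin 2) B :=
  (φ.mapMatrix.toMonoidHom).comp r

@[simp] lemma S53_push_apply (φ : A →+* B) (r : GQ →* Matrix (Fin 2) (Fin 2) A) (σ : GQ)
    (i j : Fin 2) : S53_push φ r σ i j = φ (r σ i j) := rfl

lemma S53_push_apply' (φ : A →+* B) (r : GQ →* Matrix (Fin 2) (Fin 2) A) (σ : GQ) :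
    S53_push φ r σ = (r σ).map φ := rfl

lemma S53_map_mem_maximalIdeal (φ : A →+* B) (hφ : IsLocalHom φ) {a : A}
    (ha : a ∈ maximalIdeal A) : φ a ∈ maximalIdeal B :=
  (mem_maximalIdeal _).mpr fun hu => ((mem_maximalIdeal a).mp ha) (hφ.map_nonunit a hu)

lemma S53_mem_maximalIdeal_of_map (φ : A →+* B) {a : A}
    (ha : φ a ∈ maximalIdeal B) : a ∈ maximalIdeal A :=
  (mem_maximalIdeal _).mpr fun hu => ((mem_maximalIdeal _).mp ha) (hu.map φ)

lemma S53_isLift_push (φ : A →ₐ[𝒪] B) (hφ : IsLocalHom (φ : A →+* B))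
    {r : GQ →* Matrix (Fin 2) (Fin 2) A} (h : IsLift c r) :
    IsLift c (S53_push (φ : A →+* B) r) := by
  intro σ i j
  have := S53_map_mem_maximalIdeal (φ : A →+* B) hφ (h σ i j)
  rw [map_sub] at this
  simpa using this

lemma S53_isLift_of_push (φ : A →ₐ[𝒪] B)
    {r : GQ →* Matrix (Fin 2) (Fin 2) A} (h : IsLift c (S53_push (φ : A →+* B) r)) :
    IsLift c r := by
  intro σ i j
  apply S53_mem_maximalIdeal_of_map (φ : A →+* B)
  have := h σ i j
  rw [map_sub]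
  simpa using this

lemma S53_holds_push_iff (e : NormEq 𝒪) (φ : A →ₐ[𝒪] B)
    (r : GQ →* Matrix (Fin 2) (Fin 2) A) :
    e.Holds (S53_push (φ : A →+* B) r) ↔
      φ (e.coeff.sum fun x a => algebraMap 𝒪 A a * r x.1 x.2.1 x.2.2) =
        φ (algebraMap 𝒪 A e.const) := by
  unfold NormEq.Holds
  rw [AlgHom.commutes, Finsupp.sum, Finsupp.sum, map_sum]
  simp only [map_mul, AlgHom.commutes, S53_push_apply, RingHom.coe_coe]

lemma S53_isNormalised_push (φ : A →ₐ[𝒪] B)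
    {r : GQ →* Matrix (Fin 2) (Fin 2) A} (h : IsNormalised E r) :
    IsNormalised E (S53_push (φ : A →+* B) r) := fun e he => by
  rw [S53_holds_push_iff]
  exact congrArg φ (h e he)

lemma S53_isNormalised_of_push (φ : A →ₐ[𝒪] B) (hinj : Function.Injective φ)
    {r : GQ →* Matrix (Fin 2) (Fin 2) A} (h : IsNormalised E (S53_push (φ : A →+* B) r)) :
    IsNormalised E r := fun e he => hinj ((S53_holds_push_iff e φ r).mp (h e he))

/-- Continuity is reflected by injective homs into Artinian local rings. -/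
lemma S53_matCont_of_push [IsArtinianRing B] (φ : A →+* B) (hinj : Function.Injective φ)
    {r : GQ →* Matrix (Fin 2) (Fin 2) A} (h : MatCont (S53_push φ r)) : MatCont r := by
  obtain ⟨N, hN⟩ := (isArtinianRing_iff_isNilpotent_maximalIdeal B).mp ‹_›
  obtain ⟨L, hL, hσ⟩ := h N
  intro n
  refine ⟨L, hL, fun σ hfix i j => ?_⟩
  have h1 := hσ σ hfix i j
  rw [hN] at h1
  have h2 : (S53_push φ r σ - 1) i j = φ ((r σ - 1) i j) := by
    simp only [Matrix.sub_apply, S53_push_apply, map_sub]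
    congr 1
    by_cases hij : i = j
    · subst hij; simp
    · simp [Matrix.one_apply_ne hij]
  rw [h2] at h1
  have h3 : φ ((r σ - 1) i j) = 0 := by simpa using h1
  have h4 : (r σ - 1) i j = 0 := hinj (by rw [h3, map_zero])
  rw [h4]
  exact Ideal.zero_mem _

/-- (T1) `InF` is functorial along local `𝒪`-algebra homs between Artinian test algebras. -/
theorem InF.map (h𝒟 : IsDeformationCondition 𝒪 𝒟)
    (hA : IsArtinianTestAlgebra 𝒪 A) (hB : IsArtinianTestAlgebra 𝒪 B)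
    (φ : A →ₐ[𝒪] B) (hφ : IsLocalHom (φ : A →+* B))
    {r : GQ →* Matrix (Fin 2) (Fin 2) A} (hr : InF 𝒟 c E r) :
    InF 𝒟 c E (S53_push (φ : A →+* B) r) where
  cont := S53_matCont_map (φ : A →+* B) hφ r hr.cont
  lift := S53_isLift_push φ hφ hr.lift
  norm := S53_isNormalised_push φ hr.norm
  type := h𝒟.of_isEquiv hB (S53_baseChangeAlong_ofMatrix (φ : A →+* B) hφ r hr.cont)
    (h𝒟.baseChangeAlong hA hB φ hφ hr.type)

/-- (T1') same as `InF.map`, the locality of `φ` being automatic. -/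
theorem InF.map' (h𝒟 : IsDeformationCondition 𝒪 𝒟)
    (hA : IsArtinianTestAlgebra 𝒪 A) (hB : IsArtinianTestAlgebra 𝒪 B)
    (φ : A →ₐ[𝒪] B) {r : GQ →* Matrix (Fin 2) (Fin 2) A} (hr : InF 𝒟 c E r) :
    InF 𝒟 c E (S53_push (φ : A →+* B) r) :=
  haveI := hA.isArtinian
  InF.map h𝒟 hA hB φ (S53_isLocalHom_of_isArtinianRing _) hr

/-- (T2) `InF` is reflected by injective `𝒪`-algebra homs between Artinian test algebras. -/
theorem InF.of_map_injective (h𝒟 : IsDeformationCondition 𝒪 𝒟)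
    (hA : IsArtinianTestAlgebra 𝒪 A) (hB : IsArtinianTestAlgebra 𝒪 B)
    (φ : A →ₐ[𝒪] B) (hinj : Function.Injective φ)
    {r : GQ →* Matrix (Fin 2) (Fin 2) A} (hr : InF 𝒟 c E (S53_push (φ : A →+* B) r)) :
    InF 𝒟 c E r := by
  haveI := hA.isArtinian
  haveI := hB.isArtinian
  have hφ : IsLocalHom (φ : A →+* B) := S53_isLocalHom_of_isArtinianRing _
  have hcont : MatCont r := S53_matCont_of_push (φ : A →+* B) hinj hr.cont
  refine ⟨hcont, S53_isLift_of_push φ hr.lift, S53_isNormalised_of_push φ hinj hr.norm, ?_⟩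
  refine h𝒟.of_baseChangeAlong_injective hA hB φ hφ hinj ?_
  obtain ⟨e⟩ := S53_baseChangeAlong_ofMatrix (φ : A →+* B) hφ r hcont
  exact h𝒟.of_isEquiv hB ⟨e.symm⟩ hr.type

end maps

section fibre

variable {A B C P : Type} [CommRing A] [IsLocalRing A] [Algebra 𝒪 A]
  [CommRing B] [IsLocalRing B] [Algebra 𝒪 B] [CommRing C] [IsLocalRing C] [Algebra 𝒪 C]
  [CommRing P] [IsLocalRing P] [Algebra 𝒪 P]

/-- (T3, abstract form) `InF` over a fibre product `P = A ×_C B` of Artinian test algebras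
can be tested on the two projections. -/
theorem InF.of_fibre (h𝒟 : IsDeformationCondition 𝒪 𝒟)
    (hA : IsArtinianTestAlgebra 𝒪 A) (hB : IsArtinianTestAlgebra 𝒪 B)
    (hC : IsArtinianTestAlgebra 𝒪 C) (hP : IsArtinianTestAlgebra 𝒪 P)
    (f : A →ₐ[𝒪] C) (g : B →ₐ[𝒪] C) (pA : P →ₐ[𝒪] A) (pB : P →ₐ[𝒪] B)
    (hcomm : f.comp pA = g.comp pB)
    (hinj : Function.Injective (fun x => (pA x, pB x)))
    (hsurj : ∀ a b, f a = g b → ∃ x, pA x = a ∧ pB x = b)
    {r : GQ →* Matrix (Fin 2) (Fin 2) P}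
    (hrA : InF 𝒟 c E (S53_push (pA : P →+* A) r))
    (hrB : InF 𝒟 c E (S53_push (pB : P →+* B) r)) :
    InF 𝒟 c E r := by
  haveI := hA.isArtinian
  haveI := hB.isArtinian
  haveI := hP.isArtinian
  have hpA : IsLocalHom (pA : P →+* A) := S53_isLocalHom_of_isArtinianRing _
  have hpB : IsLocalHom (pB : P →+* B) := S53_isLocalHom_of_isArtinianRing _
  have hinj' : ∀ x : P, pA x = 0 → pB x = 0 → x = 0 := fun x h1 h2 =>
    hinj (by simp only [h1, h2, map_zero])
  have hcont : MatCont r := by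
    obtain ⟨NA, hNA⟩ := (isArtinianRing_iff_isNilpotent_maximalIdeal A).mp ‹_›
    obtain ⟨NB, hNB⟩ := (isArtinianRing_iff_isNilpotent_maximalIdeal B).mp ‹_›
    obtain ⟨LA, hLA, hσA⟩ := hrA.cont NA
    obtain ⟨LB, hLB, hσB⟩ := hrB.cont NB
    intro n
    haveI := hLA
    haveI := hLB
    refine ⟨LA ⊔ LB, inferInstance, fun σ hfix i j => ?_⟩
    have hentry : ∀ (Q : Type) [CommRing Q] (ψ : P →+* Q),
        (S53_push ψ r σ - 1) i j = ψ ((r σ - 1) i j) := by
      intro Q _ ψ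
      simp only [Matrix.sub_apply, map_sub]
      congr 1
      by_cases hij : i = j
      · subst hij; simp
      · simp [Matrix.one_apply_ne hij]
    have h1 := hσA σ (fun x hx => hfix x ((le_sup_left : LA ≤ LA ⊔ LB) hx)) i j
    have h2 := hσB σ (fun x hx => hfix x ((le_sup_right : LB ≤ LA ⊔ LB) hx)) i j
    rw [hNA, hentry] at h1
    rw [hNB, hentry] at h2
    have h3 : (r σ - 1) i j = 0 := hinj' _ (by simpa using h1) (by simpa using h2)
    rw [h3]
    exact Ideal.zero_mem _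
  refine ⟨hcont, S53_isLift_of_push pA hrA.lift, fun e he => ?_, ?_⟩
  · have h1 := (S53_holds_push_iff e pA r).mp (hrA.norm e he)
    have h2 := (S53_holds_push_iff e pB r).mp (hrB.norm e he)
    exact hinj (by simp only [h1, h2])
  · refine h𝒟.of_fibreProduct hA hB hC hP f g pA pB hpA hpB hcomm hinj hsurj ?_ ?_
    · obtain ⟨e⟩ := S53_baseChangeAlong_ofMatrix (pA : P →+* A) hpA r hcont
      exact h𝒟.of_isEquiv hA ⟨e.symm⟩ hrA.type
    · obtain ⟨e⟩ := S53_baseChangeAlong_ofMatrix (pB : P →+* B) hpB r hcont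
      exact h𝒟.of_isEquiv hB ⟨e.symm⟩ hrB.type

end fibre

section quotient

variable {P₀ : Type} [CommRing P₀] [Algebra 𝒪 P₀]

/-- (T3) If `P₀ ⧸ K`, `P₀ ⧸ K'` and `P₀ ⧸ (K ⊓ K')` are Artinian test algebras, then `InF` over
`P₀ ⧸ (K ⊓ K')` can be tested on `P₀ ⧸ K` and `P₀ ⧸ K'`. -/
theorem InF.of_quotient_inf (h𝒟 : IsDeformationCondition 𝒪 𝒟) (K K' : Ideal P₀)
    [IsLocalRing (P₀ ⧸ K)] [IsLocalRing (P₀ ⧸ K')] [IsLocalRing (P₀ ⧸ (K ⊓ K'))]
    (hK : IsArtinianTestAlgebra 𝒪 (P₀ ⧸ K)) (hK' : IsArtinianTestAlgebra 𝒪 (P₀ ⧸ K'))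
    (hKK' : IsArtinianTestAlgebra 𝒪 (P₀ ⧸ (K ⊓ K')))
    {r : GQ →* Matrix (Fin 2) (Fin 2) (P₀ ⧸ (K ⊓ K'))}
    (hrK : InF 𝒟 c E (S53_push
      ((Ideal.Quotient.factorₐ 𝒪 (inf_le_left : K ⊓ K' ≤ K) : _ →ₐ[𝒪] _) : _ →+* P₀ ⧸ K) r))
    (hrK' : InF 𝒟 c E (S53_push
      ((Ideal.Quotient.factorₐ 𝒪 (inf_le_right : K ⊓ K' ≤ K') : _ →ₐ[𝒪] _) : _ →+* P₀ ⧸ K') r)) :
    InF 𝒟 c E r := by
  haveI := hKK'.isArtinian
  -- the maximal ideal of `P₀` lying under that of `P₀ ⧸ (K ⊓ K')`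
  set M : Ideal P₀ := (maximalIdeal (P₀ ⧸ (K ⊓ K'))).comap (Ideal.Quotient.mk (K ⊓ K')) with hM
  have hMtop : M ≠ ⊤ := by
    intro h
    have h1 : (1 : P₀) ∈ M := by rw [h]; trivial
    rw [hM, Ideal.mem_comap, map_one] at h1
    exact (mem_maximalIdeal _).mp h1 isUnit_one
  have hle : ∀ (J : Ideal P₀) (hJ : K ⊓ K' ≤ J) [Nontrivial (P₀ ⧸ J)], J ≤ M := by
    intro J hJ _ x hx
    rw [hM, Ideal.mem_comap, mem_maximalIdeal, mem_nonunits_iff]
    intro hu
    have h2 := hu.map (Ideal.Quotient.factor hJ)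
    rw [Ideal.Quotient.factor_mk, Ideal.Quotient.eq_zero_iff_mem.mpr hx] at h2
    exact not_isUnit_zero h2
  have hKM : K ≤ M := hle K inf_le_left
  have hK'M : K' ≤ M := hle K' inf_le_right
  have hsup : K ⊔ K' ≠ ⊤ := fun h => hMtop (top_le_iff.mp (h ▸ sup_le hKM hK'M))
  haveI : Nontrivial (P₀ ⧸ (K ⊔ K')) := Ideal.Quotient.nontrivial_iff.mpr hsup
  haveI : IsLocalRing (P₀ ⧸ (K ⊔ K')) :=
    IsLocalRing.of_surjective' (Ideal.Quotient.factor (le_sup_left : K ≤ K ⊔ K'))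
      (Ideal.Quotient.factor_surjective (le_sup_left : K ≤ K ⊔ K'))
  have hC : IsArtinianTestAlgebra 𝒪 (P₀ ⧸ (K ⊔ K')) :=
    S53_isArtinianTestAlgebra_of_surjective hK
      (Ideal.Quotient.factorₐ 𝒪 (le_sup_left : K ≤ K ⊔ K'))
      (Ideal.Quotient.factor_surjective (le_sup_left : K ≤ K ⊔ K'))
  refine InF.of_fibre h𝒟 hK hK' hC hKK'
    (Ideal.Quotient.factorₐ 𝒪 (le_sup_left : K ≤ K ⊔ K'))
    (Ideal.Quotient.factorₐ 𝒪 (le_sup_right : K' ≤ K ⊔ K'))
    (Ideal.Quotient.factorₐ 𝒪 (inf_le_left : K ⊓ K' ≤ K))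
    (Ideal.Quotient.factorₐ 𝒪 (inf_le_right : K ⊓ K' ≤ K')) ?_ ?_ ?_ hrK hrK'
  · ext x
    obtain ⟨y, rfl⟩ := Ideal.Quotient.mk_surjective x
    simp
  · intro x y hxy
    obtain ⟨a, rfl⟩ := Ideal.Quotient.mk_surjective x
    obtain ⟨b, rfl⟩ := Ideal.Quotient.mk_surjective y
    simp only [Prod.mk.injEq] at hxy
    obtain ⟨h1, h2⟩ := hxy
    rw [Ideal.Quotient.eq]
    refine ⟨?_, ?_⟩
    · have := h1
      simp only [Ideal.Quotient.factorₐ_apply_mk] at this
      exact Ideal.Quotient.eq.mp this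
    · have := h2
      simp only [Ideal.Quotient.factorₐ_apply_mk] at this
      exact Ideal.Quotient.eq.mp this
  · intro a b hab
    obtain ⟨x, rfl⟩ := Ideal.Quotient.mk_surjective a
    obtain ⟨y, rfl⟩ := Ideal.Quotient.mk_surjective b
    simp only [Ideal.Quotient.factorₐ_apply_mk] at hab
    have hxy : x - y ∈ K ⊔ K' := Ideal.Quotient.eq.mp hab
    obtain ⟨u, hu, v, hv, huv⟩ := Submodule.mem_sup.mp hxy
    refine ⟨Ideal.Quotient.mk _ (x - u), ?_, ?_⟩
    · simp only [Ideal.Quotient.factorₐ_apply_mk]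
      rw [Ideal.Quotient.eq]
      simpa using K.neg_mem hu
    · simp only [Ideal.Quotient.factorₐ_apply_mk]
      rw [Ideal.Quotient.eq]
      have : x - u - y = v := by linear_combination -huv
      rw [this]
      exact hv

end quotient

section complete

variable {A : Type} [CommRing A] [IsLocalRing A] [Algebra 𝒪 A]

/-- The quotient map `A → A ⧸ 𝔪 ^ (n+1)` is a local homomorphism. -/
theorem S53_isLocalHom_mkPow (n : ℕ) :
    IsLocalHom ((Ideal.Quotient.mkₐ 𝒪 (maximalIdeal A ^ (n + 1)) : A →ₐ[𝒪] _) :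
      A →+* A ⧸ maximalIdeal A ^ (n + 1)) := by
  refine ⟨fun a ha => ?_⟩
  by_contra hna
  have hmem : a ∈ maximalIdeal A := (mem_maximalIdeal a).mpr hna
  have h0 : (Ideal.Quotient.mk (maximalIdeal A ^ (n + 1)) a) ^ (n + 1) = 0 := by
    rw [← map_pow]
    exact Ideal.Quotient.eq_zero_iff_mem.mpr (Ideal.pow_mem_pow hmem _)
  exact (IsUnit.pow (n + 1) ha).ne_zero h0

/-- The reduction of `r` modulo `𝔪 ^ (n+1)`. -/
noncomputable abbrev S53_modPow (r : GQ →* Matrix (Fin 2) (Fin 2) A) (n : ℕ) :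
    GQ →* Matrix (Fin 2) (Fin 2) (A ⧸ maximalIdeal A ^ (n + 1)) :=
  S53_push ((Ideal.Quotient.mkₐ 𝒪 (maximalIdeal A ^ (n + 1)) : A →ₐ[𝒪] _) :
      A →+* A ⧸ maximalIdeal A ^ (n + 1)) r

lemma S53_matCont_modPow (r : GQ →* Matrix (Fin 2) (Fin 2) A) (hr : MatCont r) (n : ℕ) :
    MatCont (S53_modPow (𝒪 := 𝒪) r n) :=
  S53_matCont_map _ (S53_isLocalHom_mkPow n) r hr

lemma S53_type_congr {B : Type} [CommRing B] [IsLocalRing B] [Algebra 𝒪 B]
    {r r' : GQ →* Matrix (Fin 2) (Fin 2) B} (h : r = r') (hr : MatCont r) (hr' : MatCont r')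
    (hD : 𝒟 (ofMatrix r hr)) : 𝒟 (ofMatrix r' hr') := by
  subst h
  exact hD

/-- (T4) Over a complete noetherian coefficient algebra, the deformation condition for
`ofMatrix r` can be tested modulo all powers of the maximal ideal. -/
theorem S53_type_iff_forall_modPow (h𝒟 : IsDeformationCondition 𝒪 𝒟)
    [IsNoetherianRing A] [IsAdicComplete (maximalIdeal A) A] (hA : IsCoeffAlg 𝒪 A)
    (r : GQ →* Matrix (Fin 2) (Fin 2) A) (hr : MatCont r) :
    𝒟 (ofMatrix r hr) ↔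
      ∀ n : ℕ, 𝒟 (ofMatrix (S53_modPow (𝒪 := 𝒪) r n) (S53_matCont_modPow r hr n)) := by
  constructor
  · intro h n
    have h1 := (h𝒟.iff_forall_surjective hA.isLocalHom hA.residue_surjective (ofMatrix r hr)).mp h
      (S53_isArtinianTestAlgebra_quotPow hA n)
      (Ideal.Quotient.mkₐ 𝒪 (maximalIdeal A ^ (n + 1))) (S53_isLocalHom_mkPow n)
      (Ideal.Quotient.mkₐ_surjective 𝒪 _)
    exact h𝒟.of_isEquiv (S53_isArtinianTestAlgebra_quotPow hA n)
      (S53_baseChangeAlong_ofMatrix _ (S53_isLocalHom_mkPow n) r hr) h1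
  · intro h
    rw [h𝒟.iff_forall_surjective hA.isLocalHom hA.residue_surjective (ofMatrix r hr)]
    intro B _ _ _ hB q hq hqsurj
    haveI := hB.isArtinian
    obtain ⟨N, hN⟩ := (isArtinianRing_iff_isNilpotent_maximalIdeal B).mp ‹_›
    -- `q` kills `𝔪 ^ (N+1)`
    have hkill : ∀ a ∈ maximalIdeal A ^ (N + 1), q a = 0 := by
      intro a ha
      have h1 : (q : A →+* B) a ∈ (maximalIdeal A ^ (N + 1)).map (q : A →+* B) :=
        Ideal.mem_map_of_mem _ ha
      have hmap : (maximalIdeal A ^ (N + 1)).map (q : A →+* B) ≤ maximalIdeal B ^ (N + 1) := by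
        rw [Ideal.map_pow]
        exact Ideal.pow_right_mono (Ideal.map_le_iff_le_comap.mpr fun a ha =>
          Ideal.mem_comap.mpr (S53_map_mem_maximalIdeal (q : A →+* B) hq ha)) _
      have h2 := hmap h1
      rw [pow_succ, hN] at h2
      simpa using h2
    let qbar : (A ⧸ maximalIdeal A ^ (N + 1)) →ₐ[𝒪] B :=
      Ideal.Quotient.liftₐ (maximalIdeal A ^ (N + 1)) q hkill
    have hqbar : IsLocalHom (qbar : (A ⧸ maximalIdeal A ^ (N + 1)) →+* B) := by
      haveI := (S53_isArtinianTestAlgebra_quotPow hA N).isArtinian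
      exact S53_isLocalHom_of_isArtinianRing _
    have hT := S53_isArtinianTestAlgebra_quotPow hA N
    have h2 := h𝒟.baseChangeAlong hT hB qbar hqbar (h N)
    have h3 := h𝒟.of_isEquiv hB (S53_baseChangeAlong_ofMatrix _ hqbar _ _) h2
    have heq : S53_push (qbar : (A ⧸ maximalIdeal A ^ (N + 1)) →+* B) (S53_modPow (𝒪 := 𝒪) r N)
        = S53_push (q : A →+* B) r := by
      ext σ i j
      rfl
    have h4 := S53_type_congr heq _ (S53_matCont_map (q : A →+* B) hq r hr) h3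
    obtain ⟨e⟩ := S53_baseChangeAlong_ofMatrix (q : A →+* B) hq r hr
    exact h𝒟.of_isEquiv hB ⟨e.symm⟩ h4

/-- (T5) Over a complete noetherian coefficient algebra the deformation condition is invariant
under equivalence. -/
theorem S53_type_of_isEquiv (h𝒟 : IsDeformationCondition 𝒪 𝒟)
    [IsNoetherianRing A] [IsAdicComplete (maximalIdeal A) A] (hA : IsCoeffAlg 𝒪 A)
    {ρ ρ' : GaloisRepAdic A} (h : ρ.IsEquiv ρ') (hρ : 𝒟 ρ) : 𝒟 ρ' := by
  rw [h𝒟.iff_forall_surjective hA.isLocalHom hA.residue_surjective] at hρ ⊢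
  intro B _ _ _ hB q hq hqsurj
  obtain ⟨e⟩ := h
  exact h𝒟.of_isEquiv hB ⟨e.baseChangeAlong (q : A →+* B) hq⟩ (hρ hB q hq hqsurj)

/-- (T6a) reduction modulo `𝔪 ^ (n+1)` preserves `InF`. -/
theorem InF.modPow (h𝒟 : IsDeformationCondition 𝒪 𝒟)
    [IsNoetherianRing A] [IsAdicComplete (maximalIdeal A) A] (hA : IsCoeffAlg 𝒪 A)
    {r : GQ →* Matrix (Fin 2) (Fin 2) A} (hr : InF 𝒟 c E r) (n : ℕ) :
    InF 𝒟 c E (S53_modPow (𝒪 := 𝒪) r n) where
  cont := S53_matCont_modPow r hr.cont n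
  lift := S53_isLift_push _ (S53_isLocalHom_mkPow n) hr.lift
  norm := S53_isNormalised_push _ hr.norm
  type := (S53_type_iff_forall_modPow h𝒟 hA r hr.cont).mp hr.type n

/-- (T6b) `InF` over a complete noetherian coefficient algebra can be tested modulo all powers
of the maximal ideal (continuity being assumed). -/
theorem InF.of_modPow (h𝒟 : IsDeformationCondition 𝒪 𝒟)
    [IsNoetherianRing A] [IsAdicComplete (maximalIdeal A) A] (hA : IsCoeffAlg 𝒪 A)
    {r : GQ →* Matrix (Fin 2) (Fin 2) A} (hcont : MatCont r)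
    (h : ∀ n : ℕ, InF 𝒟 c E (S53_modPow (𝒪 := 𝒪) r n)) : InF 𝒟 c E r where
  cont := hcont
  lift := S53_isLift_of_push (Ideal.Quotient.mkₐ 𝒪 (maximalIdeal A ^ (0 + 1))) (h 0).lift
  norm := fun e he => by
    have key : ∀ n : ℕ, (e.coeff.sum fun x a => algebraMap 𝒪 A a * r x.1 x.2.1 x.2.2) -
        algebraMap 𝒪 A e.const ∈ maximalIdeal A ^ n := by
      intro n
      have h1 := (S53_holds_push_iff e (Ideal.Quotient.mkₐ 𝒪 (maximalIdeal A ^ (n + 1))) r).mp
        ((h n).norm e he)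
      have h2 : (e.coeff.sum fun x a => algebraMap 𝒪 A a * r x.1 x.2.1 x.2.2) -
          algebraMap 𝒪 A e.const ∈ maximalIdeal A ^ (n + 1) :=
        Ideal.Quotient.eq.mp h1
      exact Ideal.pow_le_pow_right (Nat.le_succ n) h2
    have := IsHausdorff.haus (I := maximalIdeal A) (M := A) inferInstance _ (fun n => by
      rw [SModEq.zero, smul_eq_mul, Ideal.mul_top]
      exact key n)
    exact sub_eq_zero.mp this
  type := (S53_type_iff_forall_modPow h𝒟 hA r hcont).mpr fun n => (h n).type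

end complete

end Fermat.Agent.S53
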