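import Fermat.Agent.S53.RingSide
import Fermat.Agent.S53.Transport
import Fermat.Agent.S53.Gen

/-!
# S53 part D (helper8): the field `prod` of `RingSideInput`

Two pairs `(A, rA)`, `(B, rB)` in the rigidified functor are dominated by the pair
`(A ×ₖ B, (rA, rB))` over the fibre product over the residue field `k` of `𝒪`.
-/

set_option autoImplicit false
set_option linter.style.haveILetI false
set_option linter.unusedSectionVars false

namespace Fermat.Agent.S53

open IsLocalRing GaloisRep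

variable {𝒪 : Type} [CommRing 𝒪] [IsLocalRing 𝒪]

/-- In a finite ring, a subalgebra contains the inverses of its elements which are units
(general version, no locality assumptions). -/
theorem S53_isUnit_subalgebra_iff_gen {R X : Type} [CommRing R] [CommRing X] [Algebra R X]
    [Finite X] (S : Subalgebra R X) (x : S) : IsUnit x ↔ IsUnit (x : X) := by
  constructor
  · intro h
    exact h.map S.val
  · intro h
    obtain ⟨u, hu⟩ := h
    have hpos : 0 < orderOf u := orderOf_pos u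
    have h1 : u ^ orderOf u = 1 := pow_orderOf_eq_one u
    have h2 : (x : X) * (x : X) ^ (orderOf u - 1) = 1 := by
      rw [← pow_succ', Nat.sub_add_cancel hpos, ← hu, ← Units.val_pow_eq_pow_val, h1,
        Units.val_one]
    refine IsUnit.of_mul_eq_one (x ^ (orderOf u - 1)) ?_
    apply Subtype.ext
    simpa using h2

section fibreRing

variable {A B : Type} [CommRing A] [IsLocalRing A] [Algebra 𝒪 A]
  [CommRing B] [IsLocalRing B] [Algebra 𝒪 B]

/-- The residue map `A → k` as an `𝒪`-algebra homomorphism. -/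
noncomputable def S53_resAlg (hA : IsCoeffAlg 𝒪 A) : A →ₐ[𝒪] ResidueField 𝒪 :=
  haveI := hA.isLocalHom
  { S53_resTo hA.residue_surjective with
    commutes' := fun o => by
      haveI := hA.isLocalHom
      show S53_resTo hA.residue_surjective (algebraMap 𝒪 A o) = _
      rw [S53_resTo_algebraMap, ResidueField.algebraMap_eq] }

lemma S53_resAlg_eq_zero_iff (hA : IsCoeffAlg 𝒪 A) (a : A) :
    S53_resAlg hA a = 0 ↔ a ∈ maximalIdeal A := by
  haveI := hA.isLocalHom
  exact S53_resTo_eq_zero_iff hA.residue_surjective a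

lemma S53_resAlg_ne_zero_iff (hA : IsCoeffAlg 𝒪 A) (a : A) :
    S53_resAlg hA a ≠ 0 ↔ IsUnit a := by
  rw [Ne, S53_resAlg_eq_zero_iff, mem_maximalIdeal, mem_nonunits_iff, not_not]

/-- The fibre product `A ×ₖ B` as a subalgebra of `A × B`. -/
noncomputable def S53_fib (hA : IsCoeffAlg 𝒪 A) (hB : IsCoeffAlg 𝒪 B) : Subalgebra 𝒪 (A × B) :=
  AlgHom.equalizer ((S53_resAlg hA).comp (AlgHom.fst 𝒪 A B))
    ((S53_resAlg hB).comp (AlgHom.snd 𝒪 A B))

lemma S53_mem_fib (hA : IsCoeffAlg 𝒪 A) (hB : IsCoeffAlg 𝒪 B) (x : A × B) :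
    x ∈ S53_fib hA hB ↔ S53_resAlg hA x.1 = S53_resAlg hB x.2 := by
  unfold S53_fib
  rw [AlgHom.mem_equalizer]
  rfl

lemma S53_fib_isUnit_iff [Finite A] [Finite B] (hA : IsCoeffAlg 𝒪 A) (hB : IsCoeffAlg 𝒪 B)
    (x : S53_fib hA hB) : IsUnit x ↔ IsUnit (x : A × B).1 := by
  rw [S53_isUnit_subalgebra_iff_gen, Prod.isUnit_iff]
  constructor
  · exact fun h => h.1
  · intro h
    refine ⟨h, ?_⟩
    rw [← S53_resAlg_ne_zero_iff hB, ← (S53_mem_fib hA hB _).mp x.2, S53_resAlg_ne_zero_iff hA]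
    exact h

/-- The fibre product is a local ring. -/
theorem S53_fib_isLocalRing [Finite A] [Finite B] (hA : IsCoeffAlg 𝒪 A) (hB : IsCoeffAlg 𝒪 B) :
    IsLocalRing (S53_fib hA hB) := by
  haveI : Nontrivial (S53_fib hA hB) := inferInstance
  refine IsLocalRing.of_nonunits_add fun a b ha hb => ?_
  rw [mem_nonunits_iff, S53_fib_isUnit_iff] at ha hb ⊢
  have := nonunits_add (a := (a : A × B).1) (b := (b : A × B).1) ha hb
  simpa using this

/-- The fibre product is an Artinian test algebra. -/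
theorem S53_fib_isArtinianTestAlgebra [Finite A] [Finite B] (hA : IsCoeffAlg 𝒪 A)
    (hB : IsCoeffAlg 𝒪 B) [IsLocalRing (S53_fib hA hB)] :
    IsArtinianTestAlgebra 𝒪 (S53_fib hA hB) := by
  haveI := hA.isLocalHom
  refine ⟨⟨fun o ho => ?_⟩, fun y => ?_, isArtinian_of_finite⟩
  · have h1 := (S53_fib_isUnit_iff hA hB _).mp ho
    exact isUnit_of_map_unit (algebraMap 𝒪 A) o h1
  · obtain ⟨d, rfl⟩ := residue_surjective y
    obtain ⟨o, ho⟩ := S53_exists_sub_mem_maximalIdeal hA (d : A × B).1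
    refine ⟨o, ?_⟩
    rw [Function.comp_apply, eq_comm, ← sub_eq_zero, ← map_sub, residue_eq_zero_iff,
      mem_maximalIdeal, mem_nonunits_iff, S53_fib_isUnit_iff]
    exact (mem_maximalIdeal _).mp ho

/-- First projection of the fibre product. -/
noncomputable def S53_fibFst (hA : IsCoeffAlg 𝒪 A) (hB : IsCoeffAlg 𝒪 B) :
    S53_fib hA hB →ₐ[𝒪] A :=
  (AlgHom.fst 𝒪 A B).comp (S53_fib hA hB).val

/-- Second projection of the fibre product. -/
noncomputable def S53_fibSnd (hA : IsCoeffAlg 𝒪 A) (hB : IsCoeffAlg 𝒪 B) :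
    S53_fib hA hB →ₐ[𝒪] B :=
  (AlgHom.snd 𝒪 A B).comp (S53_fib hA hB).val

end fibreRing

section prod

variable {𝒟 : ∀ ⦃A : Type⦄ [CommRing A] [IsLocalRing A] [Algebra 𝒪 A], GaloisRepAdic A → Prop}
  {c : GQ → Matrix (Fin 2) (Fin 2) 𝒪} {E : Set (NormEq 𝒪)}

/-- field `prod` of `RingSideInput`. -/
theorem S53_RS_prod [Finite (ResidueField 𝒪)] (h𝒟 : IsDeformationCondition 𝒪 𝒟) :
    ∀ {A B : Type} [CommRing A] [IsLocalRing A] [Algebra 𝒪 A]
    [CommRing B] [IsLocalRing B] [Algebra 𝒪 B],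
    GaloisRep.IsArtinianTestAlgebra 𝒪 A → GaloisRep.IsArtinianTestAlgebra 𝒪 B →
    ∀ (rA : GQ →* Matrix (Fin 2) (Fin 2) A) (rB : GQ →* Matrix (Fin 2) (Fin 2) B),
      InF 𝒟 c E rA → InF 𝒟 c E rB →
      ∃ (D : Type) (_ : CommRing D) (_ : IsLocalRing D) (_ : Algebra 𝒪 D)
        (_ : GaloisRep.IsArtinianTestAlgebra 𝒪 D) (pA : D →ₐ[𝒪] A) (pB : D →ₐ[𝒪] B)
        (rD : GQ →* Matrix (Fin 2) (Fin 2) D),
        InF 𝒟 c E rD ∧ mapRep (pA : D →+* A) rD = rA ∧ mapRep (pB : D →+* B) rD = rB ∧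
          ∀ d d' : D, pA d = pA d' → pB d = pB d' → d = d' := by
  intro A B _ _ _ _ _ _ hA hB rA rB hrA hrB
  have hcA := S53_isCoeffAlg_of_isArtinianTestAlgebra hA
  have hcB := S53_isCoeffAlg_of_isArtinianTestAlgebra hB
  haveI := S53_finite_of_isArtinianTestAlgebra hA
  haveI := S53_finite_of_isArtinianTestAlgebra hB
  haveI hloc : IsLocalRing (S53_fib hcA hcB) := S53_fib_isLocalRing hcA hcB
  have hD : IsArtinianTestAlgebra 𝒪 (S53_fib hcA hcB) := S53_fib_isArtinianTestAlgebra hcA hcB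
  -- the entries of `(rA, rB)` lie in the fibre product
  have hmem : ∀ σ i j, ((rA σ i j, rB σ i j) : A × B) ∈ S53_fib hcA hcB := by
    intro σ i j
    rw [S53_mem_fib]
    have h1 := (S53_resAlg_eq_zero_iff hcA _).mpr (hrA.lift σ i j)
    have h2 := (S53_resAlg_eq_zero_iff hcB _).mpr (hrB.lift σ i j)
    rw [map_sub, sub_eq_zero, AlgHom.commutes] at h1 h2
    show S53_resAlg hcA (rA σ i j) = S53_resAlg hcB (rB σ i j)
    rw [h1, h2]
  have hinj : ∀ d d' : S53_fib hcA hcB, S53_fibFst hcA hcB d = S53_fibFst hcA hcB d' →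
      S53_fibSnd hcA hcB d = S53_fibSnd hcA hcB d' → d = d' := by
    intro d d' h1 h2
    exact Subtype.ext (Prod.ext h1 h2)
  let f : GQ → Matrix (Fin 2) (Fin 2) (S53_fib hcA hcB) :=
    fun σ => Matrix.of fun i j => ⟨(rA σ i j, rB σ i j), hmem σ i j⟩
  have hfA : ∀ σ, (f σ).map (S53_fibFst hcA hcB) = rA σ := fun σ => by
    ext i j; rfl
  have hfB : ∀ σ, (f σ).map (S53_fibSnd hcA hcB) = rB σ := fun σ => by
    ext i j; rfl
  have hinjM : ∀ X Y : Matrix (Fin 2) (Fin 2) (S53_fib hcA hcB),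
      X.map (S53_fibFst hcA hcB) = Y.map (S53_fibFst hcA hcB) →
      X.map (S53_fibSnd hcA hcB) = Y.map (S53_fibSnd hcA hcB) → X = Y := by
    intro X Y h1 h2
    ext i j
    · exact congrArg Prod.fst (congrArg Subtype.val (hinj (X i j) (Y i j)
        (congrFun (congrFun h1 i) j) (congrFun (congrFun h2 i) j)))
    · exact congrArg Prod.snd (congrArg Subtype.val (hinj (X i j) (Y i j)
        (congrFun (congrFun h1 i) j) (congrFun (congrFun h2 i) j)))
  let rD : GQ →* Matrix (Fin 2) (Fin 2) (S53_fib hcA hcB) :=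
    { toFun := f
      map_one' := by
        apply hinjM
        · rw [hfA, map_one, Matrix.map_one _ (map_zero _) (map_one _)]
        · rw [hfB, map_one, Matrix.map_one _ (map_zero _) (map_one _)]
      map_mul' := fun σ τ => by
        apply hinjM
        · rw [hfA, map_mul, Matrix.map_mul, hfA, hfA]
        · rw [hfB, map_mul, Matrix.map_mul, hfB, hfB] }
  have hpA : mapRep ((S53_fibFst hcA hcB : ↥(S53_fib hcA hcB) →ₐ[𝒪] A) :
      ↥(S53_fib hcA hcB) →+* A) rD = rA := by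
    ext σ i j; rfl
  have hpB : mapRep ((S53_fibSnd hcA hcB : ↥(S53_fib hcA hcB) →ₐ[𝒪] B) :
      ↥(S53_fib hcA hcB) →+* B) rD = rB := by
    ext σ i j; rfl
  refine ⟨S53_fib hcA hcB, inferInstance, hloc, inferInstance, hD, S53_fibFst hcA hcB,
    S53_fibSnd hcA hcB, rD, ?_, hpA, hpB, hinj⟩
  refine InF.of_fibre h𝒟 hA hB residueField_test hD (S53_resAlg hcA) (S53_resAlg hcB)
    (S53_fibFst hcA hcB) (S53_fibSnd hcA hcB) ?_ ?_ ?_ ?_ ?_
  · ext d
    exact (S53_mem_fib hcA hcB _).mp d.2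
  · intro d d' h
    simp only [Prod.mk.injEq] at h
    exact hinj d d' h.1 h.2
  · intro a b hab
    exact ⟨⟨(a, b), (S53_mem_fib hcA hcB _).mpr hab⟩, rfl, rfl⟩
  · have : S53_push ((S53_fibFst hcA hcB : ↥(S53_fib hcA hcB) →ₐ[𝒪] A) :
        ↥(S53_fib hcA hcB) →+* A) rD = rA := hpA
    rw [this]; exact hrA
  · have : S53_push ((S53_fibSnd hcA hcB : ↥(S53_fib hcA hcB) →ₐ[𝒪] B) :
        ↥(S53_fib hcA hcB) →+* B) rD = rB := hpB
    rw [this]; exact hrB

end prod

end Fermat.Agent.S53
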