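import Fermat.Agent.S53.RingSide

/-!
# S53, part G: pairs and their kernels in the power series ring

For a pair `(A, r)` (Artinian test algebra, `r ∈ F(A)`) there is a unique "adapted"
`𝒪`-algebra map `π : 𝒪⟦T₁,…,T_m⟧ → A`, `T_a ↦ coordOf r a`.  Its range contains all entries
of `r` (Step I), its kernel carries a canonical pair (Step II), which is unique (Step III);
the set `KSet` of such kernels is closed under intersection (Step IV).
-/

set_option autoImplicit false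
set_option linter.style.haveILetI false
set_option linter.unusedSectionVars false

namespace Fermat.Agent.S53

open IsLocalRing

section

variable {𝒪 : Type} [CommRing 𝒪] [IsLocalRing 𝒪]
  {𝒟 : ∀ ⦃A : Type⦄ [CommRing A] [IsLocalRing A] [Algebra 𝒪 A], GaloisRepAdic A → Prop}
  {c : GQ → Matrix (Fin 2) (Fin 2) 𝒪} {E : Set (NormEq 𝒪)}
  {m : ℕ} {co : Fin m → GQ × Fin 2 × Fin 2}

/-- `π` is adapted to `r` if it sends the variables to the coordinates of `r`. -/
def IsAdapted (c : GQ → Matrix (Fin 2) (Fin 2) 𝒪) (co : Fin m → GQ × Fin 2 × Fin 2)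
    {A : Type} [CommRing A] [Algebra 𝒪 A]
    (π : MvPowerSeries (Fin m) 𝒪 →ₐ[𝒪] A) (r : GQ → Matrix (Fin 2) (Fin 2) A) : Prop :=
  ∀ a, π (MvPowerSeries.X a) = coordOf c co r a

lemma coordOf_mem {A : Type} [CommRing A] [IsLocalRing A] [Algebra 𝒪 A]
    {r : GQ → Matrix (Fin 2) (Fin 2) A} (hr : IsLift c r) (a : Fin m) :
    coordOf c co r a ∈ maximalIdeal A :=
  hr _ _ _

lemma coordOf_map {A B : Type} [CommRing A] [Algebra 𝒪 A] [CommRing B] [Algebra 𝒪 B]
    (φ : A →ₐ[𝒪] B) (r : GQ →* Matrix (Fin 2) (Fin 2) A) (a : Fin m) :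
    coordOf c co (mapRep (φ : A →+* B) r) a = φ (coordOf c co r a) := by
  simp only [coordOf, mapRep_apply, map_sub, AlgHom.commutes, RingHom.coe_coe]

lemma IsAdapted.comp {A B : Type} [CommRing A] [Algebra 𝒪 A] [CommRing B] [Algebra 𝒪 B]
    {π : MvPowerSeries (Fin m) 𝒪 →ₐ[𝒪] A} {r : GQ →* Matrix (Fin 2) (Fin 2) A}
    (hπ : IsAdapted c co π r) (φ : A →ₐ[𝒪] B) :
    IsAdapted c co (φ.comp π) (mapRep (φ : A →+* B) r) := by
  intro a
  rw [coordOf_map, AlgHom.comp_apply, hπ a]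

lemma X_mem_maximalIdeal_mvPowerSeries (a : Fin m) :
    (MvPowerSeries.X a : MvPowerSeries (Fin m) 𝒪) ∈ maximalIdeal (MvPowerSeries (Fin m) 𝒪) := by
  rw [mem_maximalIdeal, mem_nonunits_iff, MvPowerSeries.isUnit_iff_constantCoeff]
  simp

/-- Existence of an adapted map. -/
lemma exists_adapted {A : Type} [CommRing A] [IsLocalRing A] [Algebra 𝒪 A]
    (hA : GaloisRep.IsArtinianTestAlgebra 𝒪 A)
    {r : GQ → Matrix (Fin 2) (Fin 2) A} (hr : IsLift c r) :
    ∃ π : MvPowerSeries (Fin m) 𝒪 →ₐ[𝒪] A, IsAdapted c co π r := by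
  haveI := hA.isArtinian
  obtain ⟨N, hN⟩ := exists_maximalIdeal_pow_eq_bot A
  have hx : Ideal.span (Set.range (coordOf c co r)) ^ N = ⊥ := by
    rw [eq_bot_iff, ← hN]
    refine Ideal.pow_right_mono (Ideal.span_le.mpr ?_) N
    rintro _ ⟨a, rfl⟩
    exact coordOf_mem hr a
  exact ⟨psEval (coordOf c co r) N hx, fun a => psEval_X _ _ _ a⟩

/-- Two algebra maps from the power series ring to an Artinian test algebra which agree on the
variables are equal. -/
lemma algHom_ext_of_X {A : Type} [CommRing A] [IsLocalRing A] [Algebra 𝒪 A]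
    (hA : GaloisRep.IsArtinianTestAlgebra 𝒪 A)
    (π π' : MvPowerSeries (Fin m) 𝒪 →ₐ[𝒪] A)
    (h : ∀ a, π (MvPowerSeries.X a) = π' (MvPowerSeries.X a)) : π = π' := by
  haveI := hA.isArtinian
  obtain ⟨N, hN⟩ := exists_maximalIdeal_pow_eq_bot A
  refine psAlgHom_ext π π' h N ?_
  rw [eq_bot_iff, ← hN]
  refine Ideal.pow_right_mono (Ideal.span_le.mpr ?_) N
  rintro _ ⟨a, rfl⟩
  exact algHom_map_maximalIdeal (IsCoeffAlg.of_test hA) π (X_mem_maximalIdeal_mvPowerSeries a)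

/-- Step I: the range of an adapted map contains all entries. -/
theorem entry_mem_range (h : RingSideInput 𝒟 c E m co)
    {A : Type} [CommRing A] [IsLocalRing A] [Algebra 𝒪 A]
    (hA : GaloisRep.IsArtinianTestAlgebra 𝒪 A)
    (r : GQ →* Matrix (Fin 2) (Fin 2) A) (hr : InF 𝒟 c E r)
    (π : MvPowerSeries (Fin m) 𝒪 →ₐ[𝒪] A) (hπ : IsAdapted c co π r) (σ : GQ) (i j : Fin 2) :
    ∃ p, π p = r σ i j := by
  obtain ⟨B, _, _, _, hB, ι, rB, hι, hιr, hrB, htight⟩ := h.sub hA r hr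
  have hgen := h.coords hB rB hrB htight
  haveI := hB.isArtinian
  obtain ⟨N, hN⟩ := exists_maximalIdeal_pow_eq_bot B
  obtain ⟨πB, hπB⟩ := exists_adapted (co := co) hB hrB.lift
  -- `πB` is surjective
  have hsurj : (πB.range : Subalgebra 𝒪 B) = ⊤ := by
    refine subalgebra_eq_top_of_gen πB.range (maximalIdeal B)
      (Set.range (coordOf c co rB) ∪ (algebraMap 𝒪 B) '' (maximalIdeal 𝒪 : Set 𝒪)) ?_ ?_ ?_
      (IsCoeffAlg.of_test hB).exists_sub_mem N hN
    · rintro x (⟨a, rfl⟩ | ⟨o, -, rfl⟩)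
      · exact ⟨_, hπB a⟩
      · exact Subalgebra.algebraMap_mem _ o
    · rintro x (⟨a, rfl⟩ | ⟨o, ho, rfl⟩)
      · exact coordOf_mem hrB.lift a
      · exact (IsCoeffAlg.of_test hB).algebraMap_mem ho
    · refine hgen.trans (sup_le ?_ ?_)
      · exact Ideal.span_mono Set.subset_union_left
      · rw [Ideal.map_le_iff_le_comap]
        intro o ho
        exact Ideal.subset_span (Or.inr ⟨o, ho, rfl⟩)
  -- `ι ∘ πB = π`
  have hcomp : ι.comp πB = π := by
    apply algHom_ext_of_X hA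
    intro a
    have h1 := (hπB.comp ι) a
    rw [hιr] at h1
    rw [h1, hπ a]
  have hmem : rB σ i j ∈ (πB.range : Subalgebra 𝒪 B) := by rw [hsurj]; trivial
  obtain ⟨p, hp⟩ := hmem
  refine ⟨p, ?_⟩
  rw [← hcomp, AlgHom.comp_apply]
  have hp' : πB p = rB σ i j := hp
  rw [hp', ← hιr]
  rfl

/-- The set of kernels of pairs: ideals `K` such that `P ⧸ K` is an Artinian test algebra
carrying a pair adapted to the quotient map. -/
def KSet (𝒟 : ∀ ⦃A : Type⦄ [CommRing A] [IsLocalRing A] [Algebra 𝒪 A], GaloisRepAdic A → Prop)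
    (c : GQ → Matrix (Fin 2) (Fin 2) 𝒪) (E : Set (NormEq 𝒪))
    (co : Fin m → GQ × Fin 2 × Fin 2) : Set (Ideal (MvPowerSeries (Fin m) 𝒪)) :=
  {K | ∃ (_ : IsLocalRing (MvPowerSeries (Fin m) 𝒪 ⧸ K))
        (_ : GaloisRep.IsArtinianTestAlgebra 𝒪 (MvPowerSeries (Fin m) 𝒪 ⧸ K))
        (r : GQ →* Matrix (Fin 2) (Fin 2) (MvPowerSeries (Fin m) 𝒪 ⧸ K)),
        InF 𝒟 c E r ∧ IsAdapted c co (Ideal.Quotient.mkₐ 𝒪 K) r}

variable [IsNoetherianRing 𝒪] [Finite (ResidueField 𝒪)]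

/-- Step II: the kernel of an adapted map carries a canonical pair. -/
theorem exists_pair_on_ker (h : RingSideInput 𝒟 c E m co)
    {A : Type} [CommRing A] [IsLocalRing A] [Algebra 𝒪 A]
    (hA : GaloisRep.IsArtinianTestAlgebra 𝒪 A)
    (r : GQ →* Matrix (Fin 2) (Fin 2) A) (hr : InF 𝒟 c E r)
    (π : MvPowerSeries (Fin m) 𝒪 →ₐ[𝒪] A) (hπ : IsAdapted c co π r) :
    ∃ (_ : IsLocalRing (MvPowerSeries (Fin m) 𝒪 ⧸ RingHom.ker π))
      (_ : GaloisRep.IsArtinianTestAlgebra 𝒪 (MvPowerSeries (Fin m) 𝒪 ⧸ RingHom.ker π))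
      (rK : GQ →* Matrix (Fin 2) (Fin 2) (MvPowerSeries (Fin m) 𝒪 ⧸ RingHom.ker π)),
      InF 𝒟 c E rK ∧ IsAdapted c co (Ideal.Quotient.mkₐ 𝒪 (RingHom.ker π)) rK ∧
        mapRep (Ideal.kerLiftAlg π : _ →+* A) rK = r := by
  have hK : RingHom.ker π ≠ ⊤ := RingHom.ker_ne_top _
  haveI : Nontrivial (MvPowerSeries (Fin m) 𝒪 ⧸ RingHom.ker π) :=
    Ideal.Quotient.nontrivial_iff.mpr hK
  haveI hl : IsLocalRing (MvPowerSeries (Fin m) 𝒪 ⧸ RingHom.ker π) :=
    IsLocalRing.of_surjective' (Ideal.Quotient.mk (RingHom.ker π)) Ideal.Quotient.mk_surjective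
  haveI := hA.isArtinian
  obtain ⟨N, hN⟩ := exists_maximalIdeal_pow_eq_bot A
  have hpow : maximalIdeal (MvPowerSeries (Fin m) 𝒪) ^ N ≤ RingHom.ker π := by
    have h1 : (maximalIdeal (MvPowerSeries (Fin m) 𝒪)).map (π : _ →+* A) ≤ maximalIdeal A := by
      rw [Ideal.map_le_iff_le_comap]
      intro x hx
      exact algHom_map_maximalIdeal (IsCoeffAlg.of_test hA) π hx
    have h2 : (maximalIdeal (MvPowerSeries (Fin m) 𝒪) ^ N).map (π : _ →+* A) ≤ ⊥ := by
      rw [Ideal.map_pow, ← hN]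
      exact Ideal.pow_right_mono h1 N
    intro x hx
    rw [RingHom.mem_ker]
    have := h2 (Ideal.mem_map_of_mem _ hx)
    simpa using this
  have ht : GaloisRep.IsArtinianTestAlgebra 𝒪 (MvPowerSeries (Fin m) 𝒪 ⧸ RingHom.ker π) :=
    (isCoeffAlg_mvPowerSeries 𝒪 m).quotient_test _ N hpow
  have hι : Function.Injective (Ideal.kerLiftAlg π) := Ideal.kerLiftAlg_injective π
  have hιmk : ∀ p, (Ideal.kerLiftAlg π) (Ideal.Quotient.mk (RingHom.ker π) p) = π p :=
    fun p => Ideal.kerLiftAlg_mk π p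
  obtain ⟨rK, hrK⟩ := exists_descent
    ((Ideal.kerLiftAlg π : (MvPowerSeries (Fin m) 𝒪 ⧸ RingHom.ker π) →ₐ[𝒪] A) :
      (MvPowerSeries (Fin m) 𝒪 ⧸ RingHom.ker π) →+* A) hι r (fun σ i j => by
    obtain ⟨p, hp⟩ := entry_mem_range h hA r hr π hπ σ i j
    exact ⟨Ideal.Quotient.mk (RingHom.ker π) p, by rw [← hp]; exact hιmk p⟩)
  refine ⟨hl, ht, rK, ?_, ?_, hrK⟩
  · exact h.of_map_injective ht hA (Ideal.kerLiftAlg π) rK hι (by rw [hrK]; exact hr)
  · intro a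
    apply hι
    have h1 : Ideal.kerLiftAlg π (coordOf c co rK a) = coordOf c co r a := by
      rw [← coordOf_map, hrK]
    rw [h1, ← hπ a]
    exact (hιmk _).symm

theorem ker_mem_KSet (h : RingSideInput 𝒟 c E m co)
    {A : Type} [CommRing A] [IsLocalRing A] [Algebra 𝒪 A]
    (hA : GaloisRep.IsArtinianTestAlgebra 𝒪 A)
    (r : GQ →* Matrix (Fin 2) (Fin 2) A) (hr : InF 𝒟 c E r)
    (π : MvPowerSeries (Fin m) 𝒪 →ₐ[𝒪] A) (hπ : IsAdapted c co π r) :
    RingHom.ker π ∈ KSet 𝒟 c E co := by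
  obtain ⟨hl, ht, rK, h1, h2, -⟩ := exists_pair_on_ker h hA r hr π hπ
  exact ⟨hl, ht, rK, h1, h2⟩

omit [IsNoetherianRing 𝒪] [Finite (ResidueField 𝒪)] in
/-- Step III: the pair on a kernel is unique. -/
theorem pair_unique (h : RingSideInput 𝒟 c E m co)
    {A : Type} [CommRing A] [IsLocalRing A] [Algebra 𝒪 A]
    (hA : GaloisRep.IsArtinianTestAlgebra 𝒪 A)
    (π : MvPowerSeries (Fin m) 𝒪 →ₐ[𝒪] A)
    (r r' : GQ →* Matrix (Fin 2) (Fin 2) A) (hr : InF 𝒟 c E r) (hr' : InF 𝒟 c E r')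
    (ha : IsAdapted c co π r) (ha' : IsAdapted c co π r') : r = r' := by
  obtain ⟨D, _, _, _, hD, pA, pB, rD, hrD, hpA, hpB, -⟩ := h.prod hA hA r r' hr hr'
  obtain ⟨πD, hπD⟩ := exists_adapted (co := co) hD hrD.lift
  have hA1 : pA.comp πD = π := by
    apply algHom_ext_of_X hA
    intro a
    have h1 := (hπD.comp pA) a
    rw [hpA] at h1
    rw [h1, ha a]
  have hB1 : pB.comp πD = π := by
    apply algHom_ext_of_X hA
    intro a
    have h1 := (hπD.comp pB) a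
    rw [hpB] at h1
    rw [h1, ha' a]
  ext σ i j
  obtain ⟨p, hp⟩ := entry_mem_range h hD rD hrD πD hπD σ i j
  have e1 : r σ i j = pA (rD σ i j) := by rw [← hpA]; rfl
  have e2 : r' σ i j = pB (rD σ i j) := by rw [← hpB]; rfl
  rw [e1, e2, ← hp, ← AlgHom.comp_apply, ← AlgHom.comp_apply, hA1, hB1]

/-- Step IV: `KSet` is closed under binary intersections. -/
theorem KSet_inf (h : RingSideInput 𝒟 c E m co)
    {K K' : Ideal (MvPowerSeries (Fin m) 𝒪)} (hK : K ∈ KSet 𝒟 c E co)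
    (hK' : K' ∈ KSet 𝒟 c E co) : K ⊓ K' ∈ KSet 𝒟 c E co := by
  obtain ⟨_, ht, r, hr, ha⟩ := hK
  obtain ⟨_, ht', r', hr', ha'⟩ := hK'
  obtain ⟨D, _, _, _, hD, pA, pB, rD, hrD, hpA, hpB, hinj⟩ := h.prod ht ht' r r' hr hr'
  obtain ⟨πD, hπD⟩ := exists_adapted (co := co) hD hrD.lift
  have hA1 : pA.comp πD = Ideal.Quotient.mkₐ 𝒪 K := by
    apply algHom_ext_of_X ht
    intro a
    have h1 := (hπD.comp pA) a
    rw [hpA] at h1
    rw [h1, ha a]
  have hB1 : pB.comp πD = Ideal.Quotient.mkₐ 𝒪 K' := by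
    apply algHom_ext_of_X ht'
    intro a
    have h1 := (hπD.comp pB) a
    rw [hpB] at h1
    rw [h1, ha' a]
  have hker : RingHom.ker πD = K ⊓ K' := by
    ext p
    rw [RingHom.mem_ker, Ideal.mem_inf]
    constructor
    · intro hp
      constructor
      · have := congrArg pA hp
        rw [map_zero, ← AlgHom.comp_apply, hA1] at this
        exact Ideal.Quotient.eq_zero_iff_mem.mp this
      · have := congrArg pB hp
        rw [map_zero, ← AlgHom.comp_apply, hB1] at this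
        exact Ideal.Quotient.eq_zero_iff_mem.mp this
    · rintro ⟨hp, hp'⟩
      apply hinj
      · rw [map_zero, ← AlgHom.comp_apply, hA1]
        exact Ideal.Quotient.eq_zero_iff_mem.mpr hp
      · rw [map_zero, ← AlgHom.comp_apply, hB1]
        exact Ideal.Quotient.eq_zero_iff_mem.mpr hp'
  have := ker_mem_KSet h hD rD hrD πD hπD
  rwa [hker] at this

/-- Step VI: `KSet` is nonempty. -/
theorem KSet_nonempty (h : RingSideInput 𝒟 c E m co) : (KSet 𝒟 c E co).Nonempty := by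
  obtain ⟨r₀, hr₀⟩ := h.base
  obtain ⟨π, hπ⟩ := exists_adapted (co := co) residueField_test hr₀.lift
  exact ⟨_, ker_mem_KSet h residueField_test r₀ hr₀ π hπ⟩

omit [IsNoetherianRing 𝒪] [Finite (ResidueField 𝒪)] in
/-- Members of `KSet` are open. -/
theorem KSet_open {K : Ideal (MvPowerSeries (Fin m) 𝒪)} (hK : K ∈ KSet 𝒟 c E co) :
    ∃ n, maximalIdeal (MvPowerSeries (Fin m) 𝒪) ^ n ≤ K := by
  obtain ⟨_, ht, -⟩ := hK
  haveI := ht.isArtinian
  exact exists_maximalIdeal_pow_le_of_isArtinianRing_quotient K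

omit [IsNoetherianRing 𝒪] [Finite (ResidueField 𝒪)] in
/-- Members of `KSet` are proper ideals. -/
theorem KSet_le_maximalIdeal {K : Ideal (MvPowerSeries (Fin m) 𝒪)} (hK : K ∈ KSet 𝒟 c E co) :
    K ≤ maximalIdeal (MvPowerSeries (Fin m) 𝒪) := by
  obtain ⟨hl, -⟩ := hK
  apply le_maximalIdeal
  intro h
  have : Subsingleton (MvPowerSeries (Fin m) 𝒪 ⧸ K) := by
    rw [h]; exact Ideal.Quotient.subsingleton_iff.mpr rfl
  exact not_subsingleton _ this

end

end Fermat.Agent.S53
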