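import Mathlib

/-!
# S53, part G (abstract): filtered families of open ideals in a complete ring

Let `P` be a commutative ring, `𝔪` an ideal such that `P` is `𝔪`-adically precomplete and all
`P ⧸ 𝔪 ^ n` are finite.  Let `𝒦` be a nonempty set of ideals, each containing a power of `𝔪`,
closed under binary intersection, and `J = sInf 𝒦`.  Then

* `exists_le_sup_pow` : for every `n` there is `K ∈ 𝒦` with `K ≤ J ⊔ 𝔪 ^ n`  (compactness);
* `exists_glue` : every compatible family `(a K ∈ P ⧸ K)_{K ∈ 𝒦}` comes from an element of `P`.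
-/

set_option autoImplicit false

namespace Fermat.Agent.S53

section Cauchy

variable {P : Type*} [CommRing P] (𝔪 : Ideal P) [IsPrecomplete 𝔪 P]

/-- A sequence with `s (i+1) - s i ∈ 𝔪 ^ (n₀ + i)` has a limit `y` with
`y - s i ∈ 𝔪 ^ (n₀ + i)`. -/
lemma exists_limit_of_succ (s : ℕ → P) (n₀ : ℕ)
    (h : ∀ i, s (i + 1) - s i ∈ 𝔪 ^ (n₀ + i)) :
    ∃ y, ∀ i, y - s i ∈ 𝔪 ^ (n₀ + i) := by
  have hmono : ∀ i j, i ≤ j → s j - s i ∈ 𝔪 ^ (n₀ + i) := by
    intro i j hij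
    induction j, hij using Nat.le_induction with
    | base => simp
    | succ j hij ih =>
      have h1 : s (j + 1) - s i = (s (j + 1) - s j) + (s j - s i) := by ring
      rw [h1]
      exact Ideal.add_mem _ (Ideal.pow_le_pow_right (by omega) (h j)) ih
  obtain ⟨L, hL⟩ := IsPrecomplete.prec' (I := 𝔪) (fun j => s (j - n₀)) (by
    intro a b hab
    rw [SModEq.sub_mem, smul_eq_mul, Ideal.mul_top]
    have h1 := hmono (a - n₀) (b - n₀) (by omega)
    have h2 : s (a - n₀) - s (b - n₀) = -(s (b - n₀) - s (a - n₀)) := by ring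
    rw [h2]
    exact Ideal.neg_mem_iff _ |>.mpr (Ideal.pow_le_pow_right (by omega) h1))
  refine ⟨L, fun i => ?_⟩
  have := hL (n₀ + i)
  rw [SModEq.sub_mem, smul_eq_mul, Ideal.mul_top] at this
  have e : n₀ + i - n₀ = i := by omega
  rw [e] at this
  have h2 : L - s i = -(s i - L) := by ring
  rw [h2]
  exact (Ideal.neg_mem_iff _).mpr this

end Cauchy

section Main

variable {P : Type*} [CommRing P] (𝔪 : Ideal P) [IsPrecomplete 𝔪 P]
  (hfin : ∀ n, Finite (P ⧸ 𝔪 ^ n))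
  (𝒦 : Set (Ideal P)) (hne : 𝒦.Nonempty)
  (hopen : ∀ K ∈ 𝒦, ∃ n, 𝔪 ^ n ≤ K)
  (hinf : ∀ K ∈ 𝒦, ∀ K' ∈ 𝒦, K ⊓ K' ∈ 𝒦)

include hfin hne hinf in
/-- For each `n` the family `K ⊔ 𝔪 ^ n`, `K ∈ 𝒦`, has a least element. -/
lemma exists_least_sup_pow (n : ℕ) :
    ∃ K₀ ∈ 𝒦, ∀ K ∈ 𝒦, K₀ ⊔ 𝔪 ^ n ≤ K ⊔ 𝔪 ^ n := by
  classical
  haveI := hfin n
  -- the finite set of ideals of the form `K ⊔ 𝔪 ^ n`
  let S : Set (Ideal P) := (fun K => K ⊔ 𝔪 ^ n) '' 𝒦
  have hSfin : S.Finite := by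
    have hinj : Set.InjOn (fun I : Ideal P => I.map (Ideal.Quotient.mk (𝔪 ^ n))) S := by
      rintro _ ⟨K, -, rfl⟩ _ ⟨K', -, rfl⟩ hKK'
      have h1 := congrArg (Ideal.comap (Ideal.Quotient.mk (𝔪 ^ n))) hKK'
      simp only [Ideal.comap_map_of_surjective _ Ideal.Quotient.mk_surjective,
        ← RingHom.ker_eq_comap_bot, Ideal.mk_ker] at h1
      simpa [sup_assoc] using h1
    exact Set.Finite.of_injOn (f := fun I : Ideal P => I.map (Ideal.Quotient.mk (𝔪 ^ n)))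
      (t := Set.univ) (fun _ _ => Set.mem_univ _) hinj Set.finite_univ
  have hSne : S.Nonempty := hne.image _
  obtain ⟨M, hMS, hMmin⟩ := hSfin.exists_minimal hSne
  obtain ⟨K₀, hK₀, rfl⟩ := hMS
  refine ⟨K₀, hK₀, fun K hK => ?_⟩
  have h1 : (K₀ ⊓ K) ⊔ 𝔪 ^ n ∈ S := ⟨K₀ ⊓ K, hinf K₀ hK₀ K hK, rfl⟩
  have h2 : (K₀ ⊓ K) ⊔ 𝔪 ^ n ≤ K₀ ⊔ 𝔪 ^ n := sup_le_sup_right inf_le_left _
  have h3 := hMmin h1 h2
  exact h3.trans (sup_le_sup_right inf_le_right _)

include hfin hne hopen hinf in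
/-- Compactness: for every `n` some member of `𝒦` is contained in `sInf 𝒦 ⊔ 𝔪 ^ n`. -/
theorem exists_le_sup_pow (n₀ : ℕ) : ∃ K ∈ 𝒦, K ≤ sInf 𝒦 ⊔ 𝔪 ^ n₀ := by
  classical
  choose Kmin hKmin hleast using exists_least_sup_pow 𝔪 hfin 𝒦 hne hinf
  refine ⟨Kmin n₀, hKmin n₀, fun x hx => ?_⟩
  -- step of the recursion
  have hstep : ∀ n, ∀ z ∈ Kmin n ⊔ 𝔪 ^ n, ∃ z' ∈ Kmin (n + 1) ⊔ 𝔪 ^ (n + 1), z' - z ∈ 𝔪 ^ n := by
    intro n z hz
    have h1 := hleast n (Kmin (n + 1)) (hKmin (n + 1)) hz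
    obtain ⟨κ, hκ, μ, hμ, rfl⟩ := Submodule.mem_sup.mp h1
    refine ⟨κ, Submodule.mem_sup_left hκ, ?_⟩
    have : κ - (κ + μ) = -μ := by ring
    rw [this]
    exact (Ideal.neg_mem_iff _).mpr hμ
  -- the recursive sequence
  let s : (i : ℕ) → {z : P // z ∈ Kmin (n₀ + i) ⊔ 𝔪 ^ (n₀ + i)} := fun i =>
    Nat.rec ⟨x, Submodule.mem_sup_left hx⟩
      (fun i z => ⟨(hstep (n₀ + i) z.1 z.2).choose, (hstep (n₀ + i) z.1 z.2).choose_spec.1⟩) i
  have hs0 : (s 0).1 = x := rfl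
  have hsucc : ∀ i, (s (i + 1)).1 - (s i).1 ∈ 𝔪 ^ (n₀ + i) := fun i =>
    (hstep (n₀ + i) (s i).1 (s i).2).choose_spec.2
  obtain ⟨y, hy⟩ := exists_limit_of_succ 𝔪 (fun i => (s i).1) n₀ hsucc
  -- `y` lies in every `K ∈ 𝒦`
  have hyJ : y ∈ sInf 𝒦 := by
    rw [Submodule.mem_sInf]
    intro K hK
    obtain ⟨N, hN⟩ := hopen K hK
    have h1 : (s N).1 ∈ K := by
      have h2 := hleast (n₀ + N) K hK (s N).2
      have h3 : K ⊔ 𝔪 ^ (n₀ + N) ≤ K :=
        sup_le le_rfl ((Ideal.pow_le_pow_right (by omega)).trans hN)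
      exact h3 h2
    have h4 : y - (s N).1 ∈ K := (Ideal.pow_le_pow_right (by omega)).trans hN (hy N)
    have : y = (y - (s N).1) + (s N).1 := by ring
    rw [this]
    exact Ideal.add_mem _ h4 h1
  have hx' : x = y + -(y - x) := by ring
  rw [hx']
  refine Submodule.add_mem_sup hyJ ((Ideal.neg_mem_iff _).mpr ?_)
  have := hy 0
  simpa [hs0] using this

include hfin hne hopen hinf in
/-- Gluing: a compatible family of residue classes modulo the members of `𝒦` is induced by an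
element of `P`. -/
theorem exists_glue (a : ∀ K : Ideal P, P ⧸ K)
    (hcompat : ∀ K ∈ 𝒦, ∀ K' ∈ 𝒦, ∀ h : K ≤ K', Ideal.Quotient.factor h (a K) = a K') :
    ∃ x : P, ∀ K ∈ 𝒦, Ideal.Quotient.mk K x = a K := by
  classical
  choose Kc hKc hKle using exists_le_sup_pow 𝔪 hfin 𝒦 hne hopen hinf
  -- lifts
  have hlift : ∀ K : Ideal P, ∃ b : P, Ideal.Quotient.mk K b = a K := fun K =>
    Ideal.Quotient.mk_surjective (a K)
  choose lift hliftspec using hlift
  -- key comparison: if `K ≤ K'` (both in `𝒦`) then the lifts agree modulo `K'`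
  have hcmp : ∀ K ∈ 𝒦, ∀ K' ∈ 𝒦, lift K - lift K' ∈ K ⊔ K' := by
    intro K hK K' hK'
    have h1 : Ideal.Quotient.mk K (lift (K ⊓ K')) = a K := by
      have := hcompat (K ⊓ K') (hinf K hK K' hK') K hK inf_le_left
      rw [← hliftspec (K ⊓ K'), Ideal.Quotient.factor_mk] at this
      exact this
    have h2 : Ideal.Quotient.mk K' (lift (K ⊓ K')) = a K' := by
      have := hcompat (K ⊓ K') (hinf K hK K' hK') K' hK' inf_le_right
      rw [← hliftspec (K ⊓ K'), Ideal.Quotient.factor_mk] at this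
      exact this
    have h3 : lift K - lift (K ⊓ K') ∈ K := by
      rw [← Ideal.Quotient.eq, hliftspec, h1]
    have h4 : lift (K ⊓ K') - lift K' ∈ K' := by
      rw [← Ideal.Quotient.eq, hliftspec, h2]
    have : lift K - lift K' = (lift K - lift (K ⊓ K')) + (lift (K ⊓ K') - lift K') := by ring
    rw [this]
    exact Submodule.add_mem_sup h3 h4
  set J := sInf 𝒦 with hJ
  -- the sequence of lifts along `Kc n`
  set b : ℕ → P := fun n => lift (Kc n) with hb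
  have hbstep : ∀ n, b (n + 1) - b n ∈ J ⊔ 𝔪 ^ n := by
    intro n
    have h1 := hcmp (Kc (n + 1)) (hKc (n + 1)) (Kc n) (hKc n)
    have h2 : Kc (n + 1) ⊔ Kc n ≤ J ⊔ 𝔪 ^ n := by
      refine sup_le ((hKle (n + 1)).trans ?_) (hKle n)
      exact sup_le_sup_left (Ideal.pow_le_pow_right (by omega)) _
    exact h2 h1
  -- corrections
  have hdec : ∀ n, ∃ j ∈ J, b (n + 1) - b n - j ∈ 𝔪 ^ n := by
    intro n
    obtain ⟨j, hj, μ, hμ, hsum⟩ := Submodule.mem_sup.mp (hbstep n)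
    refine ⟨j, hj, ?_⟩
    rw [← hsum]
    simpa using hμ
  choose j hjJ hjμ using hdec
  set b' : ℕ → P := fun n => b n - ∑ i ∈ Finset.range n, j i with hb'
  have hb'J : ∀ n, b' n - b n ∈ J := by
    intro n
    have : b' n - b n = -∑ i ∈ Finset.range n, j i := by simp [hb']
    rw [this]
    exact (Ideal.neg_mem_iff _).mpr (Ideal.sum_mem _ fun i _ => hjJ i)
  have hb'step : ∀ n, b' (n + 1) - b' n ∈ 𝔪 ^ (0 + n) := by
    intro n
    have : b' (n + 1) - b' n = b (n + 1) - b n - j n := by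
      simp only [hb', Finset.sum_range_succ]; ring
    rw [this, zero_add]
    exact hjμ n
  obtain ⟨y, hy⟩ := exists_limit_of_succ 𝔪 b' 0 hb'step
  refine ⟨y, fun K hK => ?_⟩
  obtain ⟨N, hN⟩ := hopen K hK
  have hJK : J ≤ K := sInf_le hK
  have hKcN : Kc N ≤ K := (hKle N).trans (sup_le hJK hN)
  -- `y ≡ b N` modulo `K`
  have h1 : y - b N ∈ K := by
    have h2 : y - b' N ∈ K := by
      have := hy N
      rw [zero_add] at this
      exact hN this
    have h3 : b' N - b N ∈ K := hJK (hb'J N)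
    have : y - b N = (y - b' N) + (b' N - b N) := by ring
    rw [this]
    exact Ideal.add_mem _ h2 h3
  -- `b N ≡ lift K` modulo `K`
  have h4 : b N - lift K ∈ K := by
    have := hcmp (Kc N) (hKc N) K hK
    exact (sup_le hKcN le_rfl) this
  rw [← hliftspec K, Ideal.Quotient.eq]
  have : y - lift K = (y - b N) + (b N - lift K) := by ring
  rw [this]
  exact Ideal.add_mem _ h1 h4

end Main

end Fermat.Agent.S53
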