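import Fermat.Agent.S53.CoeffAlg
import Fermat.Agent.S53.Limit

/-!
# S53, part G: preparations for the Artinian-level universal object

* `mapRep φ r` : push-forward of a matrix valued homomorphism.
* the power series ring `MvPowerSeries (Fin m) 𝒪` is a coefficient algebra with finite quotients;
* quotients of coefficient algebras;
* descent of a matrix valued homomorphism along an injective ring homomorphism.
-/

set_option autoImplicit false

namespace Fermat.Agent.S53

open IsLocalRing

/-- Push-forward of a matrix valued homomorphism along a ring homomorphism. -/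
noncomputable abbrev mapRep {A B : Type} [CommRing A] [CommRing B] (φ : A →+* B)
    (r : GQ →* Matrix (Fin 2) (Fin 2) A) : GQ →* Matrix (Fin 2) (Fin 2) B :=
  φ.mapMatrix.toMonoidHom.comp r

lemma mapRep_apply {A B : Type} [CommRing A] [CommRing B] (φ : A →+* B)
    (r : GQ →* Matrix (Fin 2) (Fin 2) A) (σ : GQ) (i j : Fin 2) :
    mapRep φ r σ i j = φ (r σ i j) := rfl

lemma mapRep_comp {A B C : Type} [CommRing A] [CommRing B] [CommRing C] (φ : A →+* B)
    (ψ : B →+* C) (r : GQ →* Matrix (Fin 2) (Fin 2) A) :
    mapRep ψ (mapRep φ r) = mapRep (ψ.comp φ) r := by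
  ext σ i j
  rfl

/-- Descent of a matrix valued homomorphism along an injective ring homomorphism. -/
lemma exists_descent {A B : Type} [CommRing A] [CommRing B] (ι : B →+* A)
    (hι : Function.Injective ι) (r : GQ →* Matrix (Fin 2) (Fin 2) A)
    (hr : ∀ σ i j, ∃ b : B, ι b = r σ i j) :
    ∃ rB : GQ →* Matrix (Fin 2) (Fin 2) B, mapRep ι rB = r := by
  classical
  choose f hf using hr
  have hinj : Function.Injective (ι.mapMatrix : Matrix (Fin 2) (Fin 2) B → Matrix (Fin 2) (Fin 2) A) := by
    intro M N h
    ext i j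
    apply hι
    have := congrFun (congrFun h i) j
    simpa using this
  have hmap : ∀ σ, ι.mapMatrix (Matrix.of fun i j => f σ i j) = r σ := by
    intro σ
    ext i j
    simp [hf]
  refine ⟨{ toFun := fun σ => Matrix.of fun i j => f σ i j
            map_one' := ?_
            map_mul' := ?_ }, ?_⟩
  · apply hinj
    rw [hmap, map_one, map_one]
  · intro σ τ
    apply hinj
    rw [hmap, map_mul, map_mul, hmap, hmap]
  · ext σ i j
    simp [mapRep, hf]

section Quotient

variable {𝒪 : Type} [CommRing 𝒪] [IsLocalRing 𝒪]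

/-- The quotient map of a local ring to a local quotient maps the maximal ideal into the
maximal ideal. -/
lemma mk_mem_maximalIdeal {A : Type} [CommRing A] [IsLocalRing A] (K : Ideal A)
    [IsLocalRing (A ⧸ K)] {a : A} (ha : a ∈ maximalIdeal A) :
    Ideal.Quotient.mk K a ∈ maximalIdeal (A ⧸ K) := by
  have hK : K ≠ ⊤ := by
    intro h
    have : Subsingleton (A ⧸ K) := by
      rw [h]; exact Ideal.Quotient.subsingleton_iff.mpr rfl
    exact not_subsingleton (A ⧸ K) this
  rw [mem_maximalIdeal, mem_nonunits_iff]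
  intro hu
  obtain ⟨b, hb⟩ := hu.exists_right_inv
  obtain ⟨b, rfl⟩ := Ideal.Quotient.mk_surjective b
  rw [← map_mul, ← map_one (Ideal.Quotient.mk K), Ideal.Quotient.eq] at hb
  have h1 : a * b - 1 ∈ maximalIdeal A := le_maximalIdeal hK hb
  have h2 : a * b ∈ maximalIdeal A := Ideal.mul_mem_right _ _ ha
  have h3 : (1 : A) ∈ maximalIdeal A := by
    have : (1 : A) = a * b - (a * b - 1) := by ring
    rw [this]
    exact Ideal.sub_mem _ h2 h1
  exact (maximalIdeal A).ne_top_iff_one.mp (maximalIdeal.isMaximal A).ne_top h3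

/-- A local quotient of a coefficient algebra is a coefficient algebra. -/
lemma IsCoeffAlg.quotient {A : Type} [CommRing A] [IsLocalRing A] [Algebra 𝒪 A]
    (hA : IsCoeffAlg 𝒪 A) (K : Ideal A) [IsLocalRing (A ⧸ K)] : IsCoeffAlg 𝒪 (A ⧸ K) where
  isLocalHom := by
    constructor
    intro o ho
    by_contra hno
    have h1 : o ∈ maximalIdeal 𝒪 := by rwa [mem_maximalIdeal, mem_nonunits_iff]
    have h2 := mk_mem_maximalIdeal K (hA.algebraMap_mem h1)
    rw [mem_maximalIdeal, mem_nonunits_iff] at h2
    exact h2 ho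
  residue_surjective := by
    intro x
    obtain ⟨y, rfl⟩ := IsLocalRing.residue_surjective x
    obtain ⟨a, rfl⟩ := Ideal.Quotient.mk_surjective y
    obtain ⟨o, ho⟩ := hA.exists_sub_mem a
    refine ⟨o, ?_⟩
    have h1 := mk_mem_maximalIdeal K ho
    rw [map_sub] at h1
    show residue (A ⧸ K) (algebraMap 𝒪 (A ⧸ K) o) = residue (A ⧸ K) (Ideal.Quotient.mk K a)
    symm
    rw [← sub_eq_zero, ← map_sub, residue_eq_zero_iff]
    exact h1

/-- The residue field of a coefficient algebra is finite if that of `𝒪` is. -/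
lemma IsCoeffAlg.finite_residueField [Finite (ResidueField 𝒪)]
    {A : Type} [CommRing A] [IsLocalRing A] [Algebra 𝒪 A]
    (hA : IsCoeffAlg 𝒪 A) : Finite (ResidueField A) := by
  haveI := hA.isLocalHom
  refine Finite.of_surjective (ResidueField.map (algebraMap 𝒪 A)) ?_
  intro x
  obtain ⟨o, ho⟩ := hA.residue_surjective x
  exact ⟨residue 𝒪 o, by rw [ResidueField.map_residue]; exact ho⟩

/-- A local quotient of a noetherian coefficient algebra by an open ideal is an Artinian test
algebra. -/
lemma IsCoeffAlg.quotient_test [Finite (ResidueField 𝒪)]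
    {A : Type} [CommRing A] [IsLocalRing A] [IsNoetherianRing A] [Algebra 𝒪 A]
    (hA : IsCoeffAlg 𝒪 A) (K : Ideal A) [IsLocalRing (A ⧸ K)] (n : ℕ)
    (hn : maximalIdeal A ^ n ≤ K) : GaloisRep.IsArtinianTestAlgebra 𝒪 (A ⧸ K) where
  isLocalHom := (hA.quotient K).isLocalHom
  residue_surjective := (hA.quotient K).residue_surjective
  isArtinian := by
    haveI := hA.finite_residueField
    haveI : Finite (A ⧸ K) := finite_quotient_iff.mpr ⟨n, hn⟩
    infer_instance

/-- The residue field of `𝒪` is an Artinian test algebra. -/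
lemma residueField_test : GaloisRep.IsArtinianTestAlgebra 𝒪 (ResidueField 𝒪) where
  isLocalHom := by
    constructor
    intro o ho
    by_contra hno
    have h1 : o ∈ maximalIdeal 𝒪 := by rwa [mem_maximalIdeal, mem_nonunits_iff]
    have h2 : algebraMap 𝒪 (ResidueField 𝒪) o = 0 := by
      rw [ResidueField.algebraMap_eq]
      exact (residue_eq_zero_iff o).mpr h1
    rw [h2] at ho
    exact not_isUnit_zero ho
  residue_surjective := by
    intro x
    obtain ⟨y, rfl⟩ := IsLocalRing.residue_surjective x
    obtain ⟨o, rfl⟩ := IsLocalRing.residue_surjective y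
    exact ⟨o, rfl⟩
  isArtinian := inferInstance

end Quotient

section PowSer

variable (𝒪 : Type) [CommRing 𝒪] [IsLocalRing 𝒪] (m : ℕ)

/-- The power series ring is a coefficient algebra. -/
lemma isCoeffAlg_mvPowerSeries : IsCoeffAlg 𝒪 (MvPowerSeries (Fin m) 𝒪) where
  isLocalHom := by
    constructor
    intro o ho
    rw [MvPowerSeries.algebraMap_apply, Algebra.algebraMap_self, RingHom.id_apply] at ho
    have := MvPowerSeries.isUnit_iff_constantCoeff.mp ho
    simpa using this
  residue_surjective := by
    intro x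
    obtain ⟨f, rfl⟩ := IsLocalRing.residue_surjective x
    refine ⟨MvPowerSeries.constantCoeff f, ?_⟩
    show residue _ (algebraMap 𝒪 (MvPowerSeries (Fin m) 𝒪) (MvPowerSeries.constantCoeff f)) =
      residue _ f
    rw [← sub_eq_zero, ← map_sub, residue_eq_zero_iff, mem_maximalIdeal, mem_nonunits_iff,
      MvPowerSeries.isUnit_iff_constantCoeff]
    simp [MvPowerSeries.algebraMap_apply]

end PowSer

end Fermat.Agent.S53
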