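import Mathlib
import Fermat.Prelude.Def_GaloisRep_DeformationRingData
import Fermat.Prelude.Def_GaloisRep_DeformationCondition

/-!
# S53 (universal deformation ring): shared basic definitions

Matrix-valued lifts `r : GQ →* Matrix (Fin 2) (Fin 2) A` and the associated `GaloisRepAdic A`.
-/

set_option autoImplicit false

namespace Fermat.Agent.S53

/-- The absolute Galois group of `ℚ`. -/
abbrev GQ : Type := AlgebraicClosure ℚ ≃ₐ[ℚ] AlgebraicClosure ℚ

section

variable {A : Type} [CommRing A] [IsLocalRing A]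

/-- Adic continuity of a matrix valued homomorphism: for every `n`, `r` is trivial
modulo `𝔪 ^ n` on the subgroup fixing some finite extension `L` of `ℚ`. -/
def MatCont (r : GQ →* Matrix (Fin 2) (Fin 2) A) : Prop :=
  ∀ n : ℕ, ∃ L : IntermediateField ℚ (AlgebraicClosure ℚ), FiniteDimensional ℚ L ∧
    ∀ σ : GQ, (∀ x ∈ L, σ x = x) →
      ∀ i j, (r σ - 1) i j ∈ IsLocalRing.maximalIdeal A ^ n

/-- The `GaloisRepAdic` attached to a continuous matrix valued homomorphism
(`V = Fin 2 → A`, acting by `Matrix.mulVecLin`). -/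
noncomputable def ofMatrix (r : GQ →* Matrix (Fin 2) (Fin 2) A) (hr : MatCont r) :
    GaloisRepAdic A where
  V := Fin 2 → A
  finrank_eq := by simp
  ρ :=
    { toFun := fun σ => Matrix.mulVecLin (r σ)
      map_one' := by simp; rfl
      map_mul' := fun σ τ => by simp [Matrix.mulVecLin_mul]; rfl }
  isAdicContinuous := by
    intro n
    obtain ⟨L, hL, h⟩ := hr n
    refine ⟨L, hL, fun σ hσ v => ?_⟩
    have h1 : (Matrix.mulVecLin (r σ)) v - v = (r σ - 1).mulVec v := by
      simp [Matrix.sub_mulVec]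
    show (Matrix.mulVecLin (r σ)) v - v ∈ _
    rw [h1]
    have h2 : (r σ - 1).mulVec v = ∑ i : Fin 2, ((r σ - 1).mulVec v i) • (Pi.single i (1 : A) : Fin 2 → A) := by
      ext j
      simp [Finset.sum_apply, Pi.single_apply]
    rw [h2]
    refine Submodule.sum_mem _ fun i _ => ?_
    refine Submodule.smul_mem_smul ?_ Submodule.mem_top
    simp only [Matrix.mulVec, dotProduct]
    exact Ideal.sum_mem _ fun j _ => Ideal.mul_mem_right _ _ (h σ hσ i j)

@[simp] lemma ofMatrix_V (r : GQ →* Matrix (Fin 2) (Fin 2) A) (hr : MatCont r) :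
    (ofMatrix r hr).V = (Fin 2 → A) := rfl

lemma ofMatrix_ρ_apply (r : GQ →* Matrix (Fin 2) (Fin 2) A) (hr : MatCont r) (σ : GQ)
    (v : Fin 2 → A) : (ofMatrix r hr).ρ σ v = (r σ).mulVec v := rfl

end

end Fermat.Agent.S53
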