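import Mathlib

/-!
# S53, part F2: evaluation of power series at nilpotent elements

For a finite index type `σ`, an `𝒪`-algebra `A` and `x : σ → A` such that the ideal generated
by the `x s` is nilpotent, we construct the `𝒪`-algebra homomorphism
`psEval x N h : MvPowerSeries σ 𝒪 →ₐ[𝒪] A` with `X s ↦ x s` and prove its uniqueness.
-/

set_option autoImplicit false

namespace Fermat.Agent.S53

open MvPowerSeries

section Trunc

variable {𝒪 : Type*} [CommRing 𝒪] {σ : Type*} [Finite σ]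

/-- The ideal of `MvPowerSeries σ 𝒪` generated by the variables. -/
noncomputable abbrev psVars (σ : Type*) (𝒪 : Type*) [CommRing 𝒪] : Ideal (MvPowerSeries σ 𝒪) :=
  Ideal.span (Set.range (X : σ → MvPowerSeries σ 𝒪))

lemma coe_mem_psVars_pow {N : ℕ} {p : MvPolynomial σ 𝒪}
    (hp : p ∈ MvPolynomial.idealOfVars σ 𝒪 ^ N) :
    (p : MvPowerSeries σ 𝒪) ∈ psVars σ 𝒪 ^ N := by
  have h1 : (MvPolynomial.idealOfVars σ 𝒪).map
      (MvPolynomial.coeToMvPowerSeries.ringHom : MvPolynomial σ 𝒪 →+* MvPowerSeries σ 𝒪)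
      = psVars σ 𝒪 := by
    rw [MvPolynomial.idealOfVars, Ideal.map_span, ← Set.range_comp]
    congr 2
    ext1 s
    simp
  have h2 := Ideal.mem_map_of_mem
    (MvPolynomial.coeToMvPowerSeries.ringHom : MvPolynomial σ 𝒪 →+* MvPowerSeries σ 𝒪) hp
  rw [Ideal.map_pow, h1] at h2
  exact h2

/-- Every power series is congruent to a polynomial modulo `(X)^N`. -/
lemma exists_poly_sub_mem_pow (f : MvPowerSeries σ 𝒪) (N : ℕ) :
    ∃ p : MvPolynomial σ 𝒪, f - (p : MvPowerSeries σ 𝒪) ∈ psVars σ 𝒪 ^ N := by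
  classical
  set I := MvPolynomial.idealOfVars σ 𝒪 with hI
  have hfg : I.FG := MvPolynomial.idealOfVars_fg σ 𝒪
  set e := toAdicCompletionAlgEquiv σ 𝒪 with he
  obtain ⟨p, hp⟩ := Submodule.mkQ_surjective _ (AdicCompletion.eval I (MvPolynomial σ 𝒪) N (e f))
  refine ⟨p, ?_⟩
  have hker : e f - AdicCompletion.of I (MvPolynomial σ 𝒪) p ∈
      (AdicCompletion.eval I (MvPolynomial σ 𝒪) N).ker := by
    rw [LinearMap.mem_ker, map_sub, AdicCompletion.eval_of, hp, sub_self]
  rw [← AdicCompletion.pow_smul_top_eq_ker_eval hfg] at hker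
  have hcoe : e (p : MvPowerSeries σ 𝒪) = AdicCompletion.of I (MvPolynomial σ 𝒪) p := by
    rw [he, toAdicCompletionAlgEquiv_apply, toAdicCompletion_coe]
  have key : ∀ y ∈ (I ^ N • ⊤ : Submodule (MvPolynomial σ 𝒪)
      (AdicCompletion I (MvPolynomial σ 𝒪))), e.symm y ∈ psVars σ 𝒪 ^ N := by
    intro y hy
    refine Submodule.smul_induction_on hy ?_ ?_
    · intro a ha z _
      rw [map_smul, Algebra.smul_def]
      exact Ideal.mul_mem_right _ _ (coe_mem_psVars_pow ha)
    · intro y z hy hz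
      rw [map_add]
      exact Ideal.add_mem _ hy hz
  have := key _ hker
  rw [map_sub, ← hcoe, AlgEquiv.symm_apply_apply, AlgEquiv.symm_apply_apply] at this
  exact this

end Trunc

section Eval

variable {𝒪 : Type*} [CommRing 𝒪] {σ : Type*} [Finite σ] {A : Type*} [CommRing A] [Algebra 𝒪 A]

lemma aeval_mem_span_pow (x : σ → A) {N : ℕ} {p : MvPolynomial σ 𝒪}
    (hp : p ∈ MvPolynomial.idealOfVars σ 𝒪 ^ N) :
    MvPolynomial.aeval x p ∈ Ideal.span (Set.range x) ^ N := by
  have h1 : (MvPolynomial.idealOfVars σ 𝒪).map (MvPolynomial.aeval x : MvPolynomial σ 𝒪 →ₐ[𝒪] A)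
      = Ideal.span (Set.range x) := by
    rw [MvPolynomial.idealOfVars, Ideal.map_span, ← Set.range_comp]
    congr 2
    ext1 s
    simp
  have h2 := Ideal.mem_map_of_mem (MvPolynomial.aeval x : MvPolynomial σ 𝒪 →ₐ[𝒪] A) hp
  rw [Ideal.map_pow, h1] at h2
  exact h2

/-- Any `𝒪`-algebra map out of the power series ring sends `(X)^N` into the `N`-th power of the
ideal generated by the images of the variables. -/
lemma algHom_mem_span_pow (ψ : MvPowerSeries σ 𝒪 →ₐ[𝒪] A) {N : ℕ} {f : MvPowerSeries σ 𝒪}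
    (hf : f ∈ psVars σ 𝒪 ^ N) :
    ψ f ∈ Ideal.span (Set.range fun s => ψ (X s)) ^ N := by
  have h1 : (psVars σ 𝒪).map ψ = Ideal.span (Set.range fun s => ψ (X s)) := by
    rw [psVars, Ideal.map_span, ← Set.range_comp]
    rfl
  have h2 := Ideal.mem_map_of_mem ψ hf
  rw [Ideal.map_pow, h1] at h2
  exact h2

/-- Uniqueness: two `𝒪`-algebra maps from the power series ring into `A` which agree on the
variables are equal, provided the ideal generated by the images of the variables is nilpotent. -/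
theorem psAlgHom_ext (ψ ψ' : MvPowerSeries σ 𝒪 →ₐ[𝒪] A) (h : ∀ s, ψ (X s) = ψ' (X s))
    (N : ℕ) (hN : Ideal.span (Set.range fun s => ψ (X s)) ^ N = ⊥) : ψ = ψ' := by
  have hpoly : ∀ p : MvPolynomial σ 𝒪, ψ (p : MvPowerSeries σ 𝒪) = ψ' (p : MvPowerSeries σ 𝒪) := by
    intro p
    have e1 : (ψ.comp (MvPolynomial.coeToMvPowerSeries.algHom 𝒪)) =
        (ψ'.comp (MvPolynomial.coeToMvPowerSeries.algHom 𝒪)) := by
      apply MvPolynomial.algHom_ext
      intro s
      simpa using h s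
    have := congrArg (fun φ : MvPolynomial σ 𝒪 →ₐ[𝒪] A => φ p) e1
    simpa using this
  have hN' : Ideal.span (Set.range fun s => ψ' (X s)) ^ N = ⊥ := by
    have : (fun s => ψ' (X s)) = fun s => ψ (X s) := funext fun s => (h s).symm
    rw [this]; exact hN
  ext f
  obtain ⟨p, hp⟩ := exists_poly_sub_mem_pow f N
  have h1 := algHom_mem_span_pow ψ hp
  have h2 := algHom_mem_span_pow ψ' hp
  rw [hN, Ideal.mem_bot, map_sub, sub_eq_zero] at h1
  rw [hN', Ideal.mem_bot, map_sub, sub_eq_zero] at h2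
  rw [h1, h2, hpoly]

/-- The evaluation homomorphism as a ring homomorphism. -/
noncomputable def psEvalRingHom (x : σ → A) (N : ℕ)
    (hx : Ideal.span (Set.range x) ^ N = ⊥) : MvPowerSeries σ 𝒪 →+* A :=
  (Ideal.Quotient.lift (MvPolynomial.idealOfVars σ 𝒪 ^ N)
      (MvPolynomial.aeval x : MvPolynomial σ 𝒪 →ₐ[𝒪] A).toRingHom
      (fun p hp => by
        have := aeval_mem_span_pow x hp
        rw [hx, Ideal.mem_bot] at this
        exact this)).comp
    ((AdicCompletion.evalₐ (MvPolynomial.idealOfVars σ 𝒪) N).toRingHom.comp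
      (toAdicCompletionAlgEquiv σ 𝒪).toRingEquiv.toRingHom)

lemma psEvalRingHom_coe (x : σ → A) (N : ℕ) (hx : Ideal.span (Set.range x) ^ N = ⊥)
    (p : MvPolynomial σ 𝒪) :
    psEvalRingHom x N hx (p : MvPowerSeries σ 𝒪) = MvPolynomial.aeval x p := by
  simp only [psEvalRingHom, RingHom.coe_comp, Function.comp_apply]
  have : (toAdicCompletionAlgEquiv σ 𝒪).toRingEquiv.toRingHom (p : MvPowerSeries σ 𝒪) =
      AdicCompletion.of (MvPolynomial.idealOfVars σ 𝒪) (MvPolynomial σ 𝒪) p := by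
    show toAdicCompletionAlgEquiv σ 𝒪 (p : MvPowerSeries σ 𝒪) = _
    rw [toAdicCompletionAlgEquiv_apply, toAdicCompletion_coe]
  rw [this]
  show (Ideal.Quotient.lift _ _ _) (AdicCompletion.evalₐ _ N (AdicCompletion.of _ _ p)) = _
  rw [AdicCompletion.evalₐ_of]
  rfl

/-- The evaluation homomorphism `X s ↦ x s`. -/
noncomputable def psEval (x : σ → A) (N : ℕ) (hx : Ideal.span (Set.range x) ^ N = ⊥) :
    MvPowerSeries σ 𝒪 →ₐ[𝒪] A :=
  { psEvalRingHom x N hx with
    commutes' := fun a => by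
      have h1 : algebraMap 𝒪 (MvPowerSeries σ 𝒪) a =
          ((MvPolynomial.C a : MvPolynomial σ 𝒪) : MvPowerSeries σ 𝒪) := by
        simp [MvPowerSeries.algebraMap_apply]
      show psEvalRingHom x N hx (algebraMap 𝒪 (MvPowerSeries σ 𝒪) a) = _
      rw [h1, psEvalRingHom_coe]
      simp }

@[simp] lemma psEval_X (x : σ → A) (N : ℕ) (hx : Ideal.span (Set.range x) ^ N = ⊥) (s : σ) :
    psEval x N hx (X s : MvPowerSeries σ 𝒪) = x s := by
  have h1 : (X s : MvPowerSeries σ 𝒪) = ((MvPolynomial.X s : MvPolynomial σ 𝒪) : MvPowerSeries σ 𝒪) := by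
    simp
  show psEvalRingHom x N hx (X s) = _
  rw [h1, psEvalRingHom_coe]
  simp

lemma psEval_coe (x : σ → A) (N : ℕ) (hx : Ideal.span (Set.range x) ^ N = ⊥)
    (p : MvPolynomial σ 𝒪) :
    psEval x N hx (p : MvPowerSeries σ 𝒪) = MvPolynomial.aeval x p :=
  psEvalRingHom_coe x N hx p

/-- Uniqueness of `psEval`. -/
theorem eq_psEval (x : σ → A) (N : ℕ) (hx : Ideal.span (Set.range x) ^ N = ⊥)
    (ψ : MvPowerSeries σ 𝒪 →ₐ[𝒪] A) (h : ∀ s, ψ (X s) = x s) : ψ = psEval x N hx := by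
  refine psAlgHom_ext ψ (psEval x N hx) (fun s => by rw [h, psEval_X]) N ?_
  have : (fun s => ψ (X s)) = x := funext h
  rw [this]; exact hx

end Eval

end Fermat.Agent.S53
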