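import Fermat.Agent.S53.Functor
import Fermat.Agent.S53.PowSerEval
import Fermat.Agent.S53.PowSerComplete

/-!
# S53: coefficient algebras, power series rings as coefficient algebras, surjectivity criterion
-/

set_option autoImplicit false

namespace Fermat.Agent.S53

open IsLocalRing

section General

variable {𝒪 : Type} [CommRing 𝒪] [IsLocalRing 𝒪]

/-- An Artinian test algebra is a coefficient algebra. -/
lemma IsCoeffAlg.of_test {A : Type} [CommRing A] [IsLocalRing A] [Algebra 𝒪 A]
    (h : GaloisRep.IsArtinianTestAlgebra 𝒪 A) : IsCoeffAlg 𝒪 A :=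
  ⟨h.isLocalHom, h.residue_surjective⟩

/-- Every element of a coefficient algebra is congruent to a constant modulo the maximal
ideal. -/
lemma IsCoeffAlg.exists_sub_mem {A : Type} [CommRing A] [IsLocalRing A] [Algebra 𝒪 A]
    (h : IsCoeffAlg 𝒪 A) (a : A) : ∃ o : 𝒪, a - algebraMap 𝒪 A o ∈ maximalIdeal A := by
  obtain ⟨o, ho⟩ := h.residue_surjective (residue A a)
  refine ⟨o, ?_⟩
  rw [← Ideal.Quotient.eq]
  exact ho.symm

/-- The structure map sends the maximal ideal into the maximal ideal. -/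
lemma IsCoeffAlg.algebraMap_mem {A : Type} [CommRing A] [IsLocalRing A] [Algebra 𝒪 A]
    (h : IsCoeffAlg 𝒪 A) {o : 𝒪} (ho : o ∈ maximalIdeal 𝒪) :
    algebraMap 𝒪 A o ∈ maximalIdeal A := by
  haveI := h.isLocalHom
  rw [mem_maximalIdeal, mem_nonunits_iff] at ho ⊢
  exact fun hu => ho (isUnit_of_map_unit (algebraMap 𝒪 A) o hu)

/-- Any `𝒪`-algebra homomorphism from a local `𝒪`-algebra to a coefficient algebra maps the
maximal ideal into the maximal ideal. -/
lemma algHom_map_maximalIdeal {A B : Type} [CommRing A] [IsLocalRing A] [Algebra 𝒪 A]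
    [CommRing B] [IsLocalRing B] [Algebra 𝒪 B] (hB : IsCoeffAlg 𝒪 B) (φ : A →ₐ[𝒪] B)
    {a : A} (ha : a ∈ maximalIdeal A) : φ a ∈ maximalIdeal B := by
  -- the composite `A → B → B/𝔪` is surjective, so its kernel is the maximal ideal of `A`
  let ψ : A →+* ResidueField B := (residue B).comp (φ : A →+* B)
  have hsurj : Function.Surjective ψ := by
    intro x
    obtain ⟨o, ho⟩ := hB.residue_surjective x
    refine ⟨algebraMap 𝒪 A o, ?_⟩
    simp only [ψ, RingHom.comp_apply, RingHom.coe_coe, AlgHom.commutes]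
    exact ho
  have hmax : (RingHom.ker ψ).IsMaximal := RingHom.ker_isMaximal_of_surjective ψ hsurj
  have hker : RingHom.ker ψ = maximalIdeal A := eq_maximalIdeal hmax
  have : a ∈ RingHom.ker ψ := hker ▸ ha
  rw [RingHom.mem_ker] at this
  exact (residue_eq_zero_iff _).mp this

/-- Any `𝒪`-algebra homomorphism from a local `𝒪`-algebra to a coefficient algebra is local. -/
lemma algHom_isLocalHom {A B : Type} [CommRing A] [IsLocalRing A] [Algebra 𝒪 A]
    [CommRing B] [IsLocalRing B] [Algebra 𝒪 B] (hB : IsCoeffAlg 𝒪 B) (φ : A →ₐ[𝒪] B) :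
    IsLocalHom (φ : A →+* B) := by
  constructor
  intro a ha
  by_contra hna
  have h1 : a ∈ maximalIdeal A := by rwa [mem_maximalIdeal, mem_nonunits_iff]
  have h2 := algHom_map_maximalIdeal hB φ h1
  rw [mem_maximalIdeal, mem_nonunits_iff] at h2
  exact h2 ha

/-- The maximal ideal of an Artinian local ring is nilpotent. -/
lemma exists_maximalIdeal_pow_eq_bot (A : Type) [CommRing A] [IsLocalRing A]
    [IsArtinianRing A] : ∃ N : ℕ, maximalIdeal A ^ N = ⊥ := by
  obtain ⟨n, hn⟩ := IsArtinianRing.isNilpotent_jacobson_bot (R := A)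
  rw [jacobson_eq_maximalIdeal _ bot_ne_top] at hn
  exact ⟨n, hn⟩

end General

section Surj

variable {𝒪 : Type*} [CommRing 𝒪] {A : Type*} [CommRing A] [Algebra 𝒪 A]

/-- A subalgebra containing generators of a nilpotent ideal `𝔫` such that every element is
congruent to a constant modulo `𝔫` is everything. -/
theorem subalgebra_eq_top_of_gen (B : Subalgebra 𝒪 A) (𝔫 : Ideal A) (G : Set A)
    (hGB : G ⊆ B) (hG𝔫 : G ⊆ 𝔫) (hspan : 𝔫 ≤ Ideal.span G)
    (hres : ∀ a : A, ∃ o : 𝒪, a - algebraMap 𝒪 A o ∈ 𝔫)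
    (N : ℕ) (hN : 𝔫 ^ N = ⊥) : B = ⊤ := by
  have hspan𝔫 : Ideal.span G ≤ 𝔫 := Ideal.span_le.mpr hG𝔫
  have key : ∀ n : ℕ, ∀ a : A, ∃ b ∈ B, a - b ∈ 𝔫 ^ n := by
    intro n
    induction n with
    | zero => intro a; exact ⟨0, B.zero_mem, by simp⟩
    | succ n ih =>
      -- first for elements of the ideal `span G`
      have hI : ∀ y ∈ Ideal.span G, ∃ b ∈ B, y - b ∈ 𝔫 ^ (n + 1) := by
        intro y hy
        refine Submodule.span_induction (p := fun y _ => ∃ b ∈ B, y - b ∈ 𝔫 ^ (n + 1))
          ?_ ?_ ?_ ?_ hy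
        · intro g hg
          exact ⟨g, hGB hg, by simp⟩
        · exact ⟨0, B.zero_mem, by simp⟩
        · rintro y z _ _ ⟨b, hb, hyb⟩ ⟨b', hb', hzb⟩
          refine ⟨b + b', B.add_mem hb hb', ?_⟩
          have : y + z - (b + b') = (y - b) + (z - b') := by ring
          rw [this]
          exact Ideal.add_mem _ hyb hzb
        · rintro a y hy ⟨b, hb, hyb⟩
          obtain ⟨b', hb', hab⟩ := ih a
          refine ⟨b' * b, B.mul_mem hb' hb, ?_⟩
          have hb𝔫 : b ∈ 𝔫 := by
            have h1 : y ∈ 𝔫 := hspan𝔫 hy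
            have h2 : y - b ∈ 𝔫 := Ideal.pow_le_self (by omega) hyb
            have : b = y - (y - b) := by ring
            rw [this]
            exact Ideal.sub_mem _ h1 h2
          have : a • y - b' * b = a * (y - b) + (a - b') * b := by
            rw [smul_eq_mul]; ring
          rw [this]
          refine Ideal.add_mem _ (Ideal.mul_mem_left _ _ hyb) ?_
          rw [pow_succ]
          exact Ideal.mul_mem_mul hab hb𝔫
      intro a
      obtain ⟨o, ho⟩ := hres a
      obtain ⟨b, hb, hyb⟩ := hI _ (hspan ho)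
      refine ⟨algebraMap 𝒪 A o + b, B.add_mem (B.algebraMap_mem o) hb, ?_⟩
      have : a - (algebraMap 𝒪 A o + b) = a - algebraMap 𝒪 A o - b := by ring
      rw [this]
      exact hyb
  rw [eq_top_iff]
  intro a _
  obtain ⟨b, hb, hab⟩ := key N a
  rw [hN, Ideal.mem_bot, sub_eq_zero] at hab
  rw [hab]
  exact hb

end Surj

end Fermat.Agent.S53
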