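import Fermat.Agent.S53.RingSide
import Fermat.Agent.S53.Transport

/-!
# S53 part D (helper8): the fields `map`, `of_map_injective`, `of_forall_artin` of
`RingSideInput`, in exactly the form of `RingSide.lean`.
-/

set_option autoImplicit false
set_option linter.style.haveILetI false
set_option linter.unusedSectionVars false

namespace Fermat.Agent.S53

open IsLocalRing GaloisRep

variable {𝒪 : Type} [CommRing 𝒪] [IsLocalRing 𝒪]
  {𝒟 : ∀ ⦃A : Type⦄ [CommRing A] [IsLocalRing A] [Algebra 𝒪 A], GaloisRepAdic A → Prop}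
  {c : GQ → Matrix (Fin 2) (Fin 2) 𝒪} {E : Set (NormEq 𝒪)}

/-- field `map` (T1) of `RingSideInput`. -/
theorem S53_RS_map (h𝒟 : IsDeformationCondition 𝒪 𝒟) :
    ∀ {A B : Type} [CommRing A] [IsLocalRing A] [Algebra 𝒪 A]
    [CommRing B] [IsLocalRing B] [Algebra 𝒪 B],
    GaloisRep.IsArtinianTestAlgebra 𝒪 A → GaloisRep.IsArtinianTestAlgebra 𝒪 B →
    ∀ (φ : A →ₐ[𝒪] B) (r : GQ →* Matrix (Fin 2) (Fin 2) A),
      InF 𝒟 c E r → InF 𝒟 c E (mapRep (φ : A →+* B) r) :=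
  fun hA hB φ _ hr => InF.map' h𝒟 hA hB φ hr

/-- field `of_map_injective` (T2) of `RingSideInput`. -/
theorem S53_RS_of_map_injective (h𝒟 : IsDeformationCondition 𝒪 𝒟) :
    ∀ {A B : Type} [CommRing A] [IsLocalRing A] [Algebra 𝒪 A]
    [CommRing B] [IsLocalRing B] [Algebra 𝒪 B],
    GaloisRep.IsArtinianTestAlgebra 𝒪 A → GaloisRep.IsArtinianTestAlgebra 𝒪 B →
    ∀ (φ : A →ₐ[𝒪] B) (r : GQ →* Matrix (Fin 2) (Fin 2) A), Function.Injective φ →
      InF 𝒟 c E (mapRep (φ : A →+* B) r) → InF 𝒟 c E r :=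
  fun hA hB φ _ hinj hr => InF.of_map_injective h𝒟 hA hB φ hinj hr

/-- field `of_forall_artin` (T4) of `RingSideInput`. -/
theorem S53_RS_of_forall_artin (h𝒟 : IsDeformationCondition 𝒪 𝒟) :
    ∀ {R : Type} [CommRing R] [IsLocalRing R] [IsNoetherianRing R]
    [IsAdicComplete (maximalIdeal R) R] [Algebra 𝒪 R], IsCoeffAlg 𝒪 R →
    ∀ (r : GQ →* Matrix (Fin 2) (Fin 2) R) (hr : MatCont r),
      (∀ (B : Type) [CommRing B] [IsLocalRing B] [Algebra 𝒪 B],
        GaloisRep.IsArtinianTestAlgebra 𝒪 B → ∀ q : R →ₐ[𝒪] B, Function.Surjective q →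
          InF 𝒟 c E (mapRep (q : R →+* B) r)) →
      𝒟 (ofMatrix r hr) := by
  intro R _ _ _ _ _ hR r hr h
  rw [h𝒟.iff_forall_surjective hR.isLocalHom hR.residue_surjective (ofMatrix r hr)]
  intro B _ _ _ hB q hq hqsurj
  obtain ⟨e⟩ := S53_baseChangeAlong_ofMatrix (q : R →+* B) hq r hr
  exact h𝒟.of_isEquiv hB ⟨e.symm⟩ (h B hB q hqsurj).type

end Fermat.Agent.S53
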