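import Fermat.Agent.S53.Functor

/-!
# S53 part D (helper8): basic facts on Artinian test algebras

* ring homs out of Artinian local rings are local;
* Artinian test algebras are finite (finite residue field);
* quotients, `A ⧸ 𝔪 ^ (n+1)` and `𝒪`-subalgebras of Artinian test algebras are Artinian test algebras.
-/

set_option autoImplicit false
set_option linter.style.haveILetI false
set_option linter.unusedSectionVars false

namespace Fermat.Agent.S53

open IsLocalRing GaloisRep

/-- A ring hom from an Artinian local ring to a nontrivial ring is local. -/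
theorem S53_isLocalHom_of_isArtinianRing {A B : Type*} [CommRing A] [IsLocalRing A]
    [IsArtinianRing A] [CommRing B] [Nontrivial B] (φ : A →+* B) : IsLocalHom φ := by
  refine ⟨fun a ha => ?_⟩
  by_contra hna
  have hmem : a ∈ maximalIdeal A := (mem_maximalIdeal a).mpr hna
  obtain ⟨n, hn⟩ := (isArtinianRing_iff_isNilpotent_maximalIdeal A).mp ‹_›
  have h0 : a ^ n = 0 := by
    have : a ^ n ∈ maximalIdeal A ^ n := Ideal.pow_mem_pow hmem n
    rw [hn] at this
    simpa using this
  have h1 : (φ a) ^ n = 0 := by rw [← map_pow, h0, map_zero]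
  exact (ha.pow n).ne_zero h1

/-- The quotient of a local ring by a proper ideal is local. -/
theorem S53_isLocalRing_quotient {A : Type*} [CommRing A] [IsLocalRing A] (I : Ideal A)
    (hI : I ≠ ⊤) : IsLocalRing (A ⧸ I) :=
  haveI : Nontrivial (A ⧸ I) := Ideal.Quotient.nontrivial_iff.mpr hI
  IsLocalRing.of_surjective' (Ideal.Quotient.mk I) Ideal.Quotient.mk_surjective

/-- `A ⧸ 𝔪 ^ (n+1)` is a local ring. -/
instance S53_instIsLocalRingQuotPow (A : Type*) [CommRing A] [IsLocalRing A] (n : ℕ) :
    IsLocalRing (A ⧸ maximalIdeal A ^ (n + 1)) :=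
  S53_isLocalRing_quotient _ (fun h => by
    have h1 : maximalIdeal A ^ (n + 1) ≤ maximalIdeal A := Ideal.pow_le_self (by omega)
    rw [h] at h1
    exact (maximalIdeal.isMaximal A).ne_top (top_le_iff.mp h1))

section Finite

variable {A : Type*} [CommRing A] [IsLocalRing A]

/-- Over a local ring with finite residue field, modules of finite length are finite. -/
theorem S53_finite_of_isFiniteLength [Finite (ResidueField A)] (M : Type*) [AddCommGroup M]
    [Module A M] (h : IsFiniteLength A M) : Finite M := by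
  induction h with
  | of_subsingleton => infer_instance
  | @of_simple_quotient M _ _ N hs _ ih =>
    obtain ⟨I, hI, ⟨e⟩⟩ := isSimpleModule_iff_quot_maximal.mp hs
    have hIm : I = maximalIdeal A := IsLocalRing.eq_maximalIdeal hI
    subst hIm
    haveI : Finite (A ⧸ maximalIdeal A) := ‹Finite (ResidueField A)›
    haveI : Finite (M ⧸ N) := Finite.of_equiv _ e.symm.toEquiv
    haveI : Finite N.toAddSubgroup := ih
    haveI : Finite (M ⧸ N.toAddSubgroup) := ‹Finite (M ⧸ N)›
    exact Finite.of_addSubgroup_quotient N.toAddSubgroup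

/-- An Artinian local ring with finite residue field is finite. -/
theorem S53_finite_of_isArtinianRing [IsArtinianRing A] [Finite (ResidueField A)] : Finite A :=
  S53_finite_of_isFiniteLength A
    ((isFiniteLength_iff_isNoetherian_isArtinian (R := A) (M := A)).mpr
      ⟨inferInstance, inferInstance⟩)

end Finite

section TestAlg

variable {𝒪 : Type} [CommRing 𝒪] [IsLocalRing 𝒪]

/-- Artinian test algebras are coefficient algebras. -/
theorem S53_isCoeffAlg_of_isArtinianTestAlgebra {A : Type} [CommRing A] [IsLocalRing A]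
    [Algebra 𝒪 A] (hA : IsArtinianTestAlgebra 𝒪 A) : IsCoeffAlg 𝒪 A :=
  ⟨hA.isLocalHom, hA.residue_surjective⟩

/-- The residue field of a coefficient algebra is finite when that of `𝒪` is. -/
theorem S53_finite_residueField [Finite (ResidueField 𝒪)] {A : Type} [CommRing A] [IsLocalRing A]
    [Algebra 𝒪 A] (hA : IsCoeffAlg 𝒪 A) : Finite (ResidueField A) := by
  haveI := hA.isLocalHom
  have hsurj : Function.Surjective (ResidueField.map (algebraMap 𝒪 A)) := by
    intro y
    obtain ⟨x, rfl⟩ := hA.residue_surjective y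
    exact ⟨residue 𝒪 x, rfl⟩
  exact Finite.of_surjective _ hsurj

/-- Artinian test algebras over `𝒪` with finite residue field are finite rings. -/
theorem S53_finite_of_isArtinianTestAlgebra [Finite (ResidueField 𝒪)] {A : Type} [CommRing A]
    [IsLocalRing A] [Algebra 𝒪 A] (hA : IsArtinianTestAlgebra 𝒪 A) : Finite A := by
  haveI := hA.isArtinian
  haveI := S53_finite_residueField (S53_isCoeffAlg_of_isArtinianTestAlgebra hA)
  exact S53_finite_of_isArtinianRing

/-- Every element of a coefficient algebra is congruent to an element of `𝒪` modulo `𝔪`. -/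
theorem S53_exists_sub_mem_maximalIdeal {A : Type} [CommRing A] [IsLocalRing A]
    [Algebra 𝒪 A] (hA : IsCoeffAlg 𝒪 A) (a : A) :
    ∃ o : 𝒪, a - algebraMap 𝒪 A o ∈ maximalIdeal A := by
  obtain ⟨o, ho⟩ := hA.residue_surjective (residue A a)
  refine ⟨o, ?_⟩
  rw [← residue_eq_zero_iff, map_sub, sub_eq_zero]
  exact ho.symm

/-- A coefficient algebra structure passes to any local `𝒪`-algebra receiving a surjective
`𝒪`-algebra hom which is local. -/
theorem S53_isCoeffAlg_of_surjective {A B : Type} [CommRing A] [IsLocalRing A] [Algebra 𝒪 A]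
    [CommRing B] [IsLocalRing B] [Algebra 𝒪 B] (hA : IsCoeffAlg 𝒪 A) (φ : A →ₐ[𝒪] B)
    (hφ : IsLocalHom (φ : A →+* B)) (hsurj : Function.Surjective φ) : IsCoeffAlg 𝒪 B := by
  haveI := hA.isLocalHom
  have hmap : ∀ a ∈ maximalIdeal A, φ a ∈ maximalIdeal B := fun a ha =>
    (mem_maximalIdeal _).mpr (fun hu => ((mem_maximalIdeal a).mp ha)
      (hφ.map_nonunit a hu))
  refine ⟨⟨fun o ho => ?_⟩, fun y => ?_⟩
  · by_contra hno
    have h1 : algebraMap 𝒪 A o ∈ maximalIdeal A :=
      (mem_maximalIdeal _).mpr (fun hu => hno (isUnit_of_map_unit (algebraMap 𝒪 A) o hu))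
    have h2 := hmap _ h1
    rw [AlgHom.commutes] at h2
    exact (mem_maximalIdeal _).mp h2 ho
  · obtain ⟨b, rfl⟩ := residue_surjective y
    obtain ⟨a, rfl⟩ := hsurj b
    obtain ⟨o, ho⟩ := S53_exists_sub_mem_maximalIdeal hA a
    refine ⟨o, ?_⟩
    have h2 := hmap _ ho
    rw [map_sub, AlgHom.commutes] at h2
    rw [Function.comp_apply, eq_comm, ← sub_eq_zero, ← map_sub]
    exact (residue_eq_zero_iff _).mpr h2

/-- A surjective image (which is a local ring) of an Artinian test algebra is an Artinian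
test algebra. -/
theorem S53_isArtinianTestAlgebra_of_surjective {A B : Type} [CommRing A] [IsLocalRing A]
    [Algebra 𝒪 A] [CommRing B] [IsLocalRing B] [Algebra 𝒪 B] (hA : IsArtinianTestAlgebra 𝒪 A)
    (φ : A →ₐ[𝒪] B) (hsurj : Function.Surjective φ) : IsArtinianTestAlgebra 𝒪 B := by
  haveI := hA.isArtinian
  have hφ : IsLocalHom (φ : A →+* B) := S53_isLocalHom_of_isArtinianRing _
  have h := S53_isCoeffAlg_of_surjective (S53_isCoeffAlg_of_isArtinianTestAlgebra hA) φ hφ hsurj
  exact ⟨h.isLocalHom, h.residue_surjective,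
    Function.Surjective.isArtinianRing (f := (φ : A →+* B)) hsurj⟩

/-- For a noetherian coefficient algebra `A`, the quotient `A ⧸ 𝔪 ^ (n+1)` is an Artinian test
algebra. -/
theorem S53_isArtinianTestAlgebra_quotPow {A : Type} [CommRing A] [IsLocalRing A]
    [IsNoetherianRing A] [Algebra 𝒪 A] (hA : IsCoeffAlg 𝒪 A) (n : ℕ) :
    IsArtinianTestAlgebra 𝒪 (A ⧸ maximalIdeal A ^ (n + 1)) := by
  have hloc : IsLocalHom ((Ideal.Quotient.mkₐ 𝒪 (maximalIdeal A ^ (n + 1)) : A →ₐ[𝒪] _) :
      A →+* A ⧸ maximalIdeal A ^ (n + 1)) := by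
    refine ⟨fun a ha => ?_⟩
    by_contra hna
    have hmem : a ∈ maximalIdeal A := (mem_maximalIdeal a).mpr hna
    have h0 : (Ideal.Quotient.mk (maximalIdeal A ^ (n + 1)) a) ^ (n + 1) = 0 := by
      rw [← map_pow]
      exact Ideal.Quotient.eq_zero_iff_mem.mpr (Ideal.pow_mem_pow hmem _)
    exact (IsUnit.pow (n + 1) ha).ne_zero h0
  have h := S53_isCoeffAlg_of_surjective hA (Ideal.Quotient.mkₐ 𝒪 (maximalIdeal A ^ (n + 1)))
    hloc (Ideal.Quotient.mkₐ_surjective 𝒪 _)
  refine ⟨h.isLocalHom, h.residue_surjective, ?_⟩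
  rw [isArtinianRing_iff_isNilpotent_maximalIdeal]
  refine ⟨n + 1, ?_⟩
  have hmax : maximalIdeal (A ⧸ maximalIdeal A ^ (n + 1)) =
      (maximalIdeal A).map (Ideal.Quotient.mk (maximalIdeal A ^ (n + 1))) := by
    symm
    apply IsLocalRing.eq_maximalIdeal
    refine Ideal.IsMaximal.map_of_surjective_of_ker_le Ideal.Quotient.mk_surjective ?_
    rw [Ideal.mk_ker]
    exact Ideal.pow_le_self (by omega)
  rw [hmax, ← Ideal.map_pow, Ideal.zero_eq_bot, Ideal.map_eq_bot_iff_le_ker, Ideal.mk_ker]

section Subalgebra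

variable [Finite (ResidueField 𝒪)] {A : Type} [CommRing A] [IsLocalRing A] [Algebra 𝒪 A]

/-- In a finite ring, a subalgebra contains the inverses of its elements which are units. -/
theorem S53_isUnit_subalgebra_iff [Finite A] (S : Subalgebra 𝒪 A) (x : S) :
    IsUnit x ↔ IsUnit (x : A) := by
  constructor
  · intro h
    exact h.map S.val
  · intro h
    obtain ⟨u, hu⟩ := h
    have hpos : 0 < orderOf u := orderOf_pos u
    have h1 : u ^ orderOf u = 1 := pow_orderOf_eq_one u
    have h2 : (x : A) * (x : A) ^ (orderOf u - 1) = 1 := by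
      rw [← pow_succ', Nat.sub_add_cancel hpos, ← hu, ← Units.val_pow_eq_pow_val, h1,
        Units.val_one]
    refine IsUnit.of_mul_eq_one (x ^ (orderOf u - 1)) ?_
    apply Subtype.ext
    simpa using h2

/-- An `𝒪`-subalgebra of an Artinian test algebra (finite residue field) is a local ring. -/
theorem S53_subalgebra_isLocalRing (hA : IsArtinianTestAlgebra 𝒪 A) (S : Subalgebra 𝒪 A) :
    IsLocalRing S := by
  haveI := S53_finite_of_isArtinianTestAlgebra hA
  refine IsLocalRing.of_nonunits_add fun a b ha hb => ?_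
  rw [mem_nonunits_iff, S53_isUnit_subalgebra_iff] at ha hb ⊢
  have := nonunits_add (a := (a : A)) (b := (b : A)) ha hb
  simpa using this

/-- An `𝒪`-subalgebra of an Artinian test algebra (finite residue field) is an Artinian test
algebra. -/
theorem S53_subalgebra_isArtinianTestAlgebra (hA : IsArtinianTestAlgebra 𝒪 A)
    (S : Subalgebra 𝒪 A) [IsLocalRing S] : IsArtinianTestAlgebra 𝒪 S := by
  haveI := S53_finite_of_isArtinianTestAlgebra hA
  haveI := hA.isLocalHom
  have hmem : ∀ s : S, (s : A) ∈ maximalIdeal A → s ∈ maximalIdeal S := by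
    intro s hs
    rw [mem_maximalIdeal, mem_nonunits_iff, S53_isUnit_subalgebra_iff]
    exact (mem_maximalIdeal _).mp hs
  refine ⟨⟨fun o ho => ?_⟩, fun y => ?_, isArtinian_of_finite⟩
  · have h1 : IsUnit (algebraMap 𝒪 A o) := by
      have := ho.map S.val
      simpa using this
    exact isUnit_of_map_unit (algebraMap 𝒪 A) o h1
  · obtain ⟨s, rfl⟩ := residue_surjective y
    obtain ⟨o, ho⟩ := S53_exists_sub_mem_maximalIdeal
      (S53_isCoeffAlg_of_isArtinianTestAlgebra hA) (s : A)
    refine ⟨o, ?_⟩
    rw [Function.comp_apply, eq_comm, ← sub_eq_zero, ← map_sub, residue_eq_zero_iff]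
    apply hmem
    simpa using ho

end Subalgebra

end TestAlg

end Fermat.Agent.S53
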