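import Fermat.Agent.S53.Rigidify
import Fermat.Agent.S53.DictLift

/-!
# S53 part H (preparations): conjugation, maps, quotients by powers of the maximal ideal
-/

set_option autoImplicit false
set_option linter.unusedSectionVars false

open IsLocalRing

namespace Fermat.Agent.S53

section conj

variable {A : Type} [CommRing A] [IsLocalRing A]

lemma S53_U_mul_entries_mem (I : Ideal A) (P X : Matrix (Fin 2) (Fin 2) A)
    (hX : ∀ i j, X i j ∈ I) (i j : Fin 2) : (P * X) i j ∈ I := by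
  rw [Matrix.mul_apply]
  exact Ideal.sum_mem _ fun k _ => Ideal.mul_mem_left _ _ (hX k j)

lemma S53_U_entries_mul_mem (I : Ideal A) (X P : Matrix (Fin 2) (Fin 2) A)
    (hX : ∀ i j, X i j ∈ I) (i j : Fin 2) : (X * P) i j ∈ I := by
  rw [Matrix.mul_apply]
  exact Ideal.sum_mem _ fun k _ => Ideal.mul_mem_right _ _ (hX i k)

/-- (U3) `P` intertwines `r` and `conj P hP r`. -/
lemma S53_U_conj_intertwine (P : Matrix (Fin 2) (Fin 2) A) (hP : IsUnit P.det)
    (r : GQ →* Matrix (Fin 2) (Fin 2) A) (σ : GQ) :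
    P * r σ = conj P hP r σ * P := by
  rw [conj_apply, Matrix.mul_assoc, Matrix.nonsing_inv_mul P hP, Matrix.mul_one]

/-- (U1) conjugation preserves continuity. -/
lemma S53_U_matCont_conj (P : Matrix (Fin 2) (Fin 2) A) (hP : IsUnit P.det)
    (r : GQ →* Matrix (Fin 2) (Fin 2) A) (hr : MatCont r) : MatCont (conj P hP r) := by
  intro n
  obtain ⟨L, hL, h⟩ := hr n
  refine ⟨L, hL, fun σ hσ i j => ?_⟩
  have e : conj P hP r σ - 1 = P * (r σ - 1) * P⁻¹ := by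
    rw [conj_apply, Matrix.mul_sub, Matrix.sub_mul, Matrix.mul_one, Matrix.mul_nonsing_inv P hP]
  rw [e]
  exact S53_U_entries_mul_mem _ _ _ (S53_U_mul_entries_mem _ _ _ (h σ hσ)) i j

/-- (U2) conjugation by a matrix congruent to `1` preserves lifts. -/
lemma S53_U_isLift_conj {𝒪 : Type} [CommRing 𝒪] [Algebra 𝒪 A]
    (c : GQ → Matrix (Fin 2) (Fin 2) 𝒪)
    (P : Matrix (Fin 2) (Fin 2) A) (hP : IsUnit P.det)
    (hP1 : ∀ i j, (P - 1) i j ∈ maximalIdeal A)
    (r : GQ →* Matrix (Fin 2) (Fin 2) A) (hr : IsLift c r) : IsLift c (conj P hP r) := by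
  have hPm : P.map (residue A) = 1 := by
    rw [← S53_map_residue_one, S53_map_residue_eq_iff]
    exact hP1
  have hPim : P⁻¹.map (residue A) = 1 := S53_map_residue_inv P hP hPm
  rw [S53_isLift_iff] at hr ⊢
  intro σ
  rw [← hr σ]
  show (P * r σ * P⁻¹).map (residue A) = _
  rw [S53_map_residue_mul, S53_map_residue_mul, hPm, hPim, Matrix.one_mul, Matrix.mul_one]

end conj

section maps

variable {𝒪 : Type} [CommRing 𝒪]
variable {A : Type} [CommRing A] [IsLocalRing A] [Algebra 𝒪 A]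
variable {B : Type} [CommRing B] [IsLocalRing B] [Algebra 𝒪 B]

/-- Push forward of a matrix valued homomorphism along an algebra map. -/
noncomputable def S53_U_push (φ : A →ₐ[𝒪] B) (r : GQ →* Matrix (Fin 2) (Fin 2) A) :
    GQ →* Matrix (Fin 2) (Fin 2) B :=
  ((φ : A →+* B).mapMatrix.toMonoidHom).comp r

@[simp] lemma S53_U_push_apply (φ : A →ₐ[𝒪] B) (r : GQ →* Matrix (Fin 2) (Fin 2) A) (σ : GQ)
    (i j : Fin 2) : S53_U_push φ r σ i j = φ (r σ i j) := rfl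

lemma S53_U_isLift_push (c : GQ → Matrix (Fin 2) (Fin 2) 𝒪) (φ : A →ₐ[𝒪] B)
    (hφ : IsLocalHom (φ : A →+* B)) (r : GQ →* Matrix (Fin 2) (Fin 2) A) (hr : IsLift c r) :
    IsLift c (S53_U_push φ r) := by
  intro σ i j
  have h := hr σ i j
  have e : S53_U_push φ r σ i j - algebraMap 𝒪 B (c σ i j) =
      φ (r σ i j - algebraMap 𝒪 A (c σ i j)) := by
    rw [map_sub, AlgHom.commutes]; rfl
  rw [e]
  have : (φ : A →+* B) (r σ i j - algebraMap 𝒪 A (c σ i j)) ∈ maximalIdeal B := by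
    rw [mem_maximalIdeal, mem_nonunits_iff] at h ⊢
    intro hu
    exact h (hφ.map_nonunit _ hu)
  exact this

omit [IsLocalRing A] [IsLocalRing B] in
lemma S53_U_holds_push (e : NormEq 𝒪) (φ : A →ₐ[𝒪] B)
    (r : GQ →* Matrix (Fin 2) (Fin 2) A) (hr : e.Holds r) :
    e.Holds (S53_U_push φ r) := by
  unfold NormEq.Holds at hr ⊢
  have := congrArg φ hr
  rw [AlgHom.commutes, Finsupp.sum, map_sum] at this
  rw [Finsupp.sum, ← this]
  refine Finset.sum_congr rfl fun x _ => ?_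
  rw [map_mul, AlgHom.commutes]
  rfl

omit [IsLocalRing A] [IsLocalRing B] in
lemma S53_U_isNormalised_push (E : Set (NormEq 𝒪)) (φ : A →ₐ[𝒪] B)
    (r : GQ →* Matrix (Fin 2) (Fin 2) A) (hr : IsNormalised E r) :
    IsNormalised E (S53_U_push φ r) :=
  fun e he => S53_U_holds_push e φ r (hr e he)

lemma S53_U_matCont_push (φ : A →ₐ[𝒪] B) (hφ : IsLocalHom (φ : A →+* B))
    (r : GQ →* Matrix (Fin 2) (Fin 2) A) (hr : MatCont r) : MatCont (S53_U_push φ r) :=
  S53_matCont_map (φ : A →+* B) hφ r hr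

/-- (A1) restated for `S53_U_push`. -/
lemma S53_U_baseChange_isEquiv_push (φ : A →ₐ[𝒪] B) (hφ : IsLocalHom (φ : A →+* B))
    (r : GQ →* Matrix (Fin 2) (Fin 2) A) (hr : MatCont r) :
    ((ofMatrix r hr).baseChangeAlong (φ : A →+* B) hφ).IsEquiv
      (ofMatrix (S53_U_push φ r) (S53_U_matCont_push φ hφ r hr)) :=
  S53_baseChangeAlong_ofMatrix (φ : A →+* B) hφ r hr

end maps

section transfer

variable {𝒪 : Type} [CommRing 𝒪] [IsLocalRing 𝒪]
variable {𝒟 : ∀ ⦃A : Type⦄ [CommRing A] [IsLocalRing A] [Algebra 𝒪 A], GaloisRepAdic A → Prop}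

/-- Symmetry of `IsEquiv`. -/
lemma S53_U_isEquiv_symm {A : Type} [CommRing A] [IsLocalRing A] {ρ ρ' : GaloisRepAdic A}
    (h : ρ.IsEquiv ρ') : ρ'.IsEquiv ρ := by
  obtain ⟨e⟩ := h
  exact ⟨e.symm⟩

lemma S53_U_isEquiv_trans {A : Type} [CommRing A] [IsLocalRing A] {ρ ρ' ρ'' : GaloisRepAdic A}
    (h : ρ.IsEquiv ρ') (h' : ρ'.IsEquiv ρ'') : ρ.IsEquiv ρ'' := by
  obtain ⟨e⟩ := h
  obtain ⟨e'⟩ := h'
  exact ⟨e.trans e'⟩

lemma S53_U_isEquiv_baseChange {A B : Type} [CommRing A] [IsLocalRing A] [CommRing B]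
    [IsLocalRing B] (φ : A →+* B) (hφ : IsLocalHom φ) {ρ ρ' : GaloisRepAdic A}
    (h : ρ.IsEquiv ρ') : (ρ.baseChangeAlong φ hφ).IsEquiv (ρ'.baseChangeAlong φ hφ) := by
  obtain ⟨e⟩ := h
  exact ⟨e.baseChangeAlong φ hφ⟩

/-- (U5) `𝒟` is invariant under equivalence over complete noetherian coefficient algebras. -/
theorem S53_U_type_of_isEquiv (h𝒟 : GaloisRep.IsDeformationCondition 𝒪 𝒟)
    {A : Type} [CommRing A] [IsLocalRing A] [IsNoetherianRing A]
    [IsAdicComplete (maximalIdeal A) A] [Algebra 𝒪 A] (hA : IsCoeffAlg 𝒪 A)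
    {ρ ρ' : GaloisRepAdic A} (h : ρ.IsEquiv ρ') (hρ : 𝒟 ρ) : 𝒟 ρ' := by
  rw [h𝒟.iff_forall_surjective hA.isLocalHom hA.residue_surjective] at hρ ⊢
  intro B _ _ _ hB q hq hqs
  exact h𝒟.of_isEquiv hB (S53_U_isEquiv_baseChange _ hq h) (hρ hB q hq hqs)

end transfer

end Fermat.Agent.S53
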