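import Fermat.Agent.S53.UnivPrep

/-!
# S53 part H: the quotients `A ⧸ 𝔪 ^ (n+1)` as Artinian test algebras
-/

set_option autoImplicit false
set_option linter.unusedSectionVars false

open IsLocalRing

namespace Fermat.Agent.S53

section quot

variable {𝒪 : Type} [CommRing 𝒪] [IsLocalRing 𝒪]
variable (A : Type) [CommRing A] [IsLocalRing A]

/-- The quotient `A ⧸ 𝔪 ^ (n+1)`. -/
abbrev S53_U_Q (n : ℕ) : Type := A ⧸ maximalIdeal A ^ (n + 1)

lemma S53_U_pow_ne_top (n : ℕ) : maximalIdeal A ^ (n + 1) ≠ ⊤ := by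
  intro h
  have hle : maximalIdeal A ^ (n + 1) ≤ maximalIdeal A := Ideal.pow_le_self (by omega)
  rw [h] at hle
  exact (maximalIdeal.isMaximal A).ne_top (top_le_iff.mp hle)

instance S53_U_Q_nontrivial (n : ℕ) : Nontrivial (S53_U_Q A n) :=
  Ideal.Quotient.nontrivial_iff.mpr (S53_U_pow_ne_top A n)

instance S53_U_Q_isLocalRing (n : ℕ) : IsLocalRing (S53_U_Q A n) :=
  IsLocalRing.of_surjective' (Ideal.Quotient.mk (maximalIdeal A ^ (n + 1)))
    Ideal.Quotient.mk_surjective

lemma S53_U_Q_isLocalHom_mk (n : ℕ) :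
    IsLocalHom (Ideal.Quotient.mk (maximalIdeal A ^ (n + 1))) :=
  IsLocalHom.of_surjective _ Ideal.Quotient.mk_surjective

lemma S53_U_Q_maximalIdeal_pow (n : ℕ) : maximalIdeal (S53_U_Q A n) ^ (n + 1) = ⊥ := by
  rw [← IsLocalRing.map_maximalIdeal_of_surjective (Ideal.Quotient.mk (maximalIdeal A ^ (n + 1)))
    Ideal.Quotient.mk_surjective, ← Ideal.map_pow, Ideal.map_quotient_self]

instance S53_U_Q_isArtinianRing [IsNoetherianRing A] (n : ℕ) : IsArtinianRing (S53_U_Q A n) :=
  (isArtinianRing_iff_isNilpotent_maximalIdeal _).mpr ⟨n + 1, S53_U_Q_maximalIdeal_pow A n⟩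

variable {A}

/-- Any `𝒪`-algebra homomorphism into a coefficient algebra is local. -/
lemma S53_U_isLocalHom_of_algHom {R B : Type} [CommRing R] [IsLocalRing R] [Algebra 𝒪 R]
    [CommRing B] [IsLocalRing B] [Algebra 𝒪 B]
    (hB : Function.Surjective (residue B ∘ algebraMap 𝒪 B)) (φ : R →ₐ[𝒪] B) :
    IsLocalHom (φ : R →+* B) := by
  let ψ : R →+* ResidueField B := (residue B).comp (φ : R →+* B)
  have hψ : Function.Surjective ψ := by
    intro y
    obtain ⟨o, ho⟩ := hB y
    refine ⟨algebraMap 𝒪 R o, ?_⟩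
    show residue B (φ (algebraMap 𝒪 R o)) = y
    rw [AlgHom.commutes]
    exact ho
  have hker : RingHom.ker ψ = maximalIdeal R := by
    have : (RingHom.ker ψ).IsMaximal := RingHom.ker_isMaximal_of_surjective ψ hψ
    exact IsLocalRing.eq_maximalIdeal this
  refine ⟨fun x hx => ?_⟩
  by_contra hnu
  have hxm : x ∈ maximalIdeal R := (mem_maximalIdeal x).mpr hnu
  rw [← hker, RingHom.mem_ker] at hxm
  have : (φ : R →+* B) x ∈ maximalIdeal B := (residue_eq_zero_iff _).mp hxm
  exact ((mem_maximalIdeal _).mp this) hx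

variable (A)

/-- `A ⧸ 𝔪 ^ (n+1)` is an Artinian test algebra. -/
theorem S53_U_Q_isArtinianTestAlgebra [IsNoetherianRing A] [Algebra 𝒪 A]
    (hA : IsCoeffAlg 𝒪 A) (n : ℕ) :
    GaloisRep.IsArtinianTestAlgebra 𝒪 (S53_U_Q A n) where
  isLocalHom := by
    have h1 : IsLocalHom (algebraMap 𝒪 A) := hA.isLocalHom
    have h2 := S53_U_Q_isLocalHom_mk A n
    have : algebraMap 𝒪 (S53_U_Q A n) =
        (Ideal.Quotient.mk (maximalIdeal A ^ (n + 1))).comp (algebraMap 𝒪 A) := rfl
    rw [this]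
    exact RingHom.isLocalHom_comp _ _
  residue_surjective := by
    intro y
    obtain ⟨b, rfl⟩ := residue_surjective y
    obtain ⟨a, rfl⟩ := Ideal.Quotient.mk_surjective b
    obtain ⟨o, ho⟩ := hA.residue_surjective (residue A a)
    refine ⟨o, ?_⟩
    have hmem : algebraMap 𝒪 A o - a ∈ maximalIdeal A := by
      rw [← residue_eq_zero_iff, map_sub, sub_eq_zero]
      exact ho
    show residue (S53_U_Q A n) (Ideal.Quotient.mk _ (algebraMap 𝒪 A o)) =
      residue (S53_U_Q A n) (Ideal.Quotient.mk _ a)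
    rw [← sub_eq_zero, ← map_sub, ← map_sub, residue_eq_zero_iff,
      ← IsLocalRing.map_maximalIdeal_of_surjective
        (Ideal.Quotient.mk (maximalIdeal A ^ (n + 1))) Ideal.Quotient.mk_surjective]
    exact Ideal.mem_map_of_mem _ hmem
  isArtinian := inferInstance

end quot

end Fermat.Agent.S53
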